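import Fermat.Agent.S35.HeckeSkeleton
import Fermat.Agent.Red.HKGal

/-!
# S35, block HECKE, leaf HK-GAL (helper46)

`h46k_pushGalois : PushGalois`: the pushforwards `pushA M q`, `pushB M q : J₀(M q) → J₀(M)` along
the two degeneracy maps commute with the Galois action (the arithmetic Galois action intertwines
`heckeAlphaBar` and `heckeBetaBar`, and pushforward of divisors commutes with intertwined
semilinear automorphisms).
-/

set_option autoImplicit false

open AlgebraicCurve ModularCurve

noncomputable section

namespace Fermat.Agent.S35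

open Fermat.Agent.S24 (Kbar FF)
open Fermat.Agent.S29 (GQ)
open Fermat.Agent.Red.HKMod
open Fermat.Agent.Red.HKGal

section General

variable {K F F' : Type*} [Field K] [Field F] [Field F'] [Algebra K F] [Algebra K F']

/-- the pushforward of divisor classes commutes with intertwined semilinear automorphisms. -/
theorem h46k_hkPushAlong_smul (φ : F →ₐ[K] F') (hφ : φ.toRingHom.IsIntegral)
    (hfin : FiniteAlong K φ) (hN : NormFormulaAlong K φ hfin)
    (g : SemilinearAut K F) (g' : SemilinearAut K F')
    (h : SemilinearAut.IntertwinesAlong (φ : F →+* F') g g')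
    (hdeg : ∀ v : Place K F, v.deg ≠ 0) (x : Pic0 K F') :
    hkPushAlong φ hφ hfin hN (g' • x) = g • hkPushAlong φ hφ hfin hN x := by
  obtain ⟨D, rfl⟩ := Pic0.mk_surjective x
  rw [SemilinearAut.pic0_smul_mk, hkPushAlong_mk, hkPushAlong_mk, SemilinearAut.pic0_smul_mk]
  refine congrArg Pic0.mk (Subtype.ext ?_)
  show Divisor.pushforwardAlong φ hφ (g' • (D : Divisor K F'))
    = g • Divisor.pushforwardAlong φ hφ (D : Divisor K F')
  exact pushforwardAlong_smul φ hφ g g' h hdeg D

end General

/-- **HK-GAL.** -/
theorem h46k_pushGalois : PushGalois := by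
  intro M q _ _ σ x
  have hdeg : ∀ v : Place Kbar (FF M), v.deg ≠ 0 := fun v => by
    rw [Fermat.Agent.Red.HKMod.place_deg_FF M v]
    exact one_ne_zero
  constructor
  · exact h46k_hkPushAlong_smul (heckeAlphaBar Kbar M q) (heckeAlphaBarIntegral M q)
      (finiteAlong_heckeAlphaBar M q) (normFormulaAlong_heckeAlphaBar M q)
      (arithmeticGalois (modularFunctionFieldFull M) σ)
      (arithmeticGalois (modularFunctionFieldFull (M * q)) σ)
      (intertwines_heckeAlphaBar M q σ) hdeg x
  · exact h46k_hkPushAlong_smul (heckeBetaBar Kbar M q) (heckeBetaBarIntegral M q)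
      (finiteAlong_heckeBetaBar M q) (normFormulaAlong_heckeBetaBar M q)
      (arithmeticGalois (modularFunctionFieldFull M) σ)
      (arithmeticGalois (modularFunctionFieldFull (M * q)) σ)
      (intertwines_heckeBetaBar M q σ) hdeg x

end Fermat.Agent.S35
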