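import Fermat.Agent.S35.Skeleton
import Fermat.Agent.S35.HeckeSkeleton
import Fermat.Agent.Red.HKComm.Main
import Fermat.Agent.Red.Kron.FrickeGal

/-!
# S35 / HECKE-A: the push-forwards `α_*, β_* : J₀(M q) → J₀(M)` commute with `T_r`, `r ∤ M q`

Owner: helper41 (prefix `h41h_`).  Everything is unconditional.

* `h41h_baseChange` : base change `β^* α_* = a_* b^*` on divisors in a square of degeneracy maps
  `α = δ(e₁) : F_M → F_{M₁}`, `β = δ(e₂) : F_M → F_{M₂}`, `a = δ(e₁) : F_{M₂} → F_Z`,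
  `b = δ(e₂) : F_{M₁} → F_Z`, provided the square is linearly disjoint (equal degrees and
  generation);
* `h41h_push_corrE` : `δ(e)_* ∘ T_r = T_r ∘ δ(e)_*` on divisors, from the base change in the
  square `F_M → F_{M q}`, `F_M → F_{M r}`, `F_{M r} → F_{M q r}`, `F_{M q} → F_{M q r}`;
* `e = 1` (the map `α`): the square is the modular square of HK-COMM (`square gen …`);
* `e = q` (the map `β`): both degrees are `q + 1` (`finrank_heckeBetaBar`), and generation is
  the transport of the generation of the `α`-square by the Fricke involution `w_q` of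
  `F_{M r q}`, which restricts to the Fricke involution of `F_{M q}` along `δ(r)`
  (`h41h_fricke_degenE`);
* `h41h_pushHeckeComm : q.Prime → ¬ q ∣ M → PushHeckeComm M q` and
  `h41h_pushHecke : PushHecke`.
-/

set_option autoImplicit false

open AlgebraicCurve ModularCurve IntermediateField

noncomputable section

namespace Fermat.Agent.S35

open Fermat.Agent.S24 (Kbar FF jBar jdBar cst)
open Fermat.Agent.Red.HKMod
open Fermat.Agent.Red.HKComm
open Fermat.Agent.Red.Kron

/-- principal divisors of `F_M` (local instance). -/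
local instance h41h_instPD (M : ℕ) [NeZero M] : HasPrincipalDivisors Kbar (FF M) :=
  hasPrincipalDivisors_FF M

/-- `F_M` is finite over `K(j)` (local instance). -/
local instance h41h_instFD (M : ℕ) [NeZero M] : FiniteDimensional Kbar⟮jBar M⟯ (FF M) :=
  finiteDimensional_jBar M

/-! ## base change in a square of degeneracy maps -/

/-- **Base change** `δ(e₂)^* δ(e₁)_* = δ(e₁)_* δ(e₂)^*` in a linearly disjoint square of
degeneracy maps. -/
theorem h41h_baseChange {M M₁ M₂ Z : ℕ} [NeZero M] [NeZero M₁] [NeZero M₂] [NeZero Z]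
    (e₁ e₂ : ℕ) [NeZero e₁] [NeZero e₂]
    (hα : M * e₁ ∣ M₁) (hβ : M * e₂ ∣ M₂) (ha : M₂ * e₁ ∣ Z) (hb : M₁ * e₂ ∣ Z)
    (hdeg : finrankAlong Kbar (degenE e₁ ha) = finrankAlong Kbar (degenE e₁ hα))
    (hgen : (degenE e₁ ha).fieldRange ⊔ (degenE e₂ hb).fieldRange = ⊤)
    (D : Divisor Kbar (FF M₁)) :
    Divisor.pullbackAlong (degenE e₂ hβ) (isIntegral_degenE e₂ hβ)
        (Divisor.pushforwardAlong (degenE e₁ hα) (isIntegral_degenE e₁ hα) D)
      = Divisor.pushforwardAlong (degenE e₁ ha) (isIntegral_degenE e₁ ha)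
          (Divisor.pullbackAlong (degenE e₂ hb) (isIntegral_degenE e₂ hb) D) := by
  have h12 : M * (e₂ * e₁) ∣ Z := by
    rw [← mul_assoc]
    exact (mul_dvd_mul_right hβ e₁).trans ha
  have h21 : M * (e₁ * e₂) ∣ Z := by
    rw [← mul_assoc]
    exact (mul_dvd_mul_right hα e₂).trans hb
  have hcomm : (degenE e₁ ha).comp (degenE e₂ hβ) = (degenE e₂ hb).comp (degenE e₁ hα) := by
    rw [degenE_comp e₂ e₁ hβ ha h12, degenE_comp e₁ e₂ hα hb h21]
    exact degenE_congr (mul_comm e₂ e₁) _ _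
  exact hkbc_baseChange (degenE e₁ hα) (degenE e₂ hβ) (degenE e₁ ha) (degenE e₂ hb)
    (isIntegral_degenE e₁ hα) (isIntegral_degenE e₂ hβ) (isIntegral_degenE e₁ ha)
    (isIntegral_degenE e₂ hb) hcomm
    (fun v f hf => Fermat.Agent.Red.GFF.sum_fiberAlong_ord_eq_ord_norm (degenE e₁ hα)
      (isIntegral_degenE e₁ hα) (finiteAlong_degenE e₁ hα) (jBar M₁) v f hf)
    (fun v f hf => Fermat.Agent.Red.GFF.sum_fiberAlong_ord_eq_ord_norm (degenE e₁ ha)
      (isIntegral_degenE e₁ ha) (finiteAlong_degenE e₁ ha) (jBar Z) v f hf)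
    (Fermat.Agent.Red.GFF.exists_ord_eq_one_fiberAlong (degenE e₁ hα)
      (isIntegral_degenE e₁ hα) (finiteAlong_degenE e₁ hα))
    (norm_comp (degenE e₁ hα) (degenE e₂ hβ) (degenE e₁ ha) (degenE e₂ hb) hcomm
      (finiteAlong_degenE e₁ hα) (finiteAlong_degenE e₁ ha) hdeg hgen)
    (hkc_inertiaDegAlong_eq_one (degenE e₁ hα) (isIntegral_degenE e₁ hα)
      (finiteAlong_degenE e₁ hα) (jBar M₁))
    (hkc_inertiaDegAlong_eq_one (degenE e₁ ha) (isIntegral_degenE e₁ ha)
      (finiteAlong_degenE e₁ ha) (jBar Z))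
    D

/-! ## the push-forward along `δ(e)` commutes with the correspondence `T_r` -/

/-- `δ(e)_* ∘ T_r = T_r ∘ δ(e)_*` on divisors, for a linearly disjoint square. -/
theorem h41h_push_corrE {M q r : ℕ} [NeZero M] [NeZero q] [NeZero r] (e : ℕ) [NeZero e]
    (hα : M * e ∣ M * q) (ha : M * r * e ∣ M * q * r)
    (h1 : M * q * 1 ∣ M * q * r) (hrr : M * q * r ∣ M * q * r)
    (h1' : M * 1 ∣ M * r) (hrr' : M * r ∣ M * r)
    (hdeg : finrankAlong Kbar (degenE e ha) = finrankAlong Kbar (degenE e hα))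
    (hgen : (degenE e ha).fieldRange ⊔ (degenE r hrr).fieldRange = ⊤)
    (D : Divisor Kbar (FF (M * q))) :
    Divisor.pushforwardAlong (degenE e hα) (isIntegral_degenE e hα)
        (corrE (M * q) (M * q * r) 1 r h1 hrr D)
      = corrE M (M * r) 1 r h1' hrr'
          (Divisor.pushforwardAlong (degenE e hα) (isIntegral_degenE e hα) D) := by
  have hBC := h41h_baseChange e r hα hrr' ha hrr hdeg hgen D
  rw [corrE_apply, corrE_apply, hBC]
  have hE : M * (e * 1) ∣ M * q * r := by
    rw [← mul_assoc]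
    exact (mul_dvd_mul_right hα 1).trans h1
  have hE' : M * (1 * e) ∣ M * q * r := by
    rw [← mul_assoc]
    exact (mul_dvd_mul_right h1' e).trans ha
  have e1 : (degenE 1 h1).comp (degenE e hα) = degenE (e * 1) hE := degenE_comp e 1 hα h1 hE
  have e2 : (degenE e ha).comp (degenE 1 h1') = degenE (1 * e) hE' :=
    degenE_comp 1 e h1' ha hE'
  have e12 : (degenE 1 h1).comp (degenE e hα) = (degenE e ha).comp (degenE 1 h1') := by
    rw [e1, e2]
    exact degenE_congr (mul_comm e 1) _ _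
  have hi1 : ((degenE 1 h1).comp (degenE e hα)).toRingHom.IsIntegral := by
    rw [e1]
    exact isIntegral_degenE _ _
  have hi2 : ((degenE e ha).comp (degenE 1 h1')).toRingHom.IsIntegral := by
    rw [e2]
    exact isIntegral_degenE _ _
  rw [← Fermat.Agent.Red.GFF.pushforwardAlong_comp (degenE e hα) (degenE 1 h1)
      (isIntegral_degenE e hα) (isIntegral_degenE 1 h1) hi1 (place_deg_FF (M * q))
      (place_deg_FF (M * q * r)),
    ← Fermat.Agent.Red.GFF.pushforwardAlong_comp (degenE 1 h1') (degenE e ha)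
      (isIntegral_degenE 1 h1') (isIntegral_degenE e ha) hi2 (place_deg_FF (M * r))
      (place_deg_FF (M * q * r)),
    hkc_pushforwardAlong_congr e12 hi1 hi2]

/-! ## the square for `α` (`e = 1`) -/

/-- the `α`-square is linearly disjoint. -/
theorem h41h_square_alpha (M q r : ℕ) [NeZero M] [NeZero q] [NeZero r] (hq : q.Prime)
    (hr : r.Prime) (hrq : r ≠ q) (hα : M * 1 ∣ M * q) (ha : M * r * 1 ∣ M * q * r)
    (hrr : M * q * r ∣ M * q * r) :
    finrankAlong Kbar (degenE 1 ha) = finrankAlong Kbar (degenE 1 hα) ∧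
      (degenE 1 ha).fieldRange ⊔ (degenE r hrr).fieldRange = ⊤ :=
  square gen h52deg_deg hk40_psi M (M * q) (M * r) (M * q * r) r q hr hq hrq rfl rfl
    (by ring) hα ha hrr

/-! ## the square for `β` (`e = q`) -/

/-- the Fricke involution `w_q` of `F_{M r q}` restricts along `δ(r)` to the Fricke involution
of `F_{M q}`. -/
theorem h41h_fricke_degenE (M q r : ℕ) [NeZero M] [NeZero q] [NeZero r] (hq : q.Prime)
    (hqM : ¬ q ∣ M) (hqMr : ¬ q ∣ M * r) (hb : M * q * r ∣ M * r * q) (y : FF (M * q)) :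
    kFricke (M * r) q hq hqMr (degenE r hb y) = degenE r hb (kFricke M q hq hqM y) := by
  have hrr : M * r ∣ M * r := dvd_refl _
  induction y using kFF_induction_ab M q hq with
  | hc a =>
    rw [kFricke_cst]
    have h1 : degenE r hb (cst (M * q) a) = cst (M * r * q) a := (degenE r hb).commutes a
    rw [h1, kFricke_cst]
  | ha x =>
    have h1 : degenE r hb (heckeAlphaBar Kbar M q x)
        = heckeAlphaBar Kbar (M * r) q (degenE r hrr x) :=
      Subtype.ext (by rw [coe_degenE, coe_heckeAlphaBar, coe_heckeAlphaBar, coe_degenE])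
    have h2 : heckeBetaBar Kbar (M * r) q (degenE r hrr x)
        = degenE r hb (heckeBetaBar Kbar M q x) :=
      Subtype.ext (by
        rw [coe_heckeBetaBar, coe_degenE, coe_degenE, coe_heckeBetaBar, qExpand_qExpand,
          qExpand_qExpand]
        exact qExpand_congr (mul_comm q r) _)
    rw [h1, kFricke_alpha, kFricke_alpha, h2]
  | hb x =>
    have h1 : degenE r hb (heckeBetaBar Kbar M q x)
        = heckeBetaBar Kbar (M * r) q (degenE r hrr x) :=
      Subtype.ext (by
        rw [coe_heckeBetaBar, coe_degenE, coe_degenE, coe_heckeBetaBar, qExpand_qExpand,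
          qExpand_qExpand]
        exact qExpand_congr (mul_comm r q) _)
    have h2 : heckeAlphaBar Kbar (M * r) q (degenE r hrr x)
        = degenE r hb (heckeAlphaBar Kbar M q x) :=
      Subtype.ext (by rw [coe_degenE, coe_heckeAlphaBar, coe_heckeAlphaBar, coe_degenE])
    rw [h1, kFricke_beta, kFricke_beta, h2]
  | hadd x y hx hy => rw [map_add, map_add, map_add, map_add, hx, hy]
  | hinv x hx => rw [map_inv₀, map_inv₀, map_inv₀, map_inv₀, hx]
  | hmul x y hx hy => rw [map_mul, map_mul, map_mul, map_mul, hx, hy]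

/-- generation in the `β`-square. -/
theorem h41h_gen_beta (M q r Z : ℕ) [NeZero M] [NeZero q] [NeZero r] [NeZero Z] (hq : q.Prime)
    (hqM : ¬ q ∣ M) (hqMr : ¬ q ∣ M * r) (hZ : Z = M * r * q)
    (ha : M * r * q ∣ Z) (hb : M * q * r ∣ Z) :
    (degenE q ha).fieldRange ⊔ (degenE r hb).fieldRange = ⊤ := by
  subst hZ
  have h1 : M * r * 1 ∣ M * r * q := by
    rw [mul_one]
    exact dvd_mul_right _ _
  have hG := hksq_generation gen (M * q) (M * r) (M * r * q) r (by ring) h1 hb
  have hW1 : (kFricke (M * r) q hq hqMr : FF (M * r * q) →ₐ[Kbar] FF (M * r * q)).comp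
      (degenE 1 h1) = degenE q ha := by
    refine AlgHom.ext fun x => ?_
    have h2 : degenE 1 h1 x = heckeAlphaBar Kbar (M * r) q x := by
      rw [heckeAlphaBar_eq_degenE]
    have h3 : degenE q ha x = heckeBetaBar Kbar (M * r) q x := by
      rw [heckeBetaBar_eq_degenE]
    rw [AlgHom.comp_apply, h2, h3]
    exact kFricke_alpha (M * r) q hq hqMr x
  have hW2 : (kFricke (M * r) q hq hqMr : FF (M * r * q) →ₐ[Kbar] FF (M * r * q)).comp
      (degenE r hb) = (degenE r hb).comp
        (kFricke M q hq hqM : FF (M * q) →ₐ[Kbar] FF (M * q)) :=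
    AlgHom.ext fun y => h41h_fricke_degenE M q r hq hqM hqMr hb y
  have h4 := congrArg (IntermediateField.map
    (kFricke (M * r) q hq hqMr : FF (M * r * q) →ₐ[Kbar] FF (M * r * q))) hG
  rw [IntermediateField.map_sup, AlgHom.map_fieldRange, AlgHom.map_fieldRange, hW1, hW2,
    ← AlgHom.fieldRange_eq_map, AlgEquiv.fieldRange_eq_top, ← AlgHom.map_fieldRange,
    AlgEquiv.fieldRange_eq_top, ← AlgHom.fieldRange_eq_map] at h4
  exact h4

/-- the degrees in the `β`-square. -/
theorem h41h_deg_beta (M q r Z : ℕ) [NeZero M] [NeZero q] [NeZero r] [NeZero Z] (hq : q.Prime)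
    (hqM : ¬ q ∣ M) (hqMr : ¬ q ∣ M * r) (hZ : Z = M * r * q)
    (hα : M * q ∣ M * q) (ha : M * r * q ∣ Z) :
    finrankAlong Kbar (degenE q ha) = finrankAlong Kbar (degenE q hα) := by
  subst hZ
  have h1 : finrankAlong Kbar (heckeBetaBar Kbar (M * r) q) = q + 1 :=
    finrank_heckeBetaBar (M * r) q hq hqMr
  have h2 : finrankAlong Kbar (heckeBetaBar Kbar M q) = q + 1 :=
    finrank_heckeBetaBar M q hq hqM
  rw [heckeBetaBar_eq_degenE] at h1 h2
  exact h1.trans h2.symm

/-! ## the Hecke correspondences on divisors -/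

/-- `α_* ∘ T_r = T_r ∘ α_*` on divisors. -/
theorem h41h_push_alpha_heckeDivBar (M q r : ℕ) [NeZero M] [NeZero q] [NeZero r]
    (hq : q.Prime) (hr : r.Prime) (hrq : r ≠ q) (D : Divisor Kbar (FF (M * q))) :
    Divisor.pushforwardAlong (heckeAlphaBar Kbar M q) (heckeAlphaBarIntegral M q)
        (heckeDivBar (heckeAlphaBarIntegral (M * q) r) (heckeBetaBarIntegral (M * q) r) D)
      = heckeDivBar (heckeAlphaBarIntegral M r) (heckeBetaBarIntegral M r)
          (Divisor.pushforwardAlong (heckeAlphaBar Kbar M q) (heckeAlphaBarIntegral M q) D) := by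
  have hα : M * 1 ∣ M * q := by
    rw [mul_one]
    exact dvd_mul_right _ _
  have ha : M * r * 1 ∣ M * q * r := by
    rw [mul_one]
    exact ⟨q, by ring⟩
  have h1 : M * q * 1 ∣ M * q * r := by
    rw [mul_one]
    exact dvd_mul_right _ _
  have h1' : M * 1 ∣ M * r := by
    rw [mul_one]
    exact dvd_mul_right _ _
  obtain ⟨hdeg, hgen⟩ := h41h_square_alpha M q r hq hr hrq hα ha (dvd_refl _)
  rw [heckeDivBar_eq_corrE (M * q) r, heckeDivBar_eq_corrE M r,
    hkc_pushforwardAlong_congr (heckeAlphaBar_eq_degenE M q) (heckeAlphaBarIntegral M q)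
      (isIntegral_degenE 1 hα)]
  exact h41h_push_corrE 1 hα ha h1 (dvd_refl _) h1' (dvd_refl _) hdeg hgen D

/-- `β_* ∘ T_r = T_r ∘ β_*` on divisors. -/
theorem h41h_push_beta_heckeDivBar (M q r : ℕ) [NeZero M] [NeZero q] [NeZero r]
    (hq : q.Prime) (hqM : ¬ q ∣ M) (hqMr : ¬ q ∣ M * r) (D : Divisor Kbar (FF (M * q))) :
    Divisor.pushforwardAlong (heckeBetaBar Kbar M q) (heckeBetaBarIntegral M q)
        (heckeDivBar (heckeAlphaBarIntegral (M * q) r) (heckeBetaBarIntegral (M * q) r) D)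
      = heckeDivBar (heckeAlphaBarIntegral M r) (heckeBetaBarIntegral M r)
          (Divisor.pushforwardAlong (heckeBetaBar Kbar M q) (heckeBetaBarIntegral M q) D) := by
  have hα : M * q ∣ M * q := dvd_refl _
  have ha : M * r * q ∣ M * q * r := ⟨1, by ring⟩
  have h1 : M * q * 1 ∣ M * q * r := by
    rw [mul_one]
    exact dvd_mul_right _ _
  have h1' : M * 1 ∣ M * r := by
    rw [mul_one]
    exact dvd_mul_right _ _
  have hdeg := h41h_deg_beta M q r (M * q * r) hq hqM hqMr (by ring) hα ha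
  have hgen := h41h_gen_beta M q r (M * q * r) hq hqM hqMr (by ring) ha (dvd_refl _)
  rw [heckeDivBar_eq_corrE (M * q) r, heckeDivBar_eq_corrE M r,
    hkc_pushforwardAlong_congr (heckeBetaBar_eq_degenE M q) (heckeBetaBarIntegral M q)
      (isIntegral_degenE q hα)]
  exact h41h_push_corrE q hα ha h1 (dvd_refl _) h1' (dvd_refl _) hdeg hgen D

/-! ## `Pic⁰` -/

/-- arithmetic: `q ∤ M r` for primes `q ≠ r`, `q ∤ M`. -/
theorem h41h_not_dvd (M q : ℕ) (hq : q.Prime) (hqM : ¬ q ∣ M) (r : Nat.Primes)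
    (hr : ¬ (r : ℕ) ∣ M * q) : (r : ℕ) ≠ q ∧ ¬ q ∣ M * r := by
  have hrq : (r : ℕ) ≠ q := by
    intro h
    apply hr
    rw [h]
    exact dvd_mul_left q M
  refine ⟨hrq, fun h => ?_⟩
  rcases (Nat.Prime.dvd_mul hq).mp h with h | h
  · exact hqM h
  · exact hrq ((Nat.prime_dvd_prime_iff_eq hq r.2).mp h).symm

theorem h41h_pushAlpha_mk (M q : ℕ) [NeZero M] [NeZero q]
    (E : Divisor.degZero (K := Kbar) (F := FF (M * q))) :
    pushAlpha M q (Pic0.mk E)
      = Pic0.mk (degZeroPush (heckeAlphaBar Kbar M q) (heckeAlphaBarIntegral M q) E) :=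
  rfl

theorem h41h_pushBeta_mk (M q : ℕ) [NeZero M] [NeZero q]
    (E : Divisor.degZero (K := Kbar) (F := FF (M * q))) :
    pushBeta M q (Pic0.mk E)
      = Pic0.mk (degZeroPush (heckeBetaBar Kbar M q) (heckeBetaBarIntegral M q) E) :=
  rfl

theorem h41h_pushA_mk (M q : ℕ) [NeZero M] [NeZero q]
    (E : Divisor.degZero (K := Kbar) (F := FF (M * q))) :
    pushA M q (Pic0.mk E)
      = Pic0.mk (hkPushDegZero (heckeAlphaBar Kbar M q) (heckeAlphaBarIntegral M q) E) :=
  rfl

theorem h41h_pushB_mk (M q : ℕ) [NeZero M] [NeZero q]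
    (E : Divisor.degZero (K := Kbar) (F := FF (M * q))) :
    pushB M q (Pic0.mk E)
      = Pic0.mk (hkPushDegZero (heckeBetaBar Kbar M q) (heckeBetaBarIntegral M q) E) :=
  rfl

/-- **HECKE-A.**  The push-forwards `α_*, β_* : J₀(M q) → J₀(M)` commute with the Hecke
operators `T_r`, `r ∤ M q` (`q` prime, `q ∤ M`). -/
theorem h41h_pushHeckeComm (M q : ℕ) [NeZero M] [NeZero q] (hq : q.Prime) (hqM : ¬ q ∣ M) :
    PushHeckeComm M q := by
  intro r hr x
  have : NeZero (r : ℕ) := ⟨r.2.ne_zero⟩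
  obtain ⟨hrq, hqMr⟩ := h41h_not_dvd M q hq hqM r hr
  obtain ⟨D, rfl⟩ := Pic0.mk_surjective x
  constructor
  · rw [heckeOperatorBar_mk (M * q) r D, h41h_pushAlpha_mk, h41h_pushAlpha_mk,
      heckeOperatorBar_mk M r]
    congr 1
    apply Subtype.ext
    exact h41h_push_alpha_heckeDivBar M q r hq r.2 hrq D
  · rw [heckeOperatorBar_mk (M * q) r D, h41h_pushBeta_mk, h41h_pushBeta_mk,
      heckeOperatorBar_mk M r]
    congr 1
    apply Subtype.ext
    exact h41h_push_beta_heckeDivBar M q r hq hqM hqMr D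

/-- **HECKE-A**, in the form consumed by `NewQuarticAssembly`. -/
theorem h41h_pushHeckeComm_all :
    ∀ (M q : ℕ) [NeZero M] [NeZero q], q.Prime → ¬ q ∣ M → PushHeckeComm M q :=
  fun M q _ _ hq hqM => h41h_pushHeckeComm M q hq hqM

/-- **HK-EQUIV.**  The same statement for the maps `pushA`, `pushB` of `HeckeSkeleton`. -/
theorem h41h_pushHecke : PushHecke := by
  intro M q _ _ hq hqM r hr x
  have : NeZero (r : ℕ) := ⟨r.2.ne_zero⟩
  obtain ⟨hrq, hqMr⟩ := h41h_not_dvd M q hq hqM r hr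
  obtain ⟨D, rfl⟩ := Pic0.mk_surjective x
  constructor
  · rw [heckeOperatorBar_mk (M * q) r D, h41h_pushA_mk, h41h_pushA_mk,
      heckeOperatorBar_mk M r]
    congr 1
    apply Subtype.ext
    exact h41h_push_alpha_heckeDivBar M q r hq r.2 hrq D
  · rw [heckeOperatorBar_mk (M * q) r D, h41h_pushB_mk, h41h_pushB_mk,
      heckeOperatorBar_mk M r]
    congr 1
    apply Subtype.ext
    exact h41h_push_beta_heckeDivBar M q r hq hqM hqMr D

end Fermat.Agent.S35
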