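import Fermat.Agent.S35.HK.H41PushComm

/-!
# HECKE-A at all levels: `α_*, β_* : J₀(M q) → J₀(M)` commute with `T_r`, `r ∤ M q`, also for
`q ∣ M`

Owner: helper41 (prefix `h41g_`).  Everything is unconditional.  No Fricke involution at the
level `M q` is used (it does not exist in the landed library when `q ∣ M`):

* degree: `[F_L : δ_q F_N] ψ(N) = ψ(L)` for `N q ∣ L` (`h41g_deg`), from the tower law through
  `ℚ̄(j(t^q))`, `[F_{q} : ℚ̄(j(t^q))] = [F_q : ℚ̄(j)]` and `DegStatement`;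
* generation: `F_{r q} = ℚ̄(j(t^q), j(t^r))` (`h41g_adjoin_q_r`), the transport of
  `F_{r q} = ℚ̄(j, j(t^{r q}))` by the Fricke involution `w_q` of `F_{r q}`; hence
  `j ∈ δ_q(F_{M r}) ⊔ δ_r(F_{M q})` in `F_{M q r}` for every `M`;
* `h41g_pushHeckeComm (M q) : q.Prime → PushHeckeComm M q`.
-/

set_option autoImplicit false

open AlgebraicCurve ModularCurve IntermediateField

noncomputable section

namespace Fermat.Agent.S35

open Fermat.Agent.S24 (Kbar FF jBar jdBar cst)
open Fermat.Agent.Red.HKMod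
open Fermat.Agent.Red.HKComm
open Fermat.Agent.Red.Kron

/-- principal divisors of `F_M` (local instance). -/
local instance h41g_instPD (M : ℕ) [NeZero M] : HasPrincipalDivisors Kbar (FF M) :=
  hasPrincipalDivisors_FF M

/-- `F_M` is finite over `K(j)` (local instance). -/
local instance h41g_instFD (M : ℕ) [NeZero M] : FiniteDimensional Kbar⟮jBar M⟯ (FF M) :=
  finiteDimensional_jBar M

/-! ## `j(t^d)` -/

theorem h41g_jdBar_one (N : ℕ) [NeZero N] : jdBar N 1 (one_dvd N) = jBar N :=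
  Subtype.ext (by
    rw [Fermat.Agent.S24.coe_jdBar, Fermat.Agent.S24.coe_jBar, qExpand_one_apply])

/-- `δ_e(j) = j(t^e)`. -/
theorem h41g_degenE_jBar {N L : ℕ} [NeZero N] [NeZero L] (e : ℕ) [NeZero e] (h : N * e ∣ L)
    (he : e ∣ L) : degenE e h (jBar N) = jdBar L e he := by
  rw [← h41g_jdBar_one N, degenE_jdBar e h 1 (one_dvd N) (by rw [one_mul]; exact he)]
  exact hksq_jdBar_congr L (one_mul e) _ _

/-! ## degrees -/

/-- `[F_L : ℚ̄(j(t^q))] = ψ(L)` for a prime `q ∣ L`. -/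
theorem h41g_finrank_jdBar (L q : ℕ) [NeZero L] [NeZero q] (hq : q.Prime) (hqL : q ∣ L) :
    Module.finrank Kbar⟮jdBar L q hqL⟯ (FF L) = dedekindPsi L := by
  have hq1 : ¬ q ∣ 1 := fun h => hq.one_lt.ne' (Nat.dvd_one.mp h)
  have h1L : 1 * q * 1 ∣ L := by
    rw [mul_one, one_mul]
    exact hqL
  have hqq : q ∣ 1 * q := ⟨1, by ring⟩
  -- level `1 * q`
  have hA := h52deg_finrank_tower (heckeAlphaBar Kbar 1 q) (jBar 1)
  have hB := h52deg_finrank_tower (heckeBetaBar Kbar 1 q) (jBar 1)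
  have hdA : finrankAlong Kbar (heckeAlphaBar Kbar 1 q) = q + 1 :=
    finrank_heckeAlphaBar 1 q hq hq1
  have hdB : finrankAlong Kbar (heckeBetaBar Kbar 1 q) = q + 1 :=
    finrank_heckeBetaBar 1 q hq hq1
  have hjA : heckeAlphaBar Kbar 1 q (jBar 1) = jBar (1 * q) := heckeAlphaBar_jBar 1 q
  have hjB : heckeBetaBar Kbar 1 q (jBar 1) = jdBar (1 * q) q hqq := by
    rw [heckeBetaBar_eq_degenE]
    exact h41g_degenE_jBar q _ hqq
  rw [hjA, hdA] at hA
  rw [hjB, hdB] at hB
  have hq' : Module.finrank Kbar⟮jdBar (1 * q) q hqq⟯ (FF (1 * q)) = dedekindPsi (1 * q) := by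
    rw [hB, ← hA]
    exact (h52deg_ifaceFin (1 * q)).2.2
  -- up to level `L`
  have hT := h52deg_finrank_tower (degenE 1 h1L) (jdBar (1 * q) q hqq)
  have hj : degenE 1 h1L (jdBar (1 * q) q hqq) = jdBar L q hqL := by
    rw [degenE_jdBar 1 h1L q hqq (by rw [mul_one]; exact hqL)]
    exact hksq_jdBar_congr L (mul_one q) _ _
  rw [hj, hq'] at hT
  rw [hT, mul_comm]
  exact h52deg_deg (1 * q) L h1L

/-- **degree of `δ_q`.**  `[F_L : δ_q F_N] ψ(N) = ψ(L)` for a prime `q` and `N q ∣ L`. -/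
theorem h41g_deg {N L : ℕ} [NeZero N] [NeZero L] (q : ℕ) [NeZero q] (hq : q.Prime)
    (h : N * q ∣ L) : finrankAlong Kbar (degenE q h) * dedekindPsi N = dedekindPsi L := by
  have hqL : q ∣ L := (dvd_mul_left q N).trans h
  have hT := h52deg_finrank_tower (degenE q h) (jBar N)
  rw [h41g_degenE_jBar q h hqL, h41g_finrank_jdBar L q hq hqL, (h52deg_ifaceFin N).2.2] at hT
  rw [hT, mul_comm]

/-- the degrees in the `β`-square, at all levels. -/
theorem h41g_deg_beta (M q r : ℕ) [NeZero M] [NeZero q] [NeZero r] (hq : q.Prime)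
    (hr : r.Prime) (hqr : q ≠ r) (hα : M * q ∣ M * q) (ha : M * r * q ∣ M * q * r) :
    finrankAlong Kbar (degenE q ha) = finrankAlong Kbar (degenE q hα) := by
  have h1 := h41g_deg q hq ha
  have h2 := h41g_deg q hq hα
  have h3 := hk40_psi M q r (Nat.pos_of_ne_zero (NeZero.ne M)) hq hr hqr
  have hM : dedekindPsi M ≠ 0 := hksq_dedekindPsi_ne_zero M (NeZero.ne M)
  have hMr : dedekindPsi (M * r) ≠ 0 := hksq_dedekindPsi_ne_zero _ (NeZero.ne (M * r))
  rw [← h1, ← h2] at h3
  have h4 : finrankAlong Kbar (degenE q ha) * (dedekindPsi (M * r) * dedekindPsi M) =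
      finrankAlong Kbar (degenE q hα) * (dedekindPsi (M * r) * dedekindPsi M) := by
    calc finrankAlong Kbar (degenE q ha) * (dedekindPsi (M * r) * dedekindPsi M)
        = finrankAlong Kbar (degenE q ha) * dedekindPsi (M * r) * dedekindPsi M := by ring
      _ = finrankAlong Kbar (degenE q hα) * dedekindPsi M * dedekindPsi (M * r) := h3
      _ = finrankAlong Kbar (degenE q hα) * (dedekindPsi (M * r) * dedekindPsi M) := by ring
  exact Nat.eq_of_mul_eq_mul_right (Nat.pos_of_ne_zero (mul_ne_zero hMr hM)) h4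

/-! ## generation -/

/-- `F_{r q} = ℚ̄(j(t^q), j(t^r))` for primes `q ∤ r`. -/
theorem h41g_adjoin_q_r (q r : ℕ) [NeZero q] [NeZero r] (hq : q.Prime) (hqr : ¬ q ∣ r)
    (hq' : q ∣ r * q) (hr' : r ∣ r * q) :
    IntermediateField.adjoin Kbar ({jdBar (r * q) q hq', jdBar (r * q) r hr'} : Set (FF (r * q)))
      = ⊤ := by
  have hG := gen (r * q)
  have h1 : kFricke r q hq hqr (jBar (r * q)) = jdBar (r * q) q hq' := by
    rw [← heckeAlphaBar_jBar r q, kFricke_alpha, heckeBetaBar_eq_degenE]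
    exact h41g_degenE_jBar q _ hq'
  have h2 : kFricke r q hq hqr (jdBar (r * q) (r * q) dvd_rfl) = jdBar (r * q) r hr' := by
    have h3 : jdBar (r * q) (r * q) dvd_rfl = heckeBetaBar Kbar r q (jdBar r r dvd_rfl) := by
      rw [← jdBar_eq_beta r q r dvd_rfl]
      exact hksq_jdBar_congr (r * q) (mul_comm r q) _ _
    rw [h3, kFricke_beta, ← jdBar_eq_alpha r q r dvd_rfl]
  have h4 := congrArg (IntermediateField.map
    (kFricke r q hq hqr : FF (r * q) →ₐ[Kbar] FF (r * q))) hG
  rw [IntermediateField.adjoin_map, Set.image_pair, ← AlgHom.fieldRange_eq_map,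
    AlgEquiv.fieldRange_eq_top] at h4
  have h1' : (kFricke r q hq hqr : FF (r * q) →ₐ[Kbar] FF (r * q)) (jBar (r * q))
      = jdBar (r * q) q hq' := h1
  have h2' : (kFricke r q hq hqr : FF (r * q) →ₐ[Kbar] FF (r * q))
      (jdBar (r * q) (r * q) dvd_rfl) = jdBar (r * q) r hr' := h2
  rw [h1', h2'] at h4
  exact h4

/-- generation in the `β`-square, at all levels. -/
theorem h41g_gen_beta (M q r : ℕ) [NeZero M] [NeZero q] [NeZero r] (hq : q.Prime)
    (hr : r.Prime) (hqr : q ≠ r) (ha : M * r * q ∣ M * q * r) (hb : M * q * r ∣ M * q * r) :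
    (degenE q ha).fieldRange ⊔ (degenE r hb).fieldRange = ⊤ := by
  have hqr' : ¬ q ∣ r := fun h => hqr ((Nat.prime_dvd_prime_iff_eq hq hr).mp h)
  have hqZ : q ∣ M * q * r := (dvd_mul_left q M).trans (dvd_mul_right _ r)
  have hrZ : r ∣ M * q * r := dvd_mul_left r _
  have hq' : q ∣ r * q := dvd_mul_left q r
  have hr' : r ∣ r * q := dvd_mul_right r q
  have hι : r * q * 1 ∣ M * q * r := ⟨M, by ring⟩
  -- `j(t^q)` and `j(t^r)` lie in the compositum
  have hjq : jdBar (M * q * r) q hqZ ∈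
      (degenE q ha).fieldRange ⊔ (degenE r hb).fieldRange :=
    (le_sup_left : (degenE q ha).fieldRange ≤ _) ⟨jBar (M * r), h41g_degenE_jBar q ha hqZ⟩
  have hjr : jdBar (M * q * r) r hrZ ∈
      (degenE q ha).fieldRange ⊔ (degenE r hb).fieldRange :=
    (le_sup_right : (degenE r hb).fieldRange ≤ _) ⟨jBar (M * q), h41g_degenE_jBar r hb hrZ⟩
  -- hence `j` does
  have hj : jBar (M * q * r) ∈ (degenE q ha).fieldRange ⊔ (degenE r hb).fieldRange := by
    have h5 := congrArg (IntermediateField.map (degenE 1 hι)) (h41g_adjoin_q_r q r hq hqr' hq' hr')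
    rw [IntermediateField.adjoin_map, Set.image_pair, ← AlgHom.fieldRange_eq_map] at h5
    have e1 : degenE 1 hι (jdBar (r * q) q hq') = jdBar (M * q * r) q hqZ := by
      rw [degenE_jdBar 1 hι q hq' (by rw [mul_one]; exact hqZ)]
      exact hksq_jdBar_congr _ (mul_one q) _ _
    have e2 : degenE 1 hι (jdBar (r * q) r hr') = jdBar (M * q * r) r hrZ := by
      rw [degenE_jdBar 1 hι r hr' (by rw [mul_one]; exact hrZ)]
      exact hksq_jdBar_congr _ (mul_one r) _ _
    rw [e1, e2] at h5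
    have h6 : jBar (M * q * r) ∈ (degenE 1 hι).fieldRange := ⟨jBar (r * q), degenE_one_jBar hι⟩
    rw [← h5] at h6
    refine (IntermediateField.adjoin_le_iff.mpr ?_) h6
    rintro x hx
    rcases hx with rfl | hx
    · exact hjq
    · rw [Set.mem_singleton_iff] at hx
      subst hx
      exact hjr
  -- conclusion by `GEN`
  rw [eq_top_iff, ← gen (M * q * r), IntermediateField.adjoin_le_iff]
  rintro x hx
  rcases hx with rfl | hx
  · exact hj
  · rw [Set.mem_singleton_iff] at hx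
    subst hx
    refine (le_sup_right : (degenE r hb).fieldRange ≤ _) ?_
    refine ⟨jdBar (M * q) (M * q) dvd_rfl, ?_⟩
    show degenE r hb (jdBar (M * q) (M * q) dvd_rfl) = jdBar (M * q * r) (M * q * r) dvd_rfl
    rw [degenE_jdBar r hb (M * q) dvd_rfl hb]

/-! ## the Hecke correspondences on divisors -/

/-- `β_* ∘ T_r = T_r ∘ β_*` on divisors, at all levels. -/
theorem h41g_push_beta_heckeDivBar (M q r : ℕ) [NeZero M] [NeZero q] [NeZero r]
    (hq : q.Prime) (hr : r.Prime) (hqr : q ≠ r) (D : Divisor Kbar (FF (M * q))) :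
    Divisor.pushforwardAlong (heckeBetaBar Kbar M q) (heckeBetaBarIntegral M q)
        (heckeDivBar (heckeAlphaBarIntegral (M * q) r) (heckeBetaBarIntegral (M * q) r) D)
      = heckeDivBar (heckeAlphaBarIntegral M r) (heckeBetaBarIntegral M r)
          (Divisor.pushforwardAlong (heckeBetaBar Kbar M q) (heckeBetaBarIntegral M q) D) := by
  have hα : M * q ∣ M * q := dvd_refl _
  have ha : M * r * q ∣ M * q * r := ⟨1, by ring⟩
  have h1 : M * q * 1 ∣ M * q * r := by
    rw [mul_one]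
    exact dvd_mul_right _ _
  have h1' : M * 1 ∣ M * r := by
    rw [mul_one]
    exact dvd_mul_right _ _
  have hdeg := h41g_deg_beta M q r hq hr hqr hα ha
  have hgen := h41g_gen_beta M q r hq hr hqr ha (dvd_refl _)
  rw [heckeDivBar_eq_corrE (M * q) r, heckeDivBar_eq_corrE M r,
    hkc_pushforwardAlong_congr (heckeBetaBar_eq_degenE M q) (heckeBetaBarIntegral M q)
      (isIntegral_degenE q hα)]
  exact h41h_push_corrE q hα ha h1 (dvd_refl _) h1' (dvd_refl _) hdeg hgen D

/-! ## `Pic⁰` -/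

/-- **HECKE-A at all levels.**  The push-forwards `α_*, β_* : J₀(M q) → J₀(M)` commute with the
Hecke operators `T_r`, `r ∤ M q`, for every prime `q` (also `q ∣ M`). -/
theorem h41g_pushHeckeComm (M q : ℕ) [NeZero M] [NeZero q] (hq : q.Prime) :
    PushHeckeComm M q := by
  intro r hr x
  have : NeZero (r : ℕ) := ⟨r.2.ne_zero⟩
  have hrq : (r : ℕ) ≠ q := by
    intro h
    apply hr
    rw [h]
    exact dvd_mul_left q M
  obtain ⟨D, rfl⟩ := Pic0.mk_surjective x
  constructor
  · rw [heckeOperatorBar_mk (M * q) r D, h41h_pushAlpha_mk, h41h_pushAlpha_mk,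
      heckeOperatorBar_mk M r]
    congr 1
    apply Subtype.ext
    exact h41h_push_alpha_heckeDivBar M q r hq r.2 hrq D
  · rw [heckeOperatorBar_mk (M * q) r D, h41h_pushBeta_mk, h41h_pushBeta_mk,
      heckeOperatorBar_mk M r]
    congr 1
    apply Subtype.ext
    exact h41g_push_beta_heckeDivBar M q r hq r.2 (Ne.symm hrq) D

end Fermat.Agent.S35
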