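import Fermat.Agent.S35.HeckeSkeleton
import Fermat.Agent.Red.HKComm.Main

/-!
# S35, block HECKE, leaf HK-NEW: assembly of the projector to the part new at `q`

* `newProjector_of : (∀ N, ConvKill N) → (∀ N, EigenOfChar N) → SIndep → NewProjector`.
* `pushNewZero_of : PushHecke → PushNewZero`.

Author: helper30.
-/

set_option autoImplicit false

open AlgebraicCurve ModularCurve

noncomputable section

namespace Fermat.Agent.S35

open Fermat.Agent.S24 (Kbar FF)
open Fermat.Agent.S29 (GQ)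
open Fermat.Agent.S30 (heckeTAll)
open Fermat.Agent.S31 (TI_evS TI_tS TI_Sc TI_Kills TI_evS_X TI_coe_evS)

/-! ## Cutting off the variables in `S` -/

open Classical in
/-- the substitution `X_ℓ ↦ 0` for `ℓ ∈ S`. -/
def hkCut (S : Finset ℕ) : MvPolynomial Nat.Primes ℤ →ₐ[ℤ] MvPolynomial Nat.Primes ℤ :=
  MvPolynomial.aeval fun ℓ : Nat.Primes => if (ℓ : ℕ) ∈ S then 0 else MvPolynomial.X ℓ

theorem hkCut_mem_supported (S : Finset ℕ) (P : MvPolynomial Nat.Primes ℤ) :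
    hkCut S P ∈ MvPolynomial.supported ℤ (TI_Sc S) := by
  classical
  induction P using MvPolynomial.induction_on with
  | C a =>
    rw [hkCut, MvPolynomial.aeval_C]
    exact Subalgebra.algebraMap_mem _ _
  | add p q hp hq =>
    rw [map_add]
    exact Subalgebra.add_mem _ hp hq
  | mul_X p ℓ hp =>
    rw [map_mul]
    refine Subalgebra.mul_mem _ hp ?_
    rw [hkCut, MvPolynomial.aeval_X]
    by_cases h : (ℓ : ℕ) ∈ S
    · rw [if_pos h]
      exact Subalgebra.zero_mem _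
    · rw [if_neg h]
      exact MvPolynomial.X_mem_supported.mpr h

theorem hk_evS_cut (N : ℕ) [NeZero N] (S : Finset ℕ) (P : MvPolynomial Nat.Primes ℤ) :
    TI_evS N S (hkCut S P) = TI_evS N S P := by
  classical
  have h : (TI_evS N S).comp (hkCut S) = TI_evS N S := by
    refine MvPolynomial.algHom_ext fun ℓ => ?_
    rw [AlgHom.comp_apply, hkCut, MvPolynomial.aeval_X]
    by_cases hℓ : (ℓ : ℕ) ∈ S
    · rw [if_pos hℓ, map_zero, TI_evS, MvPolynomial.aeval_X, TI_tS,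
        dif_pos (Or.inr (Finset.mem_coe.mpr hℓ))]
    · rw [if_neg hℓ]
  exact congrArg (fun f => f P) h

/-- the evaluation at the Hecke operators away from `S` is surjective when `S` contains the
primes dividing the level. -/
theorem hk_evS_surjective (N : ℕ) [NeZero N] (S : Finset ℕ)
    (hS : ∀ r : ℕ, r.Prime → r ∣ N → r ∈ S) : Function.Surjective (TI_evS N S) := by
  rintro ⟨T, hT⟩
  suffices h : ∃ P : MvPolynomial Nat.Primes ℤ,
      ((TI_evS N S P : CuspForm.heckeAlgebra N 2 (↑S : Set ℕ)) :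
        Module.End ℂ (CuspForm (CongruenceSubgroup.Gamma0 N) 2)) = T by
    obtain ⟨P, hP⟩ := h
    exact ⟨P, Subtype.ext hP⟩
  refine Algebra.adjoin_induction (p := fun T _ => ∃ P : MvPolynomial Nat.Primes ℤ,
      ((TI_evS N S P : CuspForm.heckeAlgebra N 2 (↑S : Set ℕ)) :
        Module.End ℂ (CuspForm (CongruenceSubgroup.Gamma0 N) 2)) = T) ?_ ?_ ?_ ?_ hT
  · rintro T (⟨ℓ, hℓ, hℓN, hℓS, rfl⟩ | ⟨r, hrN, hr, hrS, rfl⟩)
    · refine ⟨MvPolynomial.X ⟨ℓ, hℓ⟩, ?_⟩
      rw [TI_evS_X N S ⟨ℓ, hℓ⟩ hℓN hℓS]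
      rfl
    · exact absurd (Finset.mem_coe.mpr (hS r hr hrN)) hrS
  · intro r
    refine ⟨MvPolynomial.C r, ?_⟩
    rw [← MvPolynomial.algebraMap_eq, AlgHom.commutes]
    rfl
  · rintro x y _ _ ⟨P, hP⟩ ⟨Q, hQ⟩
    exact ⟨P + Q, by rw [map_add, Subalgebra.coe_add, hP, hQ]⟩
  · rintro x y _ _ ⟨P, hP⟩ ⟨Q, hQ⟩
    exact ⟨P * Q, by rw [map_mul, Subalgebra.coe_mul, hP, hQ]⟩

/-! ## The projector -/

/-- **HK-NEW.** -/
theorem newProjector_of (hConv : ∀ (N : ℕ) [NeZero N], ConvKill N)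
    (hEig : ∀ (N : ℕ) [NeZero N], EigenOfChar N) (hInd : SIndep) : NewProjector := by
  intro M q _ _ hq g hg S hS chig hchig
  by_contra hcon
  push Not at hcon
  have hSM : ∀ r : ℕ, r.Prime → r ∣ M → r ∈ S := fun r hr hrM =>
    hS r hr (Dvd.dvd.mul_right hrM q)
  -- the character of level `M * q`, on polynomials
  set φ : MvPolynomial Nat.Primes ℤ →+* ℂ := chig.comp (TI_evS (M * q) S).toRingHom with hφ
  -- it kills the kernel of the evaluation at level `M`
  have hker : RingHom.ker (TI_evS M S).toRingHom ≤ RingHom.ker φ := by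
    intro P hP
    rw [RingHom.mem_ker] at hP ⊢
    have hP' : TI_evS M S P = 0 := hP
    have hcut : hkCut S P ∈ MvPolynomial.supported ℤ (TI_Sc S) := hkCut_mem_supported S P
    have h0 : TI_evS M S (hkCut S P) = 0 := by rw [hk_evS_cut, hP']
    have hop : ((MvPolynomial.aeval (R := ℤ) (heckeTAll M) (hkCut S P) :
        CuspForm.heckeAlgebra M 2 (∅ : Set ℕ)) :
          Module.End ℂ (CuspForm (CongruenceSubgroup.Gamma0 M) 2)) = 0 := by
      rw [← TI_coe_evS hSM hcut, h0]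
      rfl
    have hvars : ∀ ℓ ∈ (hkCut S P).vars, ¬ (ℓ : ℕ) ∣ M := by
      intro ℓ hℓ hdvd
      have h2 : ℓ ∈ TI_Sc S := (MvPolynomial.mem_supported.mp hcut) (Finset.mem_coe.mpr hℓ)
      exact h2 (hSM ℓ ℓ.2 hdvd)
    have hkill : ∀ n : ℕ, 0 < n → TI_Kills M n (hkCut S P) := hConv M _ hvars hop
    have h1 := hcon (hkCut S P) hcut
    have h2 : chig (TI_evS (M * q) S (hkCut S P)) = 0 := by
      by_contra hne
      obtain ⟨n, hn, hnk⟩ := h1 hne
      exact hnk (hkill n hn)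
    rw [hk_evS_cut] at h2
    exact h2
  -- the induced character of level `M`
  have hsurj : Function.Surjective (TI_evS M S).toRingHom := hk_evS_surjective M S hSM
  set χ' : CuspForm.heckeAlgebra M 2 (↑S : Set ℕ) →+* ℂ :=
    RingHom.liftOfSurjective (TI_evS M S).toRingHom hsurj ⟨φ, hker⟩ with hχ'
  have hχ'ev : ∀ P : MvPolynomial Nat.Primes ℤ, χ' (TI_evS M S P) = φ P := fun P =>
    RingHom.liftOfRightInverse_comp_apply _ _ _ ⟨φ, hker⟩ P
  -- the eigenform of level `M`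
  obtain ⟨g', hg', hg'coeff⟩ := hEig M S hSM χ'
  have hagree : ∀ ℓ : ℕ, ℓ.Prime → ℓ ∉ S →
      ModularFormClass.qCoeff g' ℓ = ModularFormClass.qCoeff g ℓ := by
    intro ℓ hℓ hℓS
    have hℓMq : ¬ ℓ ∣ M * q := fun h => hℓS (hS ℓ hℓ h)
    have hℓM : ¬ ℓ ∣ M := fun h => hℓS (hSM ℓ hℓ h)
    have hℓS' : ℓ ∉ (↑S : Set ℕ) := fun h => hℓS (Finset.mem_coe.mp h)
    rw [hg'coeff ℓ hℓ hℓM hℓS', ← TI_evS_X M S ⟨ℓ, hℓ⟩ hℓM hℓS', hχ'ev, hφ, RingHom.comp_apply]
    have e1 : (TI_evS (M * q) S).toRingHom (MvPolynomial.X ⟨ℓ, hℓ⟩) =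
        CuspForm.heckeAlgebra.T hℓ hℓMq hℓS' := TI_evS_X (M * q) S ⟨ℓ, hℓ⟩ hℓMq hℓS'
    rw [e1, hchig ℓ hℓ hℓMq hℓS']
  have hall := hInd (M * q) M (Dvd.intro q rfl) g g' hg.isNormalizedEigenform hg' S hagree
  -- contradiction with newness
  have hMne : M ≠ M * q := by
    intro h
    have hM0 : 0 < M := Nat.pos_of_ne_zero (NeZero.ne M)
    have h1 : M * 1 = M * q := by rw [mul_one]; exact h
    have h2 : 1 = q := Nat.eq_of_mul_eq_mul_left hM0 h1
    exact hq.one_lt.ne h2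
  exact hg.2 M (Dvd.intro q rfl) hMne ⟨g', hg', hall⟩

/-! ## The points `e • x` are new -/

/-- Hecke polynomials in the `T_ℓ`, `ℓ ∉ S`, commute with an additive map which commutes with
these `T_ℓ`. -/
theorem hk_eval_comm {N N' : ℕ} [NeZero N] [NeZero N'] (S : Finset ℕ)
    (f : JZero N →+ JZero N')
    (hf : ∀ ℓ : Nat.Primes, (ℓ : ℕ) ∉ S → ∀ x : JZero N,
      f (heckeOperatorBar N ℓ x) = heckeOperatorBar N' ℓ (f x))
    {e : MvPolynomial Nat.Primes ℤ} (he : e ∈ MvPolynomial.supported ℤ (TI_Sc S))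
    (x : JZero N) :
    f (letI := heckeModuleBar N; e • x) = (letI := heckeModuleBar N'; e • f x) := by
  have hN := Fermat.Agent.Red.HKComm.heckeOperatorsCommuteBar N
  have hN' := Fermat.Agent.Red.HKComm.heckeOperatorsCommuteBar N'
  rw [heckeModuleBar_smul_def hN, heckeModuleBar_smul_def hN']
  rw [MvPolynomial.supported_eq_adjoin_X] at he
  revert x
  refine Algebra.adjoin_induction (p := fun e _ => ∀ x : JZero N,
    f (heckeEvalBar hN e x) = heckeEvalBar hN' e (f x)) ?_ ?_ ?_ ?_ he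
  · rintro _ ⟨ℓ, hℓ, rfl⟩ x
    have e1 : heckeEvalBar hN (MvPolynomial.X ℓ) = heckeOperatorBar N ℓ :=
      heckeEvalBar_heckeGen hN ℓ
    have e2 : heckeEvalBar hN' (MvPolynomial.X ℓ) = heckeOperatorBar N' ℓ :=
      heckeEvalBar_heckeGen hN' ℓ
    rw [e1, e2]
    exact hf ℓ hℓ x
  · intro r x
    rw [MvPolynomial.algebraMap_eq, heckeEvalBar_C, heckeEvalBar_C]
    show f ((r : Module.End ℤ (JZero N)) x) = (r : Module.End ℤ (JZero N')) (f x)
    rw [Module.End.intCast_apply, Module.End.intCast_apply, map_zsmul]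
  · intro a b _ _ ha hb x
    rw [map_add, map_add, LinearMap.add_apply, LinearMap.add_apply, map_add, ha, hb]
  · intro a b _ _ ha hb x
    rw [map_mul, map_mul, Module.End.mul_apply, Module.End.mul_apply, ha, hb]

/-- **the points `e • x` are new at `q`.** -/
theorem pushNewZero_of (hPH : PushHecke) : PushNewZero := by
  intro M q _ _ hq hqM S hS e he hkill n x hn hx
  have hnot : ∀ ℓ : Nat.Primes, (ℓ : ℕ) ∉ S → ¬ (ℓ : ℕ) ∣ M * q := fun ℓ hℓ h =>
    hℓ (hS ℓ ℓ.2 h)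
  have hA := hk_eval_comm S (pushA M q)
    (fun ℓ hℓ x => (hPH M q hq hqM ℓ (hnot ℓ hℓ) x).1) he x
  have hB := hk_eval_comm S (pushB M q)
    (fun ℓ hℓ x => (hPH M q hq hqM ℓ (hnot ℓ hℓ) x).2) he x
  have hxA : n • pushA M q x = 0 := by rw [← map_nsmul, hx, map_zero]
  have hxB : n • pushB M q x = 0 := by rw [← map_nsmul, hx, map_zero]
  exact ⟨hA.trans (hkill n hn _ hxA), hB.trans (hkill n hn _ hxB)⟩

end Fermat.Agent.S35
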