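import Fermat.Agent.S35.H1KExp
import Fermat.Agent.S35.H17Lat
import Fermat.Agent.S35.Skeleton
import Fermat.Agent.Jac.FinalHK2
import Fermat.Agent.Red.HKComm.Main

/-!
# S35, block HECKE-c (HK-CONV): the converse key lemma `ConvKey M`, unconditional

`h83cv_convKey M : ConvKey M`: there is `t > 0` such that for every `n > 0` and every integer
polynomial `P` in the Hecke operators `T_ℓ`, `ℓ ∤ M n`, with `P(T) = 0` on `S₂(Γ₀(M))`, the
operator `t P` kills `J₀(M)[n]`.

Assembly ("Kummer transport") of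
* `h1c_kexp` (helper1): a bounded power `χ ^ t` of the Kummer character of a point of `J₀(M)[n]`
  is `exp (2πi φ / n)` with `φ ∈ Λ = Hom_par(Γ₀(M), ℤ)`;
* `h17s_lat` (helper17): `P(T) = 0` on cusp forms implies `P(T^coh) = 0` on `Λ`;
* `h57_poly_step` (IN-JAC): the Kummer triple `(t x, E φ)` goes to `(P (t x), E (P_Λ φ))`;
* KC-INJ / KC-UNIQ: a point with a Kummer triple of trivial character is zero.
-/

set_option autoImplicit false

open ModularCurve AlgebraicCurve CongruenceSubgroup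
open scoped MatrixGroups

noncomputable section

namespace Fermat.Agent.S35

open Fermat.Agent.S24 (Kbar FF)
open Fermat.Agent.S30 (heckeTAll)
open Fermat.Agent.S29.LK (evalOfCommute)
open Fermat.Agent.Jac Fermat.Agent.Jac.HKM Fermat.Agent.Jac.K1

/-- powers of a Kummer triple -/
theorem h83cv_Trip_nsmul {N : ℕ} [NeZero N] {q : ℕ} (hq : 0 < q) {x : JZero N}
    {χ : Gamma0 N →* ℂˣ} (h : h57_Trip N q x χ) (c : ℕ) :
    h57_Trip N q (c • x) (χ ^ c) := by
  induction c with
  | zero =>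
    have e : χ ^ 0 = 1 := pow_zero χ
    rw [zero_nsmul, e]
    exact h57_Trip_zero kummerMul hq
  | succ c ih =>
    have e : χ ^ (c + 1) = χ ^ c * χ := pow_succ χ c
    rw [succ_nsmul, e]
    exact h57_Trip_add kummerMul hq ih h

/-- a point with a Kummer triple of trivial character is zero -/
theorem h83cv_eq_zero_of_Trip_one {N : ℕ} [NeZero N] {q : ℕ} (hq : 0 < q) {y : JZero N}
    (h : h57_Trip N q y 1) : y = 0 := by
  obtain ⟨D, f, hf, hord, hK, hD⟩ := h
  have hy : IsKummerPair q y f := ⟨hf, D, hD, fun v => (hord v).symm⟩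
  have h0 : IsKummerPair q (0 : JZero N) (1 : FF N) := IsKummerPair.one
  have hK1 := (kummerMul N q hq).2.2 (1 : FF N) one_ne_zero
  rw [one_pow] at hK1
  exact h82_eq_of_kummerChar_eq pd kummerMul kummerInjFinal N q hq hy h0 1 hK hK1

/-- an exponential character is determined by `IsExpChar` -/
theorem h83cv_eq_E_of_isExpChar {N : ℕ} [NeZero N] {n : ℕ} {φ : Additive (Gamma0 N) →+ ℤ}
    {χ : Gamma0 N →* ℂˣ} (h : IsExpChar N n φ χ) : χ = h57_E N n φ := by
  refine MonoidHom.ext fun γ => Units.ext ?_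
  exact (h γ).trans (h57_E_isExpChar n φ γ).symm

/-- **HK-CONV.**  The converse key lemma. -/
theorem h83cv_convKey (M : ℕ) [NeZero M] : ConvKey M := by
  obtain ⟨c, hc, H⟩ := h1c_kexp M
  refine ⟨c, hc, fun n P hn hvars hP => ?_⟩
  intro x hx
  have hcomm : HeckeOperatorsCommuteBar M := Fermat.Agent.Red.HKComm.heckeOperatorsCommuteBar M
  have hSurj : KummerSurjStatement := fun N _ p hp => kummerSurjN N p hp.pos
  have hT : ∀ ℓ ℓ' : Nat.Primes, h57_TLam cohHecke M (ℓ : ℕ) * h57_TLam cohHecke M (ℓ' : ℕ)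
      = h57_TLam cohHecke M (ℓ' : ℕ) * h57_TLam cohHecke M (ℓ : ℕ) :=
    fun ℓ ℓ' => h57_TLam_comm pd kummerUniqFinal kummerMul hSurj kummerHecke cohHecke hcomm ℓ ℓ'
  have hvarsM : ∀ ℓ ∈ P.vars, ¬ (ℓ : ℕ) ∣ M := fun ℓ hℓ hd =>
    hvars ℓ hℓ (Dvd.dvd.mul_right hd n)
  -- the Kummer triple of `x`
  have hx' : (n : ℤ) • x = 0 := by rw [natCast_zsmul]; exact hx
  obtain ⟨f, hpair⟩ := exists_kummerPair (K := Kbar) (F := FF M) hx'
  have hsel : IsSel M n f := h82_isSel_of_pair hpair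
  obtain ⟨χ, hK, hχn⟩ := kummerExistsFinal M n hn f hsel
  obtain ⟨hf, D, hD, hord⟩ := hpair
  have hTrip : h57_Trip M n x χ := ⟨D, f, hf, fun v => (hord v).symm, hK, hD⟩
  -- the exponential form of `χ ^ c`
  obtain ⟨φ, hφ, hexp⟩ := H n hn f hsel χ hK hχn
  have hQ : h57_Q M n (c • x) φ := by
    unfold h57_Q
    rw [← h83cv_eq_E_of_isExpChar hexp]
    exact h83cv_Trip_nsmul hn hTrip c
  -- transport by the Hecke polynomial
  have h1 := h57_poly_step kummerMul kummerHecke cohHecke hcomm hn hT P (c • x) ⟨φ, hφ⟩ hQ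
  rw [h57_subst_eq P hvarsM, h17s_lat cohHecke hT P hP] at h1
  have h2 : h57_Trip M n (heckeEvalBar hcomm P (c • x)) 1 := by
    have h3 : h57_Q M n (heckeEvalBar hcomm P (c • x)) 0 := h1
    unfold h57_Q at h3
    rwa [h57_E_zero] at h3
  have h4 : heckeEvalBar hcomm P (c • x) = 0 := h83cv_eq_zero_of_Trip_one hn h2
  -- conclusion
  rw [heckeModuleBar_smul_def hcomm, mul_comm, map_mul, Module.End.mul_apply, heckeEvalBar_C,
    Module.End.intCast_apply, natCast_zsmul]
  exact h4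

end Fermat.Agent.S35
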