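import Fermat.Agent.S35.Skeleton
import Fermat.Agent.S35.H1Lift
import Fermat.Agent.S35.H17Lat
import Fermat.Agent.Jac.FinalHK2
import Fermat.Agent.Red.HKComm.Main

/-!
# S35, HECKE-C: assembly of `ConvKey` from the leaf KPAR (helper30)

`KPar`: Kummer characters are trivial on the parabolic elements of `Γ₀(N)`.

`convKey_of_kpar : KPar → ∀ M, ConvKey M`, from

* `h1c_lift` (helper1): `χ ^ t = exp (2πi φ / n)`, `φ ∈ Λ`;
* `h57_poly_step` (IN-JAC): Hecke polynomials act on Kummer triples through `Λ`;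
* `h17s_lat` (helper17): `P(T) = 0` on `S₂(Γ₀(M))` implies `P(T^coh) = 0` on `Λ`;
* KC-INJ (`h82_eq_of_kummerChar_eq`): a point with trivial Kummer character is zero.
-/

set_option autoImplicit false

open ModularCurve AlgebraicCurve UpperHalfPlane CongruenceSubgroup
open scoped MatrixGroups

noncomputable section

namespace Fermat.Agent.S35

open Fermat.Agent.S24 (Kbar FF)
open Fermat.Agent.Jac Fermat.Agent.Jac.HKM Fermat.Agent.Jac.K1
open Fermat.Agent.S29.LK (evalOfCommute)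

/-- **KPAR.**  Kummer characters are trivial on the parabolic elements. -/
def KPar : Prop :=
  ∀ (N : ℕ) [NeZero N] (n : ℕ), 0 < n → ∀ f : FF N, IsSel N n f →
    ∀ χ : Gamma0 N →* ℂˣ, KummerChar N n f χ → ∀ γ : Gamma0 N, IsPar γ → χ γ = 1

theorem h30c_trip_nsmul {N : ℕ} [NeZero N] {n : ℕ} (hn : 0 < n) {x : JZero N}
    {χ : Gamma0 N →* ℂˣ} (h : h57_Trip N n x χ) (t : ℕ) :
    h57_Trip N n (t • x) (χ ^ t) := by
  induction t with
  | zero =>
    have e : χ ^ 0 = 1 := pow_zero χ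
    rw [zero_nsmul, e]
    exact h57_Trip_zero kummerMul hn
  | succ k ih =>
    have e : χ ^ (k + 1) = χ ^ k * χ := pow_succ χ k
    rw [succ_nsmul, e]
    exact h57_Trip_add kummerMul hn ih h

theorem h30c_trip_one_eq_zero {N : ℕ} [NeZero N] {n : ℕ} (hn : 0 < n) {y : JZero N}
    (h : h57_Trip N n y 1) : y = 0 := by
  obtain ⟨D, f, hf, hord, hK, hD⟩ := h
  obtain ⟨D₀, f₀, hf₀, hord₀, hK₀, hD₀⟩ := h57_Trip_zero (N := N) kummerMul hn
  have hp : IsKummerPair n y f := ⟨hf, D, hD, fun v => (hord v).symm⟩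
  have hp₀ : IsKummerPair n (0 : JZero N) f₀ := ⟨hf₀, D₀, hD₀, fun v => (hord₀ v).symm⟩
  exact h82_eq_of_kummerChar_eq pd kummerMul kummerInjFinal N n hn hp hp₀ 1 hK hK₀

/-- **HECKE-C** from KPAR. -/
theorem convKey_of_kpar (hK : KPar) (M : ℕ) [NeZero M] : ConvKey M := by
  classical
  obtain ⟨t, ht, hlift⟩ := h1c_lift M
  refine ⟨t, ht, fun n P hn hvars hP => ?_⟩
  have hcomm : HeckeOperatorsCommuteBar M :=
    Fermat.Agent.Red.HKComm.heckeOperatorsCommuteBar M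
  have hSurj : KummerSurjStatement := fun N _ p hp => kummerSurjN N p hp.pos
  have hT : ∀ ℓ ℓ' : Nat.Primes, h57_TLam cohHecke M (ℓ : ℕ) * h57_TLam cohHecke M (ℓ' : ℕ)
      = h57_TLam cohHecke M (ℓ' : ℕ) * h57_TLam cohHecke M (ℓ : ℕ) :=
    fun ℓ ℓ' => h57_TLam_comm pd kummerUniqFinal kummerMul hSurj kummerHecke cohHecke hcomm ℓ ℓ'
  intro x hx
  rw [heckeModuleBar_smul_def hcomm]
  -- the Kummer triple of `x`
  obtain ⟨f, hf⟩ := exists_kummerPair (K := Kbar) (F := FF M) (n := n) (x := x)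
    (by rw [natCast_zsmul]; exact hx)
  have hsel : IsSel M n f := h82_isSel_of_pair hf
  obtain ⟨χ, hχ, hχn⟩ := kummerExistsFinal M n hn f hsel
  have hpar := hK M n hn f hsel χ hχ
  obtain ⟨φ, hφ, hE⟩ := hlift n hn χ hχn hpar
  have hTrip : h57_Trip M n x χ := by
    obtain ⟨hf0, D, hD, hord⟩ := hf
    exact ⟨D, f, hf0, fun v => (hord v).symm, hχ, hD⟩
  have hEq : χ ^ t = h57_E M n φ := by
    refine MonoidHom.ext fun γ => Units.ext ?_
    rw [hE γ]
    rfl
  have hQ : h57_Q M n (t • x) φ := by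
    unfold h57_Q
    rw [← hEq]
    exact h30c_trip_nsmul hn hTrip t
  have h1 := h57_poly_step kummerMul kummerHecke cohHecke hcomm hn hT P (t • x) ⟨φ, hφ⟩ hQ
  have hvarsM : ∀ ℓ ∈ P.vars, ¬ (ℓ : ℕ) ∣ M := fun ℓ hℓ h =>
    hvars ℓ hℓ (Dvd.dvd.mul_right h n)
  rw [h57_subst_eq P hvarsM, h17s_lat cohHecke hT P hP] at h1
  have h2 : h57_Trip M n (heckeEvalBar hcomm P (t • x)) 1 := by
    have h3 : h57_Trip M n (heckeEvalBar hcomm P (t • x)) (h57_E M n 0) := h1
    rwa [h57_E_zero] at h3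
  have h4 : heckeEvalBar hcomm P (t • x) = 0 := h30c_trip_one_eq_zero hn h2
  rw [map_mul, heckeEvalBar_C, Module.End.mul_apply, Module.End.intCast_apply,
    ← map_zsmul, natCast_zsmul]
  exact h4

end Fermat.Agent.S35
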