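import Fermat.Agent.Jac.CuspRoot
import Fermat.Agent.S24.EmbCusp
import Fermat.Agent.S24.H46Periodic
import Fermat.Agent.S24.PlaceOfEmb
import Fermat.Agent.S21.P.Parabolic

/-!
# S35, block HECKE-c (HK-CONV): Kummer characters are trivial on parabolic elements

Let `f ∈ F = FF N` be a nonzero function all of whose orders at the places of `F` are divisible
by `n`, and let `χ` be its Kummer character (the automorphy character of a holomorphic `n`-th
root `A` of `P Q^(n-1)`, `f = P / Q`).  Then `χ γ = 1` for every `γ ∈ Γ₀(N)` with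
`trace ^ 2 = 4`.

Proof.  `γ` is conjugate to a translation: `γ (δ w) = δ (w + m)`.  Put `B = A ∘ δ`, so
`B (w + m) = χ(γ) B w`.  The function `B ^ n = (P ∘ δ) (Q ∘ δ)^(n-1)` has an expansion `s` in
`𝕋 = exp (2πiτ/N)`; hence (`h72_hasTExp_root`) `B` has an expansion `s'` in
`exp (2πiτ/(N n |m|))`, and comparing the leading coefficients of `B (w + m)` and `χ(γ) B`
gives `χ(γ) = exp (2πi m ord(s) / (n N))`.  Finally `n N ∣ m ord(s)`: the cusp embedding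
`E : F → ℂ((𝕋))` at `δ` induces a place `v` with `ord ∘ E = e · v.ord`, `N ∣ m e` by the
periodicity of the expansions of invariant functions, and `n ∣ v.ord f`.

* `h83cv_root_twist` : the analytic core;
* `h83cv_kummerPar` : the statement.
-/

set_option autoImplicit false

open ModularCurve AlgebraicCurve UpperHalfPlane CongruenceSubgroup
open scoped MatrixGroups Manifold

noncomputable section

namespace Fermat.Agent.S35

open Fermat.Agent.S24 (Kbar FF embC IsAn)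
open Fermat.Agent.S28 (HasTExp tParam twist twistDil)
open Fermat.Agent.Jac (IsSel KummerChar HasChar IsPar)

/-! ### the analytic core -/

/-- the expansion of a function which is invariant under the translation by `m ∈ ℤ` is
supported on exponents `k` with `N ∣ m k`. -/
theorem h83cv_dvd_mul_order_of_vadd {N : ℕ} (hN : 0 < N) {H : ℍ → ℂ} {s : LaurentSeries ℂ}
    (h : HasTExp N H s) (hs : s ≠ 0) (m : ℤ)
    (hper : ∀ τ : ℍ, H ((m : ℝ) +ᵥ τ) = H τ) : (N : ℤ) ∣ m * s.order := by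
  set ζ : ℂ := Complex.exp (2 * Real.pi * Complex.I / (N : ℂ)) with hζ
  have hprim : IsPrimitiveRoot ζ N := Complex.isPrimitiveRoot_exp N hN.ne'
  have hω : Complex.exp (2 * Real.pi * Complex.I * (m : ℂ) / (N : ℂ)) = ζ ^ m := by
    rw [hζ, ← Complex.exp_int_mul]
    congr 1
    ring
  have h1 := Fermat.Agent.S24.h46_hasTExp_vadd hN h m
  rw [hω] at h1
  have h2 : HasTExp N H (twist (ζ ^ m) s) := h1.congr (fun τ => hper τ)
  have h3 : twist (ζ ^ m) s = s := HasTExp.unique hN h2 h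
  have h4 : (twist (ζ ^ m) s).coeff s.order = s.coeff s.order := by rw [h3]
  rw [Fermat.Agent.S28.coeff_twist] at h4
  have hc : s.coeff s.order ≠ 0 := Fermat.Agent.S24.h46_coeff_order_ne_zero hs
  have h5 : (ζ ^ m) ^ s.order = 1 := mul_left_cancel₀ hc (h4.trans (mul_one _).symm)
  rw [← zpow_mul] at h5
  exact (hprim.zpow_eq_one_iff_dvd _).mp h5

theorem h83cv_order_pow (s : LaurentSeries ℂ) (n : ℕ) : (s ^ n).order = n * s.order := by
  induction n with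
  | zero => simp
  | succ n ih =>
    by_cases hs : s = 0
    · subst hs
      simp
    · rw [pow_succ, HahnSeries.order_mul (pow_ne_zero n hs) hs, ih]
      push_cast
      ring

/-- **analytic core**, positive translation. -/
theorem h83cv_root_twist_nat {N n b : ℕ} (hN : 0 < N) (hn : 0 < n) (hb : 0 < b)
    {B G : ℍ → ℂ} (hB : MDiff B) (hpow : ∀ τ, B τ ^ n = G τ) {s : LaurentSeries ℂ}
    (hG : HasTExp N G s) (hs : s ≠ 0) {ζ : ℂ} (hζ : ζ ^ n = 1)
    (hper : ∀ τ : ℍ, B ((b : ℝ) +ᵥ τ) = ζ * B τ)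
    (hdvd : ((n : ℤ) * (N : ℤ)) ∣ (b : ℤ) * s.order) : ζ = 1 := by
  have hc : 0 < n * b := Nat.mul_pos hn hb
  have : NeZero (n * b) := ⟨hc.ne'⟩
  have hN' : 0 < N * (n * b) := Nat.mul_pos hN hc
  -- the expansion of `G` at the level `N' = N n b`
  have hG' : HasTExp (N * (n * b)) G (qExpand ℂ (n * b) s) := by
    have h := hG.affine (M := N) (N := N * (n * b)) (a := 1) (d := 1) (e := n * b) (b := 0)
      one_pos hN hN' (by ring) id (fun τ => by simp)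
    simp only [Int.cast_zero, mul_zero, zero_div, Complex.exp_zero, id] at h
    rwa [Fermat.Agent.S28.twistDil_one_left] at h
  -- periodicity of `B`
  have hperk : ∀ (k : ℕ) (τ : ℍ), B (((k * b : ℕ) : ℝ) +ᵥ τ) = ζ ^ k * B τ := by
    intro k
    induction k with
    | zero =>
      intro τ
      simp
    | succ k ih =>
      intro τ
      have e : (((k + 1) * b : ℕ) : ℝ) +ᵥ τ = (b : ℝ) +ᵥ (((k * b : ℕ) : ℝ) +ᵥ τ) := by
        rw [vadd_vadd]
        congr 1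
        push_cast
        ring
      rw [e, hper, ih, pow_succ]
      ring
  have hperN : ∀ τ : ℍ, B (((N * (n * b) : ℕ) : ℝ) +ᵥ τ) = B τ := by
    intro τ
    have h := hperk (N * n) τ
    have e1 : N * n * b = N * (n * b) := by ring
    rw [e1, mul_comm N n, pow_mul, hζ, one_pow, one_mul] at h
    exact h
  obtain ⟨s', hs'⟩ := Fermat.Agent.Jac.h72_hasTExp_root hN' hn hB hperN hpow hG'
  -- `s' ^ n` is the expansion of `G`
  have hpow' : s' ^ n = qExpand ℂ (n * b) s := by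
    have h1 : HasTExp (N * (n * b)) G (s' ^ n) :=
      (hs'.pow hN' n).congr (fun τ => by rw [Pi.pow_apply, hpow τ])
    exact HasTExp.unique hN' h1 hG'
  have hs'0 : s' ≠ 0 := by
    rintro rfl
    rw [zero_pow hn.ne'] at hpow'
    exact Fermat.Agent.S28.qExpand_ne_zero (n * b) hs hpow'.symm
  have hord : s'.order = (b : ℤ) * s.order := by
    have h1 := congrArg HahnSeries.order hpow'
    rw [h83cv_order_pow, Fermat.Agent.S28.order_qExpand] at h1
    have hn' : (n : ℤ) ≠ 0 := by exact_mod_cast hn.ne'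
    apply mul_left_cancel₀ hn'
    rw [h1]
    push_cast
    ring
  -- the translate
  have h1 := Fermat.Agent.S24.h46_hasTExp_vadd hN' hs' (b : ℤ)
  have h2 : HasTExp (N * (n * b)) (fun τ => B (((b : ℤ) : ℝ) +ᵥ τ)) (HahnSeries.C ζ * s') := by
    refine (hs'.const_mul hN' ζ).congr (fun τ => ?_)
    rw [Int.cast_natCast, hper]
  have h3 := HasTExp.unique hN' h1 h2
  have h4 := congrArg (fun x : LaurentSeries ℂ => x.coeff s'.order) h3
  simp only [Fermat.Agent.S28.coeff_twist, HahnSeries.C_mul_eq_smul, HahnSeries.coeff_smul,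
    smul_eq_mul] at h4
  have hc0 : s'.coeff s'.order ≠ 0 := Fermat.Agent.S24.h46_coeff_order_ne_zero hs'0
  have h5 : Complex.exp (2 * Real.pi * Complex.I * ((b : ℤ) : ℂ) / ((N * (n * b) : ℕ) : ℂ))
      ^ s'.order = ζ := by
    apply mul_left_cancel₀ hc0
    rw [h4]
    ring
  rw [← h5, hord]
  obtain ⟨e, he⟩ := hdvd
  rw [he, ← Complex.exp_int_mul]
  have hb' : (b : ℂ) ≠ 0 := by exact_mod_cast hb.ne'
  have hn' : (n : ℂ) ≠ 0 := by exact_mod_cast hn.ne'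
  have hN'' : (N : ℂ) ≠ 0 := by exact_mod_cast hN.ne'
  have e2 : ((((n : ℤ) * (N : ℤ) * e : ℤ)) : ℂ)
      * (2 * Real.pi * Complex.I * ((b : ℤ) : ℂ) / ((N * (n * b) : ℕ) : ℂ))
      = (e : ℂ) * (2 * Real.pi * Complex.I) := by
    push_cast
    field_simp
  rw [e2]
  exact Complex.exp_int_mul_two_pi_mul_I e

/-- **analytic core.**  Let `B` be a holomorphic `n`-th root of a function with an expansion
`s ≠ 0` in `𝕋 = exp (2πiτ/N)` and `B (τ + m) = ζ B τ`.  If `n N ∣ m ord(s)` then `ζ = 1`. -/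
theorem h83cv_root_twist {N n : ℕ} (hN : 0 < N) (hn : 0 < n) (m : ℤ)
    {B G : ℍ → ℂ} (hB : MDiff B) (hB0 : B ≠ 0) (hpow : ∀ τ, B τ ^ n = G τ)
    {s : LaurentSeries ℂ} (hG : HasTExp N G s) (hs : s ≠ 0) {ζ : ℂ} (hζ : ζ ^ n = 1)
    (hper : ∀ τ : ℍ, B ((m : ℝ) +ᵥ τ) = ζ * B τ)
    (hdvd : ((n : ℤ) * (N : ℤ)) ∣ m * s.order) : ζ = 1 := by
  have hζ0 : ζ ≠ 0 := by
    rintro rfl
    rw [zero_pow hn.ne'] at hζ
    exact zero_ne_one hζ
  rcases lt_trichotomy m 0 with hm | hm | hm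
  · -- negative translation: pass to the inverse
    obtain ⟨b, hb⟩ : ∃ b : ℕ, (b : ℤ) = -m := ⟨(-m).toNat, Int.toNat_of_nonneg (by omega)⟩
    have hb0 : 0 < b := by omega
    have hper' : ∀ τ : ℍ, B ((b : ℝ) +ᵥ τ) = ζ⁻¹ * B τ := by
      intro τ
      have h := hper ((b : ℝ) +ᵥ τ)
      rw [vadd_vadd] at h
      have e : (m : ℝ) + (b : ℝ) = 0 := by
        have : ((b : ℤ) : ℝ) = ((-m : ℤ) : ℝ) := by rw [hb]
        push_cast at this
        rw [this]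
        ring
      rw [e, zero_vadd] at h
      rw [h, ← mul_assoc, inv_mul_cancel₀ hζ0, one_mul]
    have hdvd' : ((n : ℤ) * (N : ℤ)) ∣ (b : ℤ) * s.order := by
      rw [hb, neg_mul]
      exact (dvd_neg.mpr hdvd)
    have h1 := h83cv_root_twist_nat hN hn hb0 hB hpow hG hs
      (by rw [inv_pow, hζ, inv_one]) hper' hdvd'
    exact inv_eq_one.mp h1
  · subst hm
    obtain ⟨τ, hτ⟩ : ∃ τ, B τ ≠ 0 := by
      by_contra hcon
      exact hB0 (funext fun τ => not_not.mp fun h => hcon ⟨τ, h⟩)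
    have h := hper τ
    rw [Int.cast_zero, zero_vadd] at h
    have h2 : (ζ - 1) * B τ = 0 := by linear_combination -h
    rcases mul_eq_zero.mp h2 with h3 | h3
    · linear_combination h3
    · exact absurd h3 hτ
  · obtain ⟨b, hb⟩ : ∃ b : ℕ, (b : ℤ) = m := ⟨m.toNat, Int.toNat_of_nonneg (by omega)⟩
    have hb0 : 0 < b := by omega
    subst hb
    refine h83cv_root_twist_nat hN hn hb0 hB hpow hG hs hζ (fun τ => ?_) hdvd
    have := hper τ
    rwa [Int.cast_natCast] at this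

/-! ### the place induced by a cusp embedding -/

theorem h83cv_exists_ord_eq_one {K F : Type*} [Field K] [Field F] [Algebra K F]
    (v : Place K F) : ∃ π : F, π ≠ 0 ∧ v.ord π = 1 := by
  obtain ⟨π, hπ⟩ := IsDiscreteValuationRing.exists_irreducible v.toValuationSubring
  exact ⟨π, by simpa using hπ.ne_zero, v.ord_coe_irreducible hπ⟩

/-- the order of the cusp expansion of a function all of whose orders are divisible by `n`:
if the invariant functions are invariant under `τ ↦ τ + m` at this cusp, then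
`n N ∣ m ord (E f)`. -/
theorem h83cv_dvd_order_E {N : ℕ} [NeZero N] {n : ℕ} {f : FF N} (hsel : IsSel N n f)
    (g : SL(2, ℤ)) (m : ℤ)
    (hinv : ∀ R : ℍ → ℂ, (∀ γ ∈ Gamma0 N, ∀ τ : ℍ, R (γ • τ) = R τ) →
      ∀ τ : ℍ, R (g⁻¹ • ((m : ℝ) +ᵥ τ)) = R (g⁻¹ • τ)) :
    ((n : ℤ) * (N : ℤ)) ∣ m * (Fermat.Agent.S24.h84_E N g f).order := by
  have hN : 0 < N := Nat.pos_of_ne_zero (NeZero.ne N)
  have ht : 0 < (Fermat.Agent.S24.h84_E N g (Fermat.Agent.S24.jBar N)⁻¹).order := by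
    rw [map_inv₀, Fermat.Agent.S24.h84_E_jBar, Fermat.Agent.S24.h84_order_p0_inv]
    exact_mod_cast hN
  obtain ⟨v, e, -, hv⟩ := Fermat.Agent.S24.exists_place_of_emb (K := Kbar) (F := FF N)
    (Fermat.Agent.S24.jBar N)⁻¹ embC (Fermat.Agent.S24.h84_E N g) (Fermat.Agent.S24.h84_E_cst N g) ht
  obtain ⟨π, hπ0, hπ⟩ := h83cv_exists_ord_eq_one v
  have hEπ : (Fermat.Agent.S24.h84_E N g π).order = e := by
    rw [hv π hπ0, hπ, mul_one]
  obtain ⟨Pπ, Qπ, hAnπ⟩ := Fermat.Agent.S24.exists_isAn N π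
  obtain ⟨p, hp⟩ := hAnπ.expP g⁻¹
  obtain ⟨q, hq⟩ := hAnπ.expQ g⁻¹
  have hp0 : p ≠ 0 := Fermat.Agent.S24.h23_series_ne_zero hp
    (Fermat.Agent.S24.h84_translate_ne_zero (hAnπ.P_ne hπ0) g)
  have hq0 : q ≠ 0 := Fermat.Agent.S24.h23_series_ne_zero hq
    (Fermat.Agent.S24.h84_translate_ne_zero hAnπ.Q_ne g)
  have h1 := h83cv_dvd_mul_order_of_vadd hN hp hp0 m (hinv Pπ hAnπ.invP)
  have h2 := h83cv_dvd_mul_order_of_vadd hN hq hq0 m (hinv Qπ hAnπ.invQ)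
  have hEπ' := Fermat.Agent.S24.h84_order_E N g hπ0 hAnπ hp hq
  have h3 : (N : ℤ) ∣ m * (e : ℤ) := by
    rw [← hEπ, hEπ', mul_sub]
    exact dvd_sub h1 h2
  obtain ⟨k, hk⟩ := hsel.2 v
  obtain ⟨c, hc⟩ := h3
  rw [hv f hsel.1, hk]
  exact ⟨c * k, by linear_combination (n : ℤ) * k * hc⟩

/-! ### the statement -/

/-- **Kummer characters are trivial on parabolic elements.** -/
theorem h83cv_kummerPar (N : ℕ) [NeZero N] (n : ℕ) (hn : 0 < n) (f : FF N)
    (hsel : IsSel N n f) (χ : Gamma0 N →* ℂˣ) (hK : KummerChar N n f χ) (γ : Gamma0 N)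
    (hγ : IsPar γ) : χ γ = 1 := by
  have hN : 0 < N := Nat.pos_of_ne_zero (NeZero.ne N)
  obtain ⟨P, Q, A, hAn, hA, hpow, hχ⟩ := hK
  obtain ⟨δ, hδ⟩ := Fermat.Agent.S21.P.exists_conj_upper (γ : SL(2, ℤ)) hγ
  obtain ⟨m, hm⟩ := ModularGroup.exists_eq_T_zpow_of_c_eq_zero hδ
  obtain ⟨g, hg⟩ : ∃ g : SL(2, ℤ), g⁻¹ = δ := ⟨δ⁻¹, inv_inv δ⟩
  have key : ∀ w : ℍ, (γ : SL(2, ℤ)) • (g⁻¹ • w) = g⁻¹ • ((m : ℝ) +ᵥ w) := by
    intro w
    have h := hm w
    rw [UpperHalfPlane.modular_T_zpow_smul] at h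
    rw [hg, ← h, ← mul_smul, ← mul_smul]
    congr 1
    group
  have hinv : ∀ R : ℍ → ℂ, (∀ γ ∈ Gamma0 N, ∀ τ : ℍ, R (γ • τ) = R τ) →
      ∀ τ : ℍ, R (g⁻¹ • ((m : ℝ) +ᵥ τ)) = R (g⁻¹ • τ) := by
    intro R hR τ
    rw [← key]
    exact hR γ γ.2 _
  obtain ⟨p, hp⟩ := hAn.expP g⁻¹
  obtain ⟨q, hq⟩ := hAn.expQ g⁻¹
  have hp0 : p ≠ 0 := Fermat.Agent.S24.h23_series_ne_zero hp
    (Fermat.Agent.S24.h84_translate_ne_zero (hAn.P_ne hsel.1) g)
  have hq0 : q ≠ 0 := Fermat.Agent.S24.h23_series_ne_zero hq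
    (Fermat.Agent.S24.h84_translate_ne_zero hAn.Q_ne g)
  have hs : p * q ^ (n - 1) ≠ 0 := mul_ne_zero hp0 (pow_ne_zero _ hq0)
  have hGexp : HasTExp N (fun τ => P (g⁻¹ • τ) * Q (g⁻¹ • τ) ^ (n - 1)) (p * q ^ (n - 1)) :=
    (hp.mul hN (hq.pow hN (n - 1))).congr (fun τ => rfl)
  have hB : MDiff (fun τ : ℍ => A (g⁻¹ • τ)) := Fermat.Agent.Jac.h72_mdiff_comp_smul hA g⁻¹
  have hpowB : ∀ τ : ℍ, (fun τ : ℍ => A (g⁻¹ • τ)) τ ^ n
      = (fun τ => P (g⁻¹ • τ) * Q (g⁻¹ • τ) ^ (n - 1)) τ := fun τ => hpow (g⁻¹ • τ)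
  have hG0 : (fun τ => P (g⁻¹ • τ) * Q (g⁻¹ • τ) ^ (n - 1)) ≠ 0 :=
    Fermat.Agent.S24.h23_fun_ne_zero hN hGexp hs
  obtain ⟨τ₁, hτ₁⟩ : ∃ τ₁ : ℍ, A (g⁻¹ • τ₁) ≠ 0 := by
    by_contra hcon
    apply hG0
    funext τ
    have h0 : A (g⁻¹ • τ) = 0 := not_not.mp fun h => hcon ⟨τ, h⟩
    have h1 := hpowB τ
    simp only [h0, zero_pow hn.ne'] at h1
    exact h1.symm
  have hB0 : (fun τ : ℍ => A (g⁻¹ • τ)) ≠ 0 := fun h0 => hτ₁ (congrFun h0 τ₁)
  have hperB : ∀ τ : ℍ, (fun τ : ℍ => A (g⁻¹ • τ)) ((m : ℝ) +ᵥ τ)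
      = ((χ γ : ℂˣ) : ℂ) * (fun τ : ℍ => A (g⁻¹ • τ)) τ := by
    intro τ
    show A (g⁻¹ • ((m : ℝ) +ᵥ τ)) = ((χ γ : ℂˣ) : ℂ) * A (g⁻¹ • τ)
    rw [← key]
    exact hχ γ (g⁻¹ • τ)
  have hζ : ((χ γ : ℂˣ) : ℂ) ^ n = 1 := by
    have h1 := hpowB ((m : ℝ) +ᵥ τ₁)
    have h2 := hpowB τ₁
    simp only at h1 h2
    rw [hinv P hAn.invP, hinv Q hAn.invQ, ← h2] at h1
    have h3 := hperB τ₁
    simp only at h3
    rw [h3, mul_pow] at h1
    have h4 : A (g⁻¹ • τ₁) ^ n ≠ 0 := pow_ne_zero n hτ₁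
    exact mul_right_cancel₀ h4 (h1.trans (one_mul _).symm)
  have hdvd : ((n : ℤ) * (N : ℤ)) ∣ m * (p * q ^ (n - 1)).order := by
    have hE := h83cv_dvd_order_E hsel g m hinv
    rw [Fermat.Agent.S24.h84_order_E N g hsel.1 hAn hp hq] at hE
    obtain ⟨c, hc⟩ := h83cv_dvd_mul_order_of_vadd hN hq hq0 m (hinv Q hAn.invQ)
    obtain ⟨d, hd⟩ := hE
    rw [HahnSeries.order_mul hp0 (pow_ne_zero _ hq0), h83cv_order_pow, Nat.cast_pred hn]
    exact ⟨d + c, by linear_combination hd + (n : ℤ) * hc⟩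
  have h1 := h83cv_root_twist hN hn m hB hB0 hpowB hGexp hs hζ hperB hdvd
  exact Units.ext h1

end Fermat.Agent.S35
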