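import Fermat.Agent.S35.Skeleton
import Fermat.Agent.Jac.CuspRoot
import Fermat.Agent.Jac.HKM.Exp

/-!
# S35, HECKE-C (`ConvKey`): frozen leaf interfaces (sub-architect helper30)

Route.  Let `x ∈ J₀(M)[n]`, `n D = div f`, `χ` the Kummer character of `f`
(`Fermat.Agent.Jac.KummerChar`).

* `KummerPar`: `χ ^ M` is trivial on the parabolic elements of `Γ₀(M)`
  (from `CvOrder`: the order at every cusp of `P Q^(n-1)` is divisible by `n`;
  `CvAnalytic`: hence the root `A ∘ g` is invariant under `τ ↦ τ + M`;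
  `CvParConj`: every parabolic element of `SL₂(ℤ)` is `± g T^k g⁻¹`).
* `CvExpLift`: there is `t₀ > 0` such that `ψ ^ t₀ = exp (2πi φ / n)`, `φ ∈ Λ = Hom_par(Γ₀(M), ℤ)`,
  for every character `ψ` of order dividing `n` which is trivial on parabolic elements.
* the Hecke polynomial `P` acts on Kummer triples through `P(T^coh)` on `Λ`
  (`Fermat.Agent.Jac.HKM.h57_poly_step`), and `P(T) = 0` on `S₂(Γ₀(M))` implies `P(T^coh) = 0`
  on `Λ` (Eichler–Shimura S21 + `Fermat.Agent.LR.h80e_hecke_pair`);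
* a torsion point with trivial Kummer character is zero (KC-INJ).

Every declaration is a `def ... : Prop`; nothing is assumed.
-/

set_option autoImplicit false

open ModularCurve AlgebraicCurve UpperHalfPlane CongruenceSubgroup
open scoped MatrixGroups Manifold

noncomputable section

namespace Fermat.Agent.S35

open Fermat.Agent.S24 (Kbar FF IsAn)
open Fermat.Agent.S28 (HasTExp)
open Fermat.Agent.Jac (IsSel KummerChar IsPar h72_conj_T_pow_mem)
open Fermat.Agent.Jac.HKM (h57_E)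

/-- **CV-AN (analytic core).**  A holomorphic function `B` on `ℍ` with `B (τ + N) = ζ B τ`, an
`n`-th power of which has an expansion `s ≠ 0` in `𝕋 = exp (2πiτ/N)` whose order is divisible
by `n`, is `N`-periodic: `ζ = 1`. -/
def CvAnalytic : Prop :=
  ∀ (N n : ℕ), 0 < N → 0 < n → ∀ (B H : ℍ → ℂ) (ζ : ℂ) (s : LaurentSeries ℂ),
    MDiff B → (∀ τ : ℍ, B ((N : ℝ) +ᵥ τ) = ζ * B τ) → (∀ τ, B τ ^ n = H τ) →
    HasTExp N H s → s ≠ 0 → (n : ℤ) ∣ s.order → ζ = 1

/-- **CV-ORD (orders at the cusps).**  If all orders of `f = P / Q` at the places of `F` are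
divisible by `n`, then `P Q^(n-1)` has at every cusp `g ∞` a nonzero expansion whose order is
divisible by `n`. -/
def CvOrder : Prop :=
  ∀ (N : ℕ) [NeZero N] (n : ℕ), 0 < n → ∀ (f : FF N) (P Q : ℍ → ℂ), IsSel N n f →
    IsAn N f P Q → ∀ g : SL(2, ℤ), ∃ s : LaurentSeries ℂ,
      HasTExp N (fun τ => P (g • τ) * Q (g • τ) ^ (n - 1)) s ∧ s ≠ 0 ∧ (n : ℤ) ∣ s.order

/-- **CV-CONJ.**  Every element of `SL₂(ℤ)` with trace `± 2` is `± g T^k g⁻¹`. -/
def CvParConj : Prop :=
  ∀ γ : SL(2, ℤ), (γ : Matrix (Fin 2) (Fin 2) ℤ).trace ^ 2 = 4 →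
    ∃ (g : SL(2, ℤ)) (k : ℤ),
      γ = g * ModularGroup.T ^ k * g⁻¹ ∨ γ = -(g * ModularGroup.T ^ k * g⁻¹)

/-- **CV-PAR (target of CV-AN, CV-ORD, CV-CONJ).**  The `N`-th power of a Kummer character is
trivial on the parabolic elements (and on `± 1`). -/
def KummerPar : Prop :=
  ∀ (N : ℕ) [NeZero N] (n : ℕ), 0 < n → ∀ (f : FF N) (χ : Gamma0 N →* ℂˣ),
    IsSel N n f → KummerChar N n f χ → ∀ γ : Gamma0 N, IsPar γ → χ γ ^ N = 1

/-- **CV-PAR, assembly.** -/
def KummerParAssembly : Prop :=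
  CvAnalytic → CvOrder → CvParConj → KummerPar

/-- **CV-LIFT.**  There is `t > 0` such that the `t`-th power of every character of `Γ₀(N)` of
order dividing `n` which is trivial on parabolic elements is `exp (2πi φ / n)` for an integral
parabolic homomorphism `φ`  (`t` = an exponent of the torsion of `Γ₀(N)^ab / parabolic`). -/
def CvExpLift : Prop :=
  ∀ (N : ℕ) [NeZero N], ∃ t : ℕ, 0 < t ∧ ∀ (n : ℕ), 0 < n → ∀ χ : Gamma0 N →* ℂˣ,
    χ ^ n = 1 → (∀ γ : Gamma0 N, IsPar γ → χ γ = 1) →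
    ∃ φ : Additive (Gamma0 N) →+ ℤ, φ ∈ Period.parabolicHoms ℤ (Gamma0 N) ℤ ∧
      χ ^ t = h57_E N n φ

/-- **HECKE-C, assembly** (helper30). -/
def ConvKeyAssembly : Prop :=
  KummerPar → CvExpLift → ∀ (M : ℕ) [NeZero M], ConvKey M

end Fermat.Agent.S35
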