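import Mathlib

/-!
# S35, block HECKE, leaf HK-EIG (helper16): the abstract core

`hk16_exists_eigenvector`: a commutative ring `A`, finite and free over `ℤ`, acting faithfully
on a complex vector space `V` and stabilising a spanning set `L` of "integral" vectors (all
coordinates with respect to an injective family of linear functionals are integers).  Then
EVERY ring homomorphism `χ : A → ℂ` is the system of eigenvalues of a common eigenvector.

Proof: `ℂ ⊗[ℤ] A → End V` is injective (a `ℤ`-basis of `A` stays `ℂ`-linearly independent,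
`hk16_indep`), `ℂ ⊗[ℤ] A` is artinian, so the maximal ideal `ker (χ ⊗ ℂ)` is an associated prime,
`= Ann t`; any nonzero vector `t y` is an eigenvector.
-/

set_option autoImplicit false
set_option linter.style.haveILetI false

open scoped TensorProduct

namespace Fermat.Agent.S35

/-- `ℤ`-linearly independent integer valued functions are `ℂ`-linearly independent. -/
theorem hk16_indep {S : Type*} {r : ℕ} (φ : Fin r → S → ℤ)
    (hφ : ∀ n : Fin r → ℤ, (∀ s, ∑ k, n k * φ k s = 0) → n = 0)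
    (c : Fin r → ℂ) (hc : ∀ s, ∑ k, c k * (φ k s : ℂ) = 0) : c = 0 := by
  classical
  by_contra hc0
  obtain ⟨k₀, hk₀⟩ : ∃ k, c k ≠ 0 := by
    by_contra h
    push Not at h
    exact hc0 (funext h)
  obtain ⟨lam, hlam⟩ := Module.Projective.exists_dual_ne_zero ℚ hk₀
  let w : Fin r → S → ℚ := fun k s => (φ k s : ℚ)
  have hwZ : LinearIndependent ℤ w := by
    rw [Fintype.linearIndependent_iff]
    intro n hn k
    have h1 : ∀ s, ∑ k, n k * φ k s = 0 := by
      intro s
      have h2 := congrFun hn s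
      simp only [Finset.sum_apply, w, zsmul_eq_mul, Pi.zero_apply] at h2
      have h3 : ((∑ k, n k * φ k s : ℤ) : ℚ) = 0 := by
        push_cast
        rw [← h2]
        refine Finset.sum_congr rfl fun k _ => ?_
        simp
      exact_mod_cast h3
    rw [hφ n h1]
    rfl
  have hwQ : LinearIndependent ℚ w := (LinearIndependent.iff_fractionRing ℤ ℚ).mp hwZ
  have hq : ∑ k, lam (c k) • w k = 0 := by
    funext s
    simp only [Finset.sum_apply, Pi.smul_apply, w, smul_eq_mul, Pi.zero_apply]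
    have h1 := congrArg lam (hc s)
    rw [map_sum, map_zero] at h1
    rw [← h1]
    refine Finset.sum_congr rfl fun k _ => ?_
    have h2 : c k * (φ k s : ℂ) = ((φ k s : ℤ) : ℚ) • c k := by
      rw [Algebra.smul_def]
      simp [mul_comm]
    rw [h2, map_smul, smul_eq_mul, mul_comm]
  have := (Fintype.linearIndependent_iff.mp hwQ) _ hq k₀
  exact hlam this

/-- Every character of a finite free commutative `ℤ`-algebra acting faithfully on a complex
vector space with an integral structure is the system of eigenvalues of an eigenvector. -/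
theorem hk16_exists_eigenvector {V : Type*} [AddCommGroup V] [Module ℂ V]
    {A : Type*} [CommRing A] [Module.Finite ℤ A] [Module.Free ℤ A]
    (ρ : A →+* Module.End ℂ V) (hρ : Function.Injective ρ)
    (L : Set V) (hL : Submodule.span ℂ L = ⊤) (hstab : ∀ a : A, ∀ x ∈ L, ρ a x ∈ L)
    {I : Type*} (Q : V →ₗ[ℂ] (I → ℂ)) (hQinj : Function.Injective Q)
    (hQ : ∀ x ∈ L, ∀ i, ∃ m : ℤ, Q x i = m)
    (χ : A →+* ℂ) :
    ∃ v : V, v ≠ 0 ∧ ∀ a : A, ρ a v = χ a • v := by
  classical
  -- the two algebra homomorphisms on `ℂ ⊗ A`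
  have hcomm : ∀ (c : ℂ) (a : A),
      Commute (Algebra.ofId ℂ (Module.End ℂ V) c) (ρ.toIntAlgHom a) := by
    intro c a
    show Commute (algebraMap ℂ (Module.End ℂ V) c) (ρ.toIntAlgHom a)
    exact Algebra.commute_algebraMap_left c _
  let ρC : (ℂ ⊗[ℤ] A) →ₐ[ℂ] Module.End ℂ V :=
    Algebra.TensorProduct.lift (Algebra.ofId ℂ (Module.End ℂ V)) ρ.toIntAlgHom hcomm
  let χC : (ℂ ⊗[ℤ] A) →ₐ[ℂ] ℂ :=
    Algebra.TensorProduct.lift (Algebra.ofId ℂ ℂ) χ.toIntAlgHom (fun _ _ => Commute.all _ _)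
  have hρC_tmul : ∀ (c : ℂ) (a : A), ρC (c ⊗ₜ a) = c • ρ a := by
    intro c a
    show Algebra.TensorProduct.lift (Algebra.ofId ℂ (Module.End ℂ V)) ρ.toIntAlgHom hcomm
      (c ⊗ₜ a) = c • ρ a
    rw [Algebra.TensorProduct.lift_tmul]
    show algebraMap ℂ (Module.End ℂ V) c * ρ a = c • ρ a
    rw [Algebra.algebraMap_eq_smul_one, smul_mul_assoc, one_mul]
  have hχC_tmul : ∀ (c : ℂ) (a : A), χC (c ⊗ₜ a) = c * χ a := by
    intro c a
    show Algebra.TensorProduct.lift (Algebra.ofId ℂ ℂ) χ.toIntAlgHom (fun _ _ => Commute.all _ _)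
      (c ⊗ₜ a) = c * χ a
    rw [Algebra.TensorProduct.lift_tmul]
    rfl
  -- injectivity of `ρC`
  let b := Module.finBasis ℤ A
  let bC := Algebra.TensorProduct.basis ℂ b
  have hρC : Function.Injective ρC := by
    rw [injective_iff_map_eq_zero]
    intro z hz
    have hzsum : z = ∑ k, bC.repr z k • bC k := (bC.sum_repr z).symm
    have hop : ∑ k, bC.repr z k • ρ (b k) = 0 := by
      have hz2 : ρC (∑ k, bC.repr z k • bC k) = 0 := by
        rw [bC.sum_repr z]
        exact hz
      rw [map_sum] at hz2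
      rw [← hz2]
      refine Finset.sum_congr rfl fun k _ => ?_
      rw [map_smul, Algebra.TensorProduct.basis_apply, hρC_tmul, one_smul]
    -- integer coordinates
    have hcoord : ∀ (k : Fin (Module.finrank ℤ A)) (s : {x // x ∈ L} × I),
        ∃ m : ℤ, Q (ρ (b k) s.1.1) s.2 = m :=
      fun k s => hQ _ (hstab (b k) s.1.1 s.1.2) s.2
    choose φ hφ using hcoord
    have hrepr : bC.repr z = 0 := by
      have h0 : (fun k => bC.repr z k) = 0 := by
        refine hk16_indep φ ?_ _ ?_
        · intro n hn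
          -- `∑ n k • b k` acts as zero on `L`, hence is zero
          have hzero : ρ (∑ k, n k • b k) = 0 := by
            apply LinearMap.ext_on hL
            intro x hx
            apply hQinj
            funext i
            have h1 := hn (⟨x, hx⟩, i)
            have h2 : Q (ρ (∑ k, n k • b k) x) i = ((∑ k, n k * φ k (⟨x, hx⟩, i) : ℤ) : ℂ) := by
              rw [map_sum, LinearMap.sum_apply, map_sum, Finset.sum_apply]
              push_cast
              refine Finset.sum_congr rfl fun k _ => ?_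
              rw [map_zsmul, LinearMap.smul_apply, map_zsmul, Pi.smul_apply, hφ k (⟨x, hx⟩, i)]
              simp
            rw [h2, h1]
            simp
          have hsum : ∑ k, n k • b k = 0 := hρ (by rw [hzero, map_zero])
          have := (Fintype.linearIndependent_iff.mp b.linearIndependent) n hsum
          exact funext this
        · intro s
          have h1 := congrArg (fun T : Module.End ℂ V => Q (T s.1.1) s.2) hop
          simp only [LinearMap.sum_apply, LinearMap.smul_apply, map_sum, map_smul,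
            Finset.sum_apply, Pi.smul_apply, smul_eq_mul, LinearMap.zero_apply, map_zero,
            Pi.zero_apply] at h1
          rw [← h1]
          refine Finset.sum_congr rfl fun k _ => ?_
          rw [hφ k s]
      ext k
      exact congrFun h0 k
    rw [hzsum, hrepr]
    simp
  -- `ℂ ⊗ A` is artinian and `ker χC` is a maximal ideal
  haveI : Module.Finite ℂ (ℂ ⊗[ℤ] A) := inferInstance
  haveI : IsArtinianRing (ℂ ⊗[ℤ] A) := IsArtinianRing.of_finite ℂ (ℂ ⊗[ℤ] A)
  haveI : IsNoetherianRing (ℂ ⊗[ℤ] A) := inferInstance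
  let 𝔪 : Ideal (ℂ ⊗[ℤ] A) := RingHom.ker (χC : (ℂ ⊗[ℤ] A) →+* ℂ)
  have hχsurj : Function.Surjective (χC : (ℂ ⊗[ℤ] A) →+* ℂ) := by
    intro c
    refine ⟨c ⊗ₜ 1, ?_⟩
    show χC (c ⊗ₜ 1) = c
    rw [hχC_tmul, map_one, mul_one]
  haveI h𝔪max : 𝔪.IsMaximal := RingHom.ker_isMaximal_of_surjective _ hχsurj
  obtain ⟨𝔭, h𝔭min, h𝔭le⟩ := Ideal.exists_minimalPrimes_le (bot_le : (⊥ : Ideal (ℂ ⊗[ℤ] A)) ≤ 𝔪)
  haveI h𝔭prime : 𝔭.IsPrime := h𝔭min.1.1
  haveI h𝔭max : 𝔭.IsMaximal := IsArtinianRing.isMaximal_of_isPrime 𝔭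
  have h𝔭eq : 𝔭 = 𝔪 := h𝔭max.eq_of_le h𝔪max.ne_top h𝔭le
  have hann : Module.annihilator (ℂ ⊗[ℤ] A) (ℂ ⊗[ℤ] A) = ⊥ := by
    rw [eq_bot_iff]
    intro a ha
    have := (Module.mem_annihilator.1 ha) (1 : ℂ ⊗[ℤ] A)
    simpa using this
  have hass : 𝔭 ∈ associatedPrimes (ℂ ⊗[ℤ] A) (ℂ ⊗[ℤ] A) := by
    apply Module.associatedPrimes.minimalPrimes_annihilator_subset_associatedPrimes
    rw [hann]
    exact h𝔭min
  obtain ⟨-, t, ht⟩ := (isAssociatedPrime_iff (I := 𝔭) (M := ℂ ⊗[ℤ] A)).1 hass
  have hmem : ∀ a : ℂ ⊗[ℤ] A, a ∈ 𝔪 ↔ a * t = 0 := by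
    intro a
    rw [← h𝔭eq, ht, Submodule.mem_colon_singleton]
    simp
  have ht0 : t ≠ 0 := by
    intro h
    apply h𝔪max.ne_top
    rw [Ideal.eq_top_iff_one, hmem, h, mul_zero]
  have hρt : ρC t ≠ 0 := fun h => ht0 (hρC (by rw [h, map_zero]))
  obtain ⟨y, hy⟩ : ∃ y, ρC t y ≠ 0 := by
    by_contra hcon
    push Not at hcon
    exact hρt (LinearMap.ext hcon)
  refine ⟨ρC t y, hy, fun a => ?_⟩
  have h1 : ((1 : ℂ) ⊗ₜ[ℤ] a - (χ a) ⊗ₜ[ℤ] (1 : A)) ∈ 𝔪 := by
    show χC _ = 0
    rw [map_sub, hχC_tmul, hχC_tmul, map_one, one_mul, mul_one, sub_self]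
  have h2 := (hmem _).1 h1
  have h3 := congrArg (fun z => ρC z y) h2
  simp only [map_mul, map_sub, hρC_tmul, one_smul, map_one, map_zero, LinearMap.zero_apply,
    Module.End.mul_apply, LinearMap.sub_apply, LinearMap.smul_apply] at h3
  rw [sub_eq_zero] at h3
  rw [h3]
  simp

end Fermat.Agent.S35
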