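import Fermat.Agent.S35.HeckeSkeleton
import Fermat.Agent.S35.HK.EigAbs16
import Fermat.Agent.S22
import Fermat.Agent.S23
import Fermat.Agent.S49.Eigenform
import Fermat.Agent.S49.CommonEigen
import Fermat.Agent.S49.HeckeFinite

/-!
# S35, block HECKE, leaf HK-EIG (helper16)

`hk16_eigenOfChar N : EigenOfChar N`: every ring homomorphism `χ` from the Hecke algebra of level
`N` away from `S` to `ℂ` is the system of eigenvalues of a normalised eigenform of level `N`.

Proof: (1) `hk16_exists_eigenvector` (abstract core, `EigAbs16.lean`) with the lattice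
`intLattice N 2` (S23: it spans; S22: the Hecke algebra is finite over `ℤ`) gives a nonzero `u`
with `T u = χ T • u` for all `T` in the Hecke algebra away from `S`; (2) the `χ`-eigenspace is
stable under the full commutative family of all `T_p`, `U_p`, so it contains a common eigenvector
(`S49.exists_common_eigenvector`); (3) `S49.exists_normalized_eigenform`.
-/

set_option autoImplicit false
set_option linter.style.haveILetI false

open CongruenceSubgroup ModularFormClass

noncomputable section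

namespace Fermat.Agent.S35

/-- **HK-EIG.** -/
theorem hk16_eigenOfChar (N : ℕ) [NeZero N] : EigenOfChar N := by
  classical
  intro S _hS χ
  haveI : FiniteDimensional ℂ (CuspForm (Gamma0 N) 2) :=
    Fermat.Agent.S49.finiteDimensional_cuspForm N 2
  haveI : Module.Finite ℤ (CuspForm.heckeAlgebra N 2 (↑S : Set ℕ)) :=
    Fermat.Agent.S22.result N 2 _
  haveI : Module.Free ℤ (CuspForm.heckeAlgebra N 2 (↑S : Set ℕ)) :=
    Module.free_of_finite_type_torsion_free'
  have hint : CuspForm.HasIntegralStructure N 2 := Fermat.Agent.S23.result N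
  -- Step 1: an eigenvector for the Hecke algebra away from `S`
  have hQinj : Function.Injective
      (LinearMap.pi fun n : ℕ => Fermat.Agent.S49.qCoeffLin N 2 n :
        CuspForm (Gamma0 N) 2 →ₗ[ℂ] (ℕ → ℂ)) := by
    rw [← LinearMap.ker_eq_bot, LinearMap.ker_eq_bot']
    intro f hf
    apply Fermat.Agent.S49.eq_zero_of_forall_qCoeff
    intro n
    exact congrFun hf n
  obtain ⟨u, hu0, hu⟩ := hk16_exists_eigenvector
    (A := CuspForm.heckeAlgebra N 2 (↑S : Set ℕ))
    (CuspForm.heckeAlgebra N 2 (↑S : Set ℕ)).val.toRingHom Subtype.val_injective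
    (CuspForm.intLattice N 2 : Set (CuspForm (Gamma0 N) 2)) hint
    (fun a x hx => CuspForm.mem_intLattice_of_mem_heckeAlgebra one_le_two a.2 hx)
    (LinearMap.pi fun n : ℕ => Fermat.Agent.S49.qCoeffLin N 2 n) hQinj
    (fun x hx n => (Fermat.Agent.S49.mem_intLattice_iff x).1 hx n) χ
  -- Step 2: the eigenspace and the full Hecke family
  let W : Submodule ℂ (CuspForm (Gamma0 N) 2) :=
    ⨅ a : CuspForm.heckeAlgebra N 2 (↑S : Set ℕ),
      LinearMap.ker ((a : Module.End ℂ (CuspForm (Gamma0 N) 2)) - χ a • 1)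
  have hWmem : ∀ x, x ∈ W ↔ ∀ a : CuspForm.heckeAlgebra N 2 (↑S : Set ℕ),
      (a : Module.End ℂ (CuspForm (Gamma0 N) 2)) x = χ a • x := by
    intro x
    simp only [W, Submodule.mem_iInf, LinearMap.mem_ker, LinearMap.sub_apply,
      LinearMap.smul_apply, Module.End.one_apply, sub_eq_zero]
  have huW : u ∈ W := (hWmem u).2 hu
  have hW : W ≠ ⊥ := by
    intro h
    rw [h] at huW
    exact hu0 ((Submodule.mem_bot ℂ).1 huW)
  have hcomm : ∀ T ∈ CuspForm.heckeGenerators N 2 (∅ : Set ℕ),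
      ∀ T' ∈ CuspForm.heckeGenerators N 2 (∅ : Set ℕ), Commute T T' :=
    fun T hT T' hT' => CuspForm.commute_of_mem_heckeGenerators hT hT'
  have hle : CuspForm.heckeAlgebra N 2 (↑S : Set ℕ) ≤ CuspForm.heckeAlgebra N 2 (∅ : Set ℕ) :=
    CuspForm.heckeAlgebra_mono (Set.empty_subset _)
  have hstab : ∀ T ∈ CuspForm.heckeGenerators N 2 (∅ : Set ℕ), ∀ w ∈ W, T w ∈ W := by
    intro T hT w hw
    rw [hWmem] at hw ⊢
    intro a
    have hTmem : T ∈ CuspForm.heckeAlgebra N 2 (∅ : Set ℕ) := Algebra.subset_adjoin hT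
    have hamem : (a : Module.End ℂ (CuspForm (Gamma0 N) 2)) ∈
        CuspForm.heckeAlgebra N 2 (∅ : Set ℕ) := hle a.2
    have hc : (a : Module.End ℂ (CuspForm (Gamma0 N) 2)) * T =
        T * (a : Module.End ℂ (CuspForm (Gamma0 N) 2)) :=
      congrArg Subtype.val
        (mul_comm (⟨_, hamem⟩ : CuspForm.heckeAlgebra N 2 (∅ : Set ℕ)) ⟨T, hTmem⟩)
    have h1 : (a : Module.End ℂ (CuspForm (Gamma0 N) 2)) (T w) =
        T ((a : Module.End ℂ (CuspForm (Gamma0 N) 2)) w) :=
      congrArg (fun F : Module.End ℂ (CuspForm (Gamma0 N) 2) => F w) hc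
    rw [h1, hw a, map_smul]
  obtain ⟨v, hvW, hv0, hv⟩ := Fermat.Agent.S49.exists_common_eigenvector
    (CuspForm.heckeGenerators N 2 (∅ : Set ℕ)) hcomm W hW hstab
  -- Step 3: the normalised eigenform
  have hTe : ∀ (p : ℕ) (hp : p.Prime) (hpN : ¬ p ∣ N),
      ∃ μ : ℂ, CuspForm.heckeTLin 2 hp hpN v = μ • v := fun p hp hpN =>
    hv _ (CuspForm.heckeTLin_mem_heckeGenerators hp hpN (Set.notMem_empty _))
  have hUe : ∀ (p : ℕ) (_ : p.Prime) (hpN : p ∣ N),
      ∃ μ : ℂ, CuspForm.heckeULin 2 hpN v = μ • v := fun p hp hpN =>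
    hv _ (CuspForm.heckeULin_mem_heckeGenerators hp hpN (Set.notMem_empty _))
  let lam : ℕ → ℂ := fun p =>
    if hp : p.Prime then
      (if hpN : p ∣ N then (hUe p hp hpN).choose else (hTe p hp hpN).choose)
    else 0
  have hT : ∀ (p : ℕ) (hp : p.Prime) (hpN : ¬ p ∣ N),
      CuspForm.heckeTLin 2 hp hpN v = lam p • v := by
    intro p hp hpN
    simp only [lam, dif_pos hp, dif_neg hpN]
    exact (hTe p hp hpN).choose_spec
  have hU : ∀ (p : ℕ) (_ : p.Prime) (hpN : p ∣ N),
      CuspForm.heckeULin 2 hpN v = lam p • v := by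
    intro p hp hpN
    simp only [lam, dif_pos hp, dif_pos hpN]
    exact (hUe p hp hpN).choose_spec
  obtain ⟨g, hg, hgl⟩ := Fermat.Agent.S49.exists_normalized_eigenform v hv0 lam hT hU
  refine ⟨g, hg, fun ℓ hℓ hℓN hℓS => ?_⟩
  rw [hgl ℓ hℓ]
  have h1 := (hWmem v).1 hvW (CuspForm.heckeAlgebra.T hℓ hℓN hℓS)
  rw [CuspForm.heckeAlgebra.coe_T, hT ℓ hℓ hℓN] at h1
  exact smul_left_injective ℂ hv0 h1

end Fermat.Agent.S35

end
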