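import Mathlib
import Fermat.Agent.S35.HeckeSkeleton
import Fermat.Agent.S22
import Fermat.Agent.S23
import Fermat.Agent.S49.CommonEigen
import Fermat.Agent.S49.Eigenform
import Fermat.Agent.S49.HeckeFinite

/-!
# S35, block HECKE, leaf HK-EIG (helper94, second seat)

`h94e_eigenOfChar (N) [NeZero N] : EigenOfChar N` — every ring homomorphism from the Hecke algebra
of level `N` away from `S` to `ℂ` is the system of eigenvalues of a normalised eigenform.

Route.
* `h94e_exists_eigenvector` (abstract): a finite dimensional commutative `ℂ`-algebra acting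
  faithfully on `V` has, for every `ℂ`-algebra character `χ`, a nonzero vector on which it acts
  through `χ` (the kernel of `χ` is a minimal prime, hence an associated prime).
* `h94e_indep`: `ℤ`-linearly independent Hecke operators are `ℂ`-linearly independent (integral
  structure `S23` + `ℚ`-linear functionals on `ℂ`), so `ℂ ⊗ 𝕋` acts faithfully.
* `h94e_exists_eigen`: a nonzero cusp form on which `𝕋 = heckeAlgebra N 2 S` acts through `χ`.
* a common eigenvector of all `T_p`, `U_p` in the `χ`-eigenspace, then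
  `S49.exists_normalized_eigenform`.
-/

set_option autoImplicit false
set_option linter.style.haveILetI false

open scoped TensorProduct
open CongruenceSubgroup ModularFormClass

noncomputable section

namespace Fermat.Agent.S35

/-! ## The abstract eigenvector lemma -/

/-- A finite dimensional commutative `ℂ`-algebra acting faithfully on `V` has, for every character
`χ`, a nonzero vector on which it acts through `χ`. -/
theorem h94e_exists_eigenvector {V : Type*} [AddCommGroup V] [Module ℂ V]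
    {R : Type*} [CommRing R] [Algebra ℂ R] [FiniteDimensional ℂ R]
    (ρ : R →ₐ[ℂ] Module.End ℂ V) (hρ : Function.Injective ρ) (χ : R →ₐ[ℂ] ℂ) :
    ∃ v : V, v ≠ 0 ∧ ∀ a : R, ρ a v = χ a • v := by
  classical
  haveI : IsArtinianRing R := IsArtinianRing.of_finite ℂ R
  haveI : IsNoetherianRing R := inferInstance
  set 𝔪 : Ideal R := RingHom.ker (χ : R →+* ℂ) with h𝔪
  haveI h𝔪prime : 𝔪.IsPrime := RingHom.ker_isPrime _
  have hmin : 𝔪 ∈ (⊥ : Ideal R).minimalPrimes := by
    refine ⟨⟨h𝔪prime, bot_le⟩, fun q hq hle => ?_⟩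
    haveI := hq.1
    have hqmax : q.IsMaximal := IsArtinianRing.isMaximal_of_isPrime q
    exact (hqmax.eq_of_le h𝔪prime.ne_top hle).ge
  have hann : Module.annihilator R R = ⊥ := by
    rw [eq_bot_iff]
    intro a ha
    have := (Module.mem_annihilator.1 ha) (1 : R)
    simpa using this
  have hass : 𝔪 ∈ associatedPrimes R R := by
    apply Module.associatedPrimes.minimalPrimes_annihilator_subset_associatedPrimes R R
    rw [hann]
    exact hmin
  obtain ⟨-, t, ht⟩ := (isAssociatedPrime_iff (I := 𝔪) (M := R)).1 hass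
  have hmem : ∀ a : R, a ∈ 𝔪 ↔ a * t = 0 := by
    intro a
    rw [ht, Submodule.mem_colon_singleton]
    simp
  have ht0 : t ≠ 0 := by
    intro h
    apply h𝔪prime.ne_top
    rw [Ideal.eq_top_iff_one, hmem, h, mul_zero]
  have hρt : ρ t ≠ 0 := fun h => ht0 (hρ (by rw [h, map_zero]))
  obtain ⟨y, hy⟩ : ∃ y, ρ t y ≠ 0 := by
    by_contra hcon
    push Not at hcon
    exact hρt (LinearMap.ext hcon)
  refine ⟨ρ t y, hy, fun a => ?_⟩
  have h1 : a - algebraMap ℂ R (χ a) ∈ 𝔪 := by
    rw [h𝔪, RingHom.mem_ker]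
    simp
  have h2 : (a - algebraMap ℂ R (χ a)) * t = 0 := (hmem _).1 h1
  have h3 : a * t = χ a • t := by
    rw [sub_mul, sub_eq_zero] at h2
    rw [h2, Algebra.smul_def]
  have h4 : ρ a (ρ t y) = ρ (a * t) y := by rw [map_mul]; rfl
  rw [h4, h3, map_smul]
  rfl

/-! ## Independence -/

variable {N : ℕ} [NeZero N]

/-- `ℤ`-linearly independent Hecke operators are `ℂ`-linearly independent. -/
theorem h94e_indep (S : Set ℕ) {ι : Type*} [Fintype ι]
    (t : ι → CuspForm.heckeAlgebra N 2 S) (ht : LinearIndependent ℤ t) :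
    LinearIndependent ℂ
      (fun i => ((t i : CuspForm.heckeAlgebra N 2 S) : Module.End ℂ (CuspForm (Gamma0 N) 2))) := by
  classical
  have hint : CuspForm.HasIntegralStructure N 2 := Fermat.Agent.S23.result N
  rw [Fintype.linearIndependent_iff]
  intro c hc i
  rw [← Module.forall_dual_apply_eq_zero_iff ℚ (c i)]
  intro φ
  -- the rational numbers `φ (c j)` and a common denominator
  obtain ⟨d, hd⟩ := IsLocalization.exist_integer_multiples (nonZeroDivisors ℤ)
    (Finset.univ : Finset ι) (fun j => φ (c j))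
  have hd0 : ((d : ℤ) : ℚ) ≠ 0 := by
    have := nonZeroDivisors.coe_ne_zero d
    exact_mod_cast this
  have hn : ∀ j, ∃ n : ℤ, (n : ℚ) = ((d : ℤ) : ℚ) * φ (c j) := by
    intro j
    obtain ⟨n, hn⟩ := hd j (Finset.mem_univ j)
    refine ⟨n, ?_⟩
    have : algebraMap ℤ ℚ n = (d : ℤ) • φ (c j) := hn
    rw [← zsmul_eq_mul]
    simpa using this
  choose n hn using hn
  -- the integral combination `∑ n j • t j` is zero
  have hsum : ∑ j, n j • t j = 0 := by
    apply Subtype.ext
    refine LinearMap.ext_on hint fun f hf => ?_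
    have hcoe : (((∑ j, n j • t j : CuspForm.heckeAlgebra N 2 S) :
        Module.End ℂ (CuspForm (Gamma0 N) 2))) =
        ∑ j, n j • ((t j : CuspForm.heckeAlgebra N 2 S) :
          Module.End ℂ (CuspForm (Gamma0 N) 2)) := by
      simp
    rw [hcoe]
    simp only [ZeroMemClass.coe_zero, LinearMap.zero_apply, LinearMap.sum_apply,
      LinearMap.smul_apply]
    apply Fermat.Agent.S49.eq_zero_of_forall_qCoeff
    intro m
    -- the integral `q`-coefficients of `t j f`
    have hk : ∀ j, ∃ k : ℤ, qCoeff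
        ⇑(((t j : CuspForm.heckeAlgebra N 2 S) : Module.End ℂ (CuspForm (Gamma0 N) 2)) f) m
          = (k : ℂ) := by
      intro j
      have h1 := CuspForm.mem_intLattice_of_mem_heckeAlgebra one_le_two (t j).2 hf
      exact (Fermat.Agent.S49.mem_intLattice_iff _).1 h1 m
    choose k hk using hk
    have hq : qCoeff ⇑(∑ j, n j • (((t j : CuspForm.heckeAlgebra N 2 S) :
        Module.End ℂ (CuspForm (Gamma0 N) 2)) f)) m = ∑ j, ((n j : ℂ)) * (k j : ℂ) := by
      rw [← Fermat.Agent.S49.qCoeffLin_apply, map_sum]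
      refine Finset.sum_congr rfl fun j _ => ?_
      rw [map_zsmul, Fermat.Agent.S49.qCoeffLin_apply, hk j, zsmul_eq_mul]
    rw [hq]
    -- apply `q`-coefficient and `φ` to the relation
    have hrel : ∑ j, c j * (k j : ℂ) = 0 := by
      have h1 := congrArg (fun T : Module.End ℂ (CuspForm (Gamma0 N) 2) =>
        Fermat.Agent.S49.qCoeffLin N 2 m (T f)) hc
      simp only [LinearMap.sum_apply, LinearMap.smul_apply, map_sum, map_smul,
        Fermat.Agent.S49.qCoeffLin_apply, LinearMap.zero_apply, map_zero, smul_eq_mul] at h1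
      rw [← h1]
      exact Finset.sum_congr rfl fun j _ => by rw [hk j]
    have hφ : ∑ j, (k j : ℚ) * φ (c j) = 0 := by
      have h1 := congrArg φ hrel
      rw [map_sum, map_zero] at h1
      rw [← h1]
      refine Finset.sum_congr rfl fun j _ => ?_
      have h2 : c j * (k j : ℂ) = (k j : ℚ) • c j := by
        rw [mul_comm]
        simp [Algebra.smul_def]
      rw [h2, map_smul, smul_eq_mul]
    have hZ : ∑ j, (n j) * (k j) = 0 := by
      have h1 : ((∑ j, (n j) * (k j) : ℤ) : ℚ) = 0 := by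
        push_cast
        have h2 : ∑ j, (n j : ℚ) * (k j : ℚ) = ((d : ℤ) : ℚ) * ∑ j, (k j : ℚ) * φ (c j) := by
          rw [Finset.mul_sum]
          refine Finset.sum_congr rfl fun j _ => ?_
          rw [hn j]
          ring
        rw [h2, hφ, mul_zero]
      exact_mod_cast h1
    have h3 : ((∑ j, (n j) * (k j) : ℤ) : ℂ) = 0 := by rw [hZ]; simp
    rw [← h3]
    push_cast
    rfl
  have hni : n i = 0 := (Fintype.linearIndependent_iff.1 ht) n hsum i
  have h5 := hn i
  rw [hni] at h5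
  have h6 : ((d : ℤ) : ℚ) * φ (c i) = 0 := by rw [← h5]; simp
  rcases mul_eq_zero.1 h6 with h | h
  · exact absurd h hd0
  · exact h

/-! ## An eigenvector for the character `χ` -/

/-- There is a nonzero cusp form on which the Hecke algebra away from `S` acts through `χ`. -/
theorem h94e_exists_eigen (S : Set ℕ) (χ : CuspForm.heckeAlgebra N 2 S →+* ℂ) :
    ∃ v : CuspForm (Gamma0 N) 2, v ≠ 0 ∧
      ∀ t : CuspForm.heckeAlgebra N 2 S,
        (t : Module.End ℂ (CuspForm (Gamma0 N) 2)) v = χ t • v := by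
  classical
  haveI : Module.Finite ℤ (CuspForm.heckeAlgebra N 2 S) := Fermat.Agent.S22.result N 2 S
  haveI : Module.Free ℤ (CuspForm.heckeAlgebra N 2 S) := Module.free_of_finite_type_torsion_free'
  let b := Module.Free.chooseBasis ℤ (CuspForm.heckeAlgebra N 2 S)
  let B := Algebra.TensorProduct.basis ℂ b
  -- the action of `ℂ ⊗ 𝕋`
  let ρ : ℂ ⊗[ℤ] (CuspForm.heckeAlgebra N 2 S) →ₐ[ℂ] Module.End ℂ (CuspForm (Gamma0 N) 2) :=
    Algebra.TensorProduct.lift (Algebra.ofId ℂ _) (CuspForm.heckeAlgebra N 2 S).val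
      (fun x y => Algebra.commutes x _)
  let χC : ℂ ⊗[ℤ] (CuspForm.heckeAlgebra N 2 S) →ₐ[ℂ] ℂ :=
    Algebra.TensorProduct.lift (AlgHom.id ℂ ℂ) χ.toIntAlgHom (fun x y => Commute.all _ _)
  have hρB : ∀ i, ρ (B i) = ((b i : CuspForm.heckeAlgebra N 2 S) :
      Module.End ℂ (CuspForm (Gamma0 N) 2)) := by
    intro i
    simp only [B, ρ, Algebra.TensorProduct.basis_apply, Algebra.TensorProduct.lift_tmul, map_one,
      one_mul]
    rfl
  have hρ : Function.Injective ρ := by
    rw [injective_iff_map_eq_zero]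
    intro x hx
    have hx' : ∑ i, (B.repr x i) • ((b i : CuspForm.heckeAlgebra N 2 S) :
        Module.End ℂ (CuspForm (Gamma0 N) 2)) = 0 := by
      rw [← hx]
      conv_rhs => rw [← B.sum_repr x]
      rw [map_sum]
      exact Finset.sum_congr rfl fun i _ => by rw [map_smul, hρB i]
    have hli := h94e_indep S (fun i => b i) b.linearIndependent
    have hzero := (Fintype.linearIndependent_iff.1 hli) (fun i => B.repr x i) hx'
    rw [← B.sum_repr x]
    exact Finset.sum_eq_zero fun i _ => by rw [hzero i, zero_smul]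
  haveI : FiniteDimensional ℂ (ℂ ⊗[ℤ] (CuspForm.heckeAlgebra N 2 S)) :=
    Module.Finite.of_basis B
  obtain ⟨v, hv0, hv⟩ := h94e_exists_eigenvector ρ hρ χC
  refine ⟨v, hv0, fun t => ?_⟩
  have h1 := hv ((1 : ℂ) ⊗ₜ[ℤ] t)
  simp only [ρ, χC, Algebra.TensorProduct.lift_tmul, map_one, one_mul] at h1
  exact h1

/-! ## The leaf -/

/-- **HK-EIG.**  Every ring homomorphism from the Hecke algebra away from `S` to `ℂ` is the system
of eigenvalues of a normalised eigenform. -/
theorem h94e_eigenOfChar (N : ℕ) [NeZero N] : EigenOfChar N := by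
  classical
  intro S hS χ
  haveI : FiniteDimensional ℂ (CuspForm (Gamma0 N) 2) :=
    Fermat.Agent.S49.finiteDimensional_cuspForm N 2
  obtain ⟨v₀, hv₀, hχ₀⟩ := h94e_exists_eigen (N := N) (↑S : Set ℕ) χ
  -- the `χ`-eigenspace
  let W : Submodule ℂ (CuspForm (Gamma0 N) 2) :=
    ⨅ t : CuspForm.heckeAlgebra N 2 (↑S : Set ℕ),
      LinearMap.ker ((t : Module.End ℂ (CuspForm (Gamma0 N) 2)) - χ t • (1 : Module.End ℂ _))
  have hWmem : ∀ x, x ∈ W ↔ ∀ t : CuspForm.heckeAlgebra N 2 (↑S : Set ℕ),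
      (t : Module.End ℂ (CuspForm (Gamma0 N) 2)) x = χ t • x := by
    intro x
    simp only [W, Submodule.mem_iInf, LinearMap.mem_ker, LinearMap.sub_apply,
      LinearMap.smul_apply, Module.End.one_apply, sub_eq_zero]
  have hW : W ≠ ⊥ := by
    intro h
    have h1 : v₀ ∈ W := (hWmem v₀).2 hχ₀
    rw [h] at h1
    exact hv₀ ((Submodule.mem_bot ℂ).1 h1)
  -- all Hecke operators
  let 𝒜 : Set (Module.End ℂ (CuspForm (Gamma0 N) 2)) := CuspForm.heckeGenerators N 2 (∅ : Set ℕ)
  have hcomm : ∀ T ∈ 𝒜, ∀ T' ∈ 𝒜, Commute T T' := fun T hT T' hT' =>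
    CuspForm.commute_of_mem_heckeGenerators hT hT'
  have hle : CuspForm.heckeAlgebra N 2 (↑S : Set ℕ) ≤ CuspForm.heckeAlgebra N 2 (∅ : Set ℕ) :=
    CuspForm.heckeAlgebra_mono (Set.empty_subset _)
  have hstab : ∀ T ∈ 𝒜, ∀ w ∈ W, T w ∈ W := by
    intro T hT w hw
    rw [hWmem] at hw ⊢
    intro t
    have hTmem : T ∈ CuspForm.heckeAlgebra N 2 (∅ : Set ℕ) := Algebra.subset_adjoin hT
    have htmem : (t : Module.End ℂ (CuspForm (Gamma0 N) 2)) ∈
        CuspForm.heckeAlgebra N 2 (∅ : Set ℕ) := hle t.2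
    have hc : (t : Module.End ℂ (CuspForm (Gamma0 N) 2)) * T =
        T * (t : Module.End ℂ (CuspForm (Gamma0 N) 2)) := by
      have := mul_comm (⟨(t : Module.End ℂ (CuspForm (Gamma0 N) 2)), htmem⟩ :
        CuspForm.heckeAlgebra N 2 (∅ : Set ℕ)) ⟨T, hTmem⟩
      exact congrArg Subtype.val this
    have h1 : (t : Module.End ℂ (CuspForm (Gamma0 N) 2)) (T w) =
        T ((t : Module.End ℂ (CuspForm (Gamma0 N) 2)) w) :=
      congrArg (fun f : Module.End ℂ (CuspForm (Gamma0 N) 2) => f w) hc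
    rw [h1, hw t, map_smul]
  obtain ⟨v, hvW, hv0, hv⟩ :=
    Fermat.Agent.S49.exists_common_eigenvector 𝒜 hcomm W hW hstab
  -- the eigenvalues
  have hT : ∀ (p : ℕ) (hp : p.Prime) (hpN : ¬ p ∣ N),
      ∃ μ : ℂ, CuspForm.heckeTLin 2 hp hpN v = μ • v := fun p hp hpN =>
    hv _ (CuspForm.heckeTLin_mem_heckeGenerators hp hpN (Set.notMem_empty p))
  have hU : ∀ (p : ℕ) (hp : p.Prime) (hpN : p ∣ N),
      ∃ μ : ℂ, CuspForm.heckeULin 2 hpN v = μ • v := fun p hp hpN =>
    hv _ (CuspForm.heckeULin_mem_heckeGenerators hp hpN (Set.notMem_empty p))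
  let lam : ℕ → ℂ := fun p =>
    if hp : p.Prime then
      if hpN : p ∣ N then (hU p hp hpN).choose else (hT p hp hpN).choose
    else 0
  have hlamT : ∀ (p : ℕ) (hp : p.Prime) (hpN : ¬ p ∣ N),
      CuspForm.heckeTLin 2 hp hpN v = lam p • v := by
    intro p hp hpN
    simp only [lam, dif_pos hp, dif_neg hpN]
    exact (hT p hp hpN).choose_spec
  have hlamU : ∀ (p : ℕ) (_ : p.Prime) (hpN : p ∣ N),
      CuspForm.heckeULin 2 hpN v = lam p • v := by
    intro p hp hpN
    simp only [lam, dif_pos hp, dif_pos hpN]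
    exact (hU p hp hpN).choose_spec
  obtain ⟨g, hg, hgq⟩ := Fermat.Agent.S49.exists_normalized_eigenform v hv0 lam hlamT hlamU
  refine ⟨g, hg, fun ℓ hℓ hℓN hℓS => ?_⟩
  rw [hgq ℓ hℓ]
  have h1 := (hWmem v).1 hvW (CuspForm.heckeAlgebra.T hℓ hℓN hℓS)
  rw [CuspForm.heckeAlgebra.coe_T, hlamT ℓ hℓ hℓN] at h1
  exact smul_left_injective ℂ hv0 h1

end Fermat.Agent.S35
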