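import Fermat.Agent.S35.HeckeSkeleton
import Fermat.Agent.Red.HKComm.Main
import Fermat.Agent.Red.Kron.Fricke

/-!
# S35, block HECKE, task HK-EQUIV: the pushforwards commute with the Hecke operators

`pushHecke : PushHecke` (unconditional): for a prime `q ∤ M` and a prime `ℓ ∤ M q`,
`α_* ∘ T_ℓ = T_ℓ ∘ α_*` and `β_* ∘ T_ℓ = T_ℓ ∘ β_*` as maps `J₀(M q) → J₀(M)`.

Proof.  `T_ℓ = (δ₁)_* (δ_ℓ)^*` on divisors.  For `e ∈ {1, q}` and `δ_e : F_M → F_{Mq}`, base
change in the square `F_M → F_{Mq}` (`δ_e`), `F_M → F_{Mℓ}` (`δ_ℓ`), `F_{Mℓ} → F_T` (`δ_e`),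
`F_{Mq} → F_T` (`δ_ℓ`), `T = M q ℓ`, gives `(δ_ℓ)^* (δ_e)_* = (δ_e)_* (δ_ℓ)^*`, hence both sides
are `(δ_e : F_M → F_T)_* (δ_ℓ : F_{Mq} → F_T)^*`.  The linear disjointness of the square is
`SquareStatement` for `e = 1`; for `e = q` it is transported from the case `e = 1` by the
Atkin–Lehner involutions `w_q` of `F_{Mq}` and of `F_{Mℓq}`.
-/

set_option autoImplicit false
set_option linter.style.haveILetI false
set_option linter.unusedSectionVars false

open AlgebraicCurve ModularCurve IntermediateField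

noncomputable section

namespace Fermat.Agent.S35

open Fermat.Agent.S24 (Kbar FF jBar jdBar cst)
open Fermat.Agent.Red.HKMod
open Fermat.Agent.Red.HKComm
open Fermat.Agent.Red.Kron

/-- principal divisors of `F_M` (local instance). -/
local instance h39k_instPD (M : ℕ) [NeZero M] : HasPrincipalDivisors Kbar (FF M) :=
  hasPrincipalDivisors_FF M

/-- `F_M` is finite over `K(j)` (local instance). -/
local instance h39k_instFD (M : ℕ) [NeZero M] : FiniteDimensional Kbar⟮jBar M⟯ (FF M) :=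
  finiteDimensional_jBar M

/-! ## the divisor identity from the linear disjointness of the square -/

/-- **Divisor level.**  `(δ_e)_* ∘ T_ℓ = T_ℓ ∘ (δ_e)_*` from the linear disjointness of the
square of `δ_e` and `δ_ℓ`. -/
theorem h39k_push_corr (M q ℓ T : ℕ) [NeZero M] [NeZero q] [NeZero ℓ] [NeZero T] (e : ℕ)
    [NeZero e] (hα : M * e ∣ M * q) (hβ1 : M * 1 ∣ M * ℓ) (hββ : M * ℓ ∣ M * ℓ)
    (ha : M * ℓ * e ∣ T) (hb : M * q * ℓ ∣ T) (hb1 : M * q * 1 ∣ T)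
    (hdeg : finrankAlong Kbar (degenE e ha) = finrankAlong Kbar (degenE e hα))
    (hgen : (degenE e ha).fieldRange ⊔ (degenE ℓ hb).fieldRange = ⊤)
    (D : Divisor Kbar (FF (M * q))) :
    Divisor.pushforwardAlong (degenE e hα) (isIntegral_degenE e hα)
        (corrE (M * q) T 1 ℓ hb1 hb D)
      = corrE M (M * ℓ) 1 ℓ hβ1 hββ
          (Divisor.pushforwardAlong (degenE e hα) (isIntegral_degenE e hα) D) := by
  have hMT : M * (ℓ * e) ∣ T := by rw [← mul_assoc]; exact ha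
  have hMT' : M * (e * ℓ) ∣ T := by rw [mul_comm e ℓ]; exact hMT
  have hMe : M * e ∣ T := (Dvd.intro ℓ (by ring : M * e * ℓ = M * ℓ * e)).trans ha
  have hcomm : (degenE e ha).comp (degenE ℓ hββ) = (degenE ℓ hb).comp (degenE e hα) := by
    rw [degenE_comp ℓ e hββ ha hMT, degenE_comp e ℓ hα hb hMT']
    exact degenE_congr (mul_comm ℓ e) _ _
  have hBC := hkbc_baseChange (degenE e hα) (degenE ℓ hββ) (degenE e ha) (degenE ℓ hb)
    (isIntegral_degenE e hα) (isIntegral_degenE ℓ hββ) (isIntegral_degenE e ha)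
    (isIntegral_degenE ℓ hb) hcomm
    (fun v f hf => Fermat.Agent.Red.GFF.sum_fiberAlong_ord_eq_ord_norm (degenE e hα)
      (isIntegral_degenE e hα) (finiteAlong_degenE e hα) (jBar (M * q)) v f hf)
    (fun v f hf => Fermat.Agent.Red.GFF.sum_fiberAlong_ord_eq_ord_norm (degenE e ha)
      (isIntegral_degenE e ha) (finiteAlong_degenE e ha) (jBar T) v f hf)
    (Fermat.Agent.Red.GFF.exists_ord_eq_one_fiberAlong (degenE e hα)
      (isIntegral_degenE e hα) (finiteAlong_degenE e hα))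
    (norm_comp (degenE e hα) (degenE ℓ hββ) (degenE e ha) (degenE ℓ hb) hcomm
      (finiteAlong_degenE e hα) (finiteAlong_degenE e ha) hdeg hgen)
    (hkc_inertiaDegAlong_eq_one (degenE e hα) (isIntegral_degenE e hα)
      (finiteAlong_degenE e hα) (jBar (M * q)))
    (hkc_inertiaDegAlong_eq_one (degenE e ha) (isIntegral_degenE e ha)
      (finiteAlong_degenE e ha) (jBar T))
  rw [corrE_apply, corrE_apply, hBC]
  -- towers
  have e1 : (degenE 1 hb1).comp (degenE e hα) = degenE e hMe := by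
    rw [degenE_comp e 1 hα hb1 (by rw [mul_one]; exact hMe)]
    exact degenE_congr (mul_one e) _ _
  have e2 : (degenE e ha).comp (degenE 1 hβ1) = degenE e hMe := by
    rw [degenE_comp 1 e hβ1 ha (by rw [one_mul]; exact hMe)]
    exact degenE_congr (one_mul e) _ _
  have hi1 : ((degenE 1 hb1).comp (degenE e hα)).toRingHom.IsIntegral := by
    rw [e1]; exact isIntegral_degenE e hMe
  have hi2 : ((degenE e ha).comp (degenE 1 hβ1)).toRingHom.IsIntegral := by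
    rw [e2]; exact isIntegral_degenE e hMe
  rw [← Fermat.Agent.Red.GFF.pushforwardAlong_comp (degenE e hα) (degenE 1 hb1)
      (isIntegral_degenE e hα) (isIntegral_degenE 1 hb1) hi1 (place_deg_FF (M * q))
      (place_deg_FF T),
    ← Fermat.Agent.Red.GFF.pushforwardAlong_comp (degenE 1 hβ1) (degenE e ha)
      (isIntegral_degenE 1 hβ1) (isIntegral_degenE e ha) hi2 (place_deg_FF (M * ℓ))
      (place_deg_FF T),
    hkc_pushforwardAlong_congr e1 hi1 (isIntegral_degenE e hMe),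
    hkc_pushforwardAlong_congr e2 hi2 (isIntegral_degenE e hMe)]

/-! ## the square of `δ_1` and `δ_ℓ` -/

/-- linear disjointness of the square of the inclusions and `δ_ℓ` (`SquareStatement`). -/
theorem h39k_squareA (M q ℓ T : ℕ) [NeZero M] [NeZero q] [NeZero ℓ] [NeZero T]
    (hq : q.Prime) (hℓ : ℓ.Prime) (hℓq : ℓ ≠ q) (hT : T = M * ℓ * q)
    (hα : M * 1 ∣ M * q) (ha : M * ℓ * 1 ∣ T) (hb : M * q * ℓ ∣ T) :
    finrankAlong Kbar (degenE 1 ha) = finrankAlong Kbar (degenE 1 hα) ∧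
      (degenE 1 ha).fieldRange ⊔ (degenE ℓ hb).fieldRange = ⊤ :=
  square gen h52deg_deg hk40_psi M (M * q) (M * ℓ) T ℓ q hℓ hq hℓq rfl rfl hT hα ha hb

/-! ## the square of `δ_q` and `δ_ℓ`, by Atkin–Lehner -/

theorem h39k_degen_alpha (M q ℓ : ℕ) [NeZero M] [NeZero q] [NeZero ℓ]
    (hb : M * q * ℓ ∣ M * ℓ * q) (y : FF M) :
    degenE ℓ hb (heckeAlphaBar Kbar M q y)
      = heckeAlphaBar Kbar (M * ℓ) q (heckeBetaBar Kbar M ℓ y) := by
  apply Subtype.ext
  rw [coe_degenE, coe_heckeAlphaBar, coe_heckeAlphaBar, coe_heckeBetaBar]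

theorem h39k_degen_beta (M q ℓ : ℕ) [NeZero M] [NeZero q] [NeZero ℓ]
    (hb : M * q * ℓ ∣ M * ℓ * q) (y : FF M) :
    degenE ℓ hb (heckeBetaBar Kbar M q y)
      = heckeBetaBar Kbar (M * ℓ) q (heckeBetaBar Kbar M ℓ y) := by
  apply Subtype.ext
  rw [coe_degenE, coe_heckeBetaBar, coe_heckeBetaBar, coe_heckeBetaBar, qExpand_qExpand,
    qExpand_qExpand]
  exact qExpand_congr (mul_comm ℓ q) _

/-- compatibility of the Atkin–Lehner involutions `w_q` of `F_{Mq}` and `F_{Mℓq}` with `δ_ℓ`. -/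
theorem h39k_fricke_compat (M q ℓ : ℕ) [NeZero M] [NeZero q] [NeZero ℓ] (hq : q.Prime)
    (hqM : ¬ q ∣ M) (hqMℓ : ¬ q ∣ M * ℓ) (hb : M * q * ℓ ∣ M * ℓ * q) (x : FF (M * q)) :
    kFricke (M * ℓ) q hq hqMℓ (degenE ℓ hb x) = degenE ℓ hb (kFricke M q hq hqM x) := by
  induction x using kFF_induction_ab M q hq with
  | hc a =>
    rw [show cst (M * q) a = algebraMap Kbar (FF (M * q)) a from rfl, AlgEquiv.commutes,
      AlgHom.commutes, AlgEquiv.commutes]
  | ha y =>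
    rw [h39k_degen_alpha, kFricke_alpha, kFricke_alpha, h39k_degen_beta]
  | hb y =>
    rw [h39k_degen_beta, kFricke_beta, kFricke_beta, h39k_degen_alpha]
  | hadd x y hx hy => rw [map_add, map_add, hx, hy, map_add, map_add]
  | hinv x hx => rw [map_inv₀, map_inv₀, hx, map_inv₀, map_inv₀]
  | hmul x y hx hy => rw [map_mul, map_mul, hx, hy, map_mul, map_mul]

theorem h39k_not_dvd (M q ℓ : ℕ) (hq : q.Prime) (hℓ : ℓ.Prime) (hℓq : ℓ ≠ q) (hqM : ¬ q ∣ M) :
    ¬ q ∣ M * ℓ := by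
  intro h
  rcases (Nat.Prime.dvd_mul hq).mp h with h | h
  · exact hqM h
  · exact hℓq ((Nat.prime_dvd_prime_iff_eq hq hℓ).mp h).symm

/-- `[F_{Nq} : δ_q(F_N)] = q + 1`. -/
theorem h39k_finrankAlong_degen (N q : ℕ) [NeZero N] [NeZero q] (hq : q.Prime) (hqN : ¬ q ∣ N)
    (h : N * q ∣ N * q) : finrankAlong Kbar (degenE q h) = q + 1 := by
  have h1 : finrankAlong Kbar (heckeBetaBar Kbar N q) = q + 1 :=
    finrank_heckeBetaBar N q hq hqN
  rw [heckeBetaBar_eq_degenE] at h1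
  exact h1

theorem h39k_fricke_degen_one (N q : ℕ) [NeZero N] [NeZero q] (hq : q.Prime) (hqN : ¬ q ∣ N)
    (h1 : N * 1 ∣ N * q) (hq' : N * q ∣ N * q) (u : FF N) :
    kFricke N q hq hqN (degenE 1 h1 u) = degenE q hq' u := by
  have h3 : (degenE 1 h1) u = heckeAlphaBar Kbar N q u := by
    rw [heckeAlphaBar_eq_degenE]
  have h4 : heckeBetaBar Kbar N q u = degenE q hq' u := by
    rw [heckeBetaBar_eq_degenE]
  rw [h3, kFricke_alpha, h4]

/-- generation in the square of `δ_q` and `δ_ℓ`. -/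
theorem h39k_genB (M q ℓ : ℕ) [NeZero M] [NeZero q] [NeZero ℓ]
    (hq : q.Prime) (hℓ : ℓ.Prime) (hℓq : ℓ ≠ q) (hqM : ¬ q ∣ M)
    (ha : M * ℓ * q ∣ M * ℓ * q) (hb : M * q * ℓ ∣ M * ℓ * q) (x : FF (M * ℓ * q)) :
    x ∈ (degenE q ha).fieldRange ⊔ (degenE ℓ hb).fieldRange := by
  have hqMℓ : ¬ q ∣ M * ℓ := h39k_not_dvd M q ℓ hq hℓ hℓq hqM
  have h1M : M * 1 ∣ M * q := by rw [mul_one]; exact dvd_mul_right _ _
  have h1T : M * ℓ * 1 ∣ M * ℓ * q := by rw [mul_one]; exact dvd_mul_right _ _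
  have hSQ := (h39k_squareA M q ℓ (M * ℓ * q) hq hℓ hℓq rfl h1M h1T hb).2
  -- the statement transported by the involution
  have hWA : (kFricke (M * ℓ) q hq hqMℓ : FF (M * ℓ * q) →ₐ[Kbar] FF (M * ℓ * q)).comp
      (degenE 1 h1T) = degenE q ha :=
    AlgHom.ext fun u => h39k_fricke_degen_one (M * ℓ) q hq hqMℓ h1T ha u
  have hWB : (kFricke (M * ℓ) q hq hqMℓ : FF (M * ℓ * q) →ₐ[Kbar] FF (M * ℓ * q)).comp
      (degenE ℓ hb) = (degenE ℓ hb).comp
        (kFricke M q hq hqM : FF (M * q) →ₐ[Kbar] FF (M * q)) :=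
    AlgHom.ext fun u => h39k_fricke_compat M q ℓ hq hqM hqMℓ hb u
  have hWB' : ((degenE ℓ hb).comp
      (kFricke M q hq hqM : FF (M * q) →ₐ[Kbar] FF (M * q))).fieldRange
        = (degenE ℓ hb).fieldRange := by
    apply le_antisymm
    · rintro _ ⟨u, rfl⟩
      exact ⟨kFricke M q hq hqM u, rfl⟩
    · rintro _ ⟨u, rfl⟩
      exact ⟨kFricke M q hq hqM u, congrArg (degenE ℓ hb) (kFricke_kFricke M q hq hqM u)⟩
  have hmap : ((degenE 1 h1T).fieldRange ⊔ (degenE ℓ hb).fieldRange).map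
      (kFricke (M * ℓ) q hq hqMℓ : FF (M * ℓ * q) →ₐ[Kbar] FF (M * ℓ * q))
        = (degenE q ha).fieldRange ⊔ (degenE ℓ hb).fieldRange := by
    rw [IntermediateField.map_sup, AlgHom.map_fieldRange, AlgHom.map_fieldRange, hWA, hWB, hWB']
  rw [← hmap, hSQ]
  exact ⟨kFricke (M * ℓ) q hq hqMℓ x, trivial, kFricke_kFricke (M * ℓ) q hq hqMℓ x⟩

/-- linear disjointness of the square of `δ_q` and `δ_ℓ`. -/
theorem h39k_squareB (M q ℓ T : ℕ) [NeZero M] [NeZero q] [NeZero ℓ] [NeZero T]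
    (hq : q.Prime) (hℓ : ℓ.Prime) (hℓq : ℓ ≠ q) (hqM : ¬ q ∣ M) (hT : T = M * ℓ * q)
    (hα : M * q ∣ M * q) (ha : M * ℓ * q ∣ T) (hb : M * q * ℓ ∣ T) :
    finrankAlong Kbar (degenE q ha) = finrankAlong Kbar (degenE q hα) ∧
      (degenE q ha).fieldRange ⊔ (degenE ℓ hb).fieldRange = ⊤ := by
  subst hT
  refine ⟨?_, eq_top_iff.mpr fun x _ => h39k_genB M q ℓ hq hℓ hℓq hqM ha hb x⟩
  rw [h39k_finrankAlong_degen (M * ℓ) q hq (h39k_not_dvd M q ℓ hq hℓ hℓq hqM),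
    h39k_finrankAlong_degen M q hq hqM]

/-! ## the Hecke correspondence commutes with the pushforwards, on divisors -/

/-- `(δ_e)_* ∘ T_ℓ = T_ℓ ∘ (δ_e)_*` on divisors, in terms of `heckeDivBar`. -/
theorem h39k_push_heckeDiv (M q ℓ : ℕ) [NeZero M] [NeZero q] [NeZero ℓ] (e : ℕ) [NeZero e]
    (hα : M * e ∣ M * q) (ha : M * ℓ * e ∣ M * q * ℓ)
    (hSQ : ∀ hb : M * q * ℓ ∣ M * q * ℓ,
      finrankAlong Kbar (degenE e ha) = finrankAlong Kbar (degenE e hα) ∧
        (degenE e ha).fieldRange ⊔ (degenE ℓ hb).fieldRange = ⊤)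
    (hi : (degenE e hα).toRingHom.IsIntegral)
    (D : Divisor Kbar (FF (M * q))) :
    Divisor.pushforwardAlong (degenE e hα) hi
        (heckeDivBar (heckeAlphaBarIntegral (M * q) ℓ) (heckeBetaBarIntegral (M * q) ℓ) D)
      = heckeDivBar (heckeAlphaBarIntegral M ℓ) (heckeBetaBarIntegral M ℓ)
          (Divisor.pushforwardAlong (degenE e hα) hi D) := by
  rw [heckeDivBar_eq_corrE (M * q) ℓ, heckeDivBar_eq_corrE M ℓ]
  exact h39k_push_corr M q ℓ (M * q * ℓ) e hα _ _ ha _ _ (hSQ (dvd_refl _)).1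
    (hSQ (dvd_refl _)).2 D

/-! ## the theorem -/

theorem h39k_pushA_mk (M q : ℕ) [NeZero M] [NeZero q]
    (D : Divisor.degZero (K := Kbar) (F := FF (M * q))) :
    pushA M q (Pic0.mk D)
      = Pic0.mk (hkPushDegZero (heckeAlphaBar Kbar M q) (heckeAlphaBarIntegral M q) D) :=
  rfl

theorem h39k_pushB_mk (M q : ℕ) [NeZero M] [NeZero q]
    (D : Divisor.degZero (K := Kbar) (F := FF (M * q))) :
    pushB M q (Pic0.mk D)
      = Pic0.mk (hkPushDegZero (heckeBetaBar Kbar M q) (heckeBetaBarIntegral M q) D) :=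
  rfl

/-- **HK-EQUIV.**  The pushforwards `α_*`, `β_* : J₀(M q) → J₀(M)` commute with the Hecke
operators `T_ℓ`, `ℓ ∤ M q`. -/
theorem pushHecke : PushHecke := by
  intro M q _ _ hq hqM ℓ hℓ x
  haveI : NeZero (ℓ : ℕ) := ⟨ℓ.2.ne_zero⟩
  have hℓq : (ℓ : ℕ) ≠ q := fun h => hℓ (by rw [h]; exact dvd_mul_left _ _)
  have hT : M * q * (ℓ : ℕ) = M * (ℓ : ℕ) * q := by ring
  have h1 : M * 1 ∣ M * q := by rw [mul_one]; exact dvd_mul_right _ _
  have ha1 : M * (ℓ : ℕ) * 1 ∣ M * q * (ℓ : ℕ) := by rw [mul_one, hT]; exact dvd_mul_right _ _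
  have haq : M * (ℓ : ℕ) * q ∣ M * q * (ℓ : ℕ) := dvd_of_eq hT.symm
  obtain ⟨D, rfl⟩ := Pic0.mk_surjective x
  constructor
  · rw [heckeOperatorBar_mk (M * q) ℓ D, h39k_pushA_mk, h39k_pushA_mk, heckeOperatorBar_mk M ℓ]
    congr 1
    apply Subtype.ext
    have key := h39k_push_heckeDiv M q (ℓ : ℕ) 1 h1 ha1
      (fun hb => h39k_squareA M q ℓ (M * q * ℓ) hq ℓ.2 hℓq hT h1 ha1 hb)
      (isIntegral_degenE 1 h1) D.1
    rw [hkc_pushforwardAlong_congr (heckeAlphaBar_eq_degenE M q).symm (isIntegral_degenE 1 h1)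
      (heckeAlphaBarIntegral M q)] at key
    exact key
  · rw [heckeOperatorBar_mk (M * q) ℓ D, h39k_pushB_mk, h39k_pushB_mk, heckeOperatorBar_mk M ℓ]
    congr 1
    apply Subtype.ext
    have key := h39k_push_heckeDiv M q (ℓ : ℕ) q (dvd_refl _) haq
      (fun hb => h39k_squareB M q ℓ (M * q * ℓ) hq ℓ.2 hℓq hqM hT (dvd_refl _) haq hb)
      (isIntegral_degenE q (dvd_refl _)) D.1
    rw [hkc_pushforwardAlong_congr (heckeBetaBar_eq_degenE M q).symm
      (isIntegral_degenE q (dvd_refl _)) (heckeBetaBarIntegral M q)] at key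
    exact key

end Fermat.Agent.S35
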