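import Fermat.Agent.S35.HK.Equiv39

/-!
# S35 / S36, HECKE side: the pushforwards commute with the Hecke operators, at ALL levels

`h39g_pushHeckeGen` : for every `M`, every prime `q` (no hypothesis `q ∤ M`) and every prime
`ℓ ∤ M q`, the pushforwards `α_*`, `β_* : J₀(M q) → J₀(M)` commute with `T_ℓ`.

This is `PushHecke` (`S35/HeckeSkeleton.lean`, proved in `S35/HK/Equiv39.lean` for `q ∤ M`)
without the hypothesis `q ∤ M`; it is what the Hecke side needs at the levels `q² ∣ M q`.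

Proof of the new case (`β`, i.e. `δ_q`): the square of `δ_q` and `δ_ℓ` is transported to the
modular square of HK-COMM (`SquareStatement` with the primes `(q, ℓ)`, inclusion of `F_{Mq}` and
`δ_q` of `F_{Mℓ}`) by the Atkin–Lehner involution `w_ℓ` of `F_{Mqℓ}` (`ℓ ∤ M q`), which restricts
to `w_ℓ` of `F_{Mℓ}` along `δ_q`; the degrees agree by the tower law.
-/

set_option autoImplicit false
set_option linter.style.haveILetI false
set_option linter.unusedSectionVars false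

open AlgebraicCurve ModularCurve IntermediateField

noncomputable section

namespace Fermat.Agent.S35

open Fermat.Agent.S24 (Kbar FF jBar jdBar cst)
open Fermat.Agent.Red.HKMod
open Fermat.Agent.Red.HKComm
open Fermat.Agent.Red.Kron

/-- principal divisors of `F_M` (local instance). -/
local instance h39g_instPD (M : ℕ) [NeZero M] : HasPrincipalDivisors Kbar (FF M) :=
  hasPrincipalDivisors_FF M

/-- `F_M` is finite over `K(j)` (local instance). -/
local instance h39g_instFD (M : ℕ) [NeZero M] : FiniteDimensional Kbar⟮jBar M⟯ (FF M) :=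
  finiteDimensional_jBar M

/-! ## generation -/

/-- generation in the square of `δ_q` and `δ_ℓ`, for `ℓ ∤ M` (no hypothesis on `q` and `M`). -/
theorem h39g_genB (M q ℓ : ℕ) [NeZero M] [NeZero q] [NeZero ℓ]
    (hq : q.Prime) (hℓ : ℓ.Prime) (hℓq : ℓ ≠ q) (hℓM : ¬ ℓ ∣ M)
    (ha : M * ℓ * q ∣ M * q * ℓ) (hb : M * q * ℓ ∣ M * q * ℓ) (x : FF (M * q * ℓ)) :
    x ∈ (degenE q ha).fieldRange ⊔ (degenE ℓ hb).fieldRange := by
  have hℓMq : ¬ ℓ ∣ M * q := h39k_not_dvd M ℓ q hℓ hq hℓq.symm hℓM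
  have h1M : M * 1 ∣ M * ℓ := by rw [mul_one]; exact dvd_mul_right _ _
  have h1T : M * q * 1 ∣ M * q * ℓ := by rw [mul_one]; exact dvd_mul_right _ _
  have hSQ := (h39k_squareA M ℓ q (M * q * ℓ) hℓ hq hℓq.symm rfl h1M h1T ha).2
  have hWb : (kFricke (M * q) ℓ hℓ hℓMq : FF (M * q * ℓ) →ₐ[Kbar] FF (M * q * ℓ)).comp
      (degenE ℓ hb) = degenE 1 h1T := by
    refine AlgHom.ext fun u => ?_
    have h3 : (degenE ℓ hb) u = heckeBetaBar Kbar (M * q) ℓ u := by
      rw [heckeBetaBar_eq_degenE]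
    have h4 : heckeAlphaBar Kbar (M * q) ℓ u = degenE 1 h1T u := by
      rw [heckeAlphaBar_eq_degenE]
    show kFricke (M * q) ℓ hℓ hℓMq ((degenE ℓ hb) u) = _
    rw [h3, kFricke_beta, h4]
  have hWa : (kFricke (M * q) ℓ hℓ hℓMq : FF (M * q * ℓ) →ₐ[Kbar] FF (M * q * ℓ)).comp
      (degenE q ha) = (degenE q ha).comp
        (kFricke M ℓ hℓ hℓM : FF (M * ℓ) →ₐ[Kbar] FF (M * ℓ)) :=
    AlgHom.ext fun u => h39k_fricke_compat M ℓ q hℓ hℓM hℓMq ha u
  have hWa' : ((degenE q ha).comp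
      (kFricke M ℓ hℓ hℓM : FF (M * ℓ) →ₐ[Kbar] FF (M * ℓ))).fieldRange
        = (degenE q ha).fieldRange := by
    apply le_antisymm
    · rintro _ ⟨u, rfl⟩
      exact ⟨kFricke M ℓ hℓ hℓM u, rfl⟩
    · rintro _ ⟨u, rfl⟩
      exact ⟨kFricke M ℓ hℓ hℓM u, congrArg (degenE q ha) (kFricke_kFricke M ℓ hℓ hℓM u)⟩
  have hmap : ((degenE q ha).fieldRange ⊔ (degenE ℓ hb).fieldRange).map
      (kFricke (M * q) ℓ hℓ hℓMq : FF (M * q * ℓ) →ₐ[Kbar] FF (M * q * ℓ))
        = (degenE 1 h1T).fieldRange ⊔ (degenE q ha).fieldRange := by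
    rw [IntermediateField.map_sup, AlgHom.map_fieldRange, AlgHom.map_fieldRange, hWa, hWa', hWb,
      sup_comm]
  have hx : kFricke (M * q) ℓ hℓ hℓMq x ∈
      ((degenE q ha).fieldRange ⊔ (degenE ℓ hb).fieldRange).map
        (kFricke (M * q) ℓ hℓ hℓMq : FF (M * q * ℓ) →ₐ[Kbar] FF (M * q * ℓ)) := by
    rw [hmap, hSQ]
    trivial
  obtain ⟨y, hy, hyx⟩ := hx
  have : y = x := (kFricke (M * q) ℓ hℓ hℓMq).injective hyx
  rw [← this]
  exact hy

/-! ## degrees -/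

/-- the degree along `δ_q : F_{Mℓ} → F_{Mqℓ}` is the degree along `δ_q : F_M → F_{Mq}`. -/
theorem h39g_degB (M q ℓ : ℕ) [NeZero M] [NeZero q] [NeZero ℓ]
    (hq : q.Prime) (hℓ : ℓ.Prime) (hℓq : ℓ ≠ q)
    (hα : M * q ∣ M * q) (ha : M * ℓ * q ∣ M * q * ℓ) :
    finrankAlong Kbar (degenE q ha) = finrankAlong Kbar (degenE q hα) := by
  have h1M : M * 1 ∣ M * ℓ := by rw [mul_one]; exact dvd_mul_right _ _
  have h1T : M * q * 1 ∣ M * q * ℓ := by rw [mul_one]; exact dvd_mul_right _ _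
  have hSQ := (h39k_squareA M ℓ q (M * q * ℓ) hℓ hq hℓq.symm rfl h1M h1T ha).1
  -- the two towers
  have t1 := h52deg_finrank_tower (degenE 1 h1M) (jBar M)
  have t2 := h52deg_finrank_tower (degenE q ha) (degenE 1 h1M (jBar M))
  have t3 := h52deg_finrank_tower (degenE q hα) (jBar M)
  have t4 := h52deg_finrank_tower (degenE 1 h1T) (degenE q hα (jBar M))
  have hxy : degenE q ha (degenE 1 h1M (jBar M)) = degenE 1 h1T (degenE q hα (jBar M)) := by
    apply Subtype.ext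
    rw [coe_degenE, coe_degenE, coe_degenE, coe_degenE, qExpand_one_apply, qExpand_one_apply]
  rw [hxy, t4, t3] at t2
  rw [t1, hSQ] at t2
  have hn : 0 < Module.finrank Kbar⟮jBar M⟯ (FF M) := Module.finrank_pos
  have hd : 0 < finrankAlong Kbar (degenE 1 h1M) := by
    letI := algebraAlong (degenE 1 h1M)
    haveI : Module.Finite (FF M) (FF (M * ℓ)) := finiteAlong_degenE 1 h1M
    exact Module.finrank_pos
  have h5 : Module.finrank Kbar⟮jBar M⟯ (FF M) * finrankAlong Kbar (degenE 1 h1M)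
      * finrankAlong Kbar (degenE q hα)
      = Module.finrank Kbar⟮jBar M⟯ (FF M) * finrankAlong Kbar (degenE 1 h1M)
        * finrankAlong Kbar (degenE q ha) := by
    rw [← t2]; ring
  exact (Nat.eq_of_mul_eq_mul_left (Nat.mul_pos hn hd) h5).symm

/-- linear disjointness of the square of `δ_q` and `δ_ℓ`, for `ℓ ∤ M`. -/
theorem h39g_squareB (M q ℓ : ℕ) [NeZero M] [NeZero q] [NeZero ℓ]
    (hq : q.Prime) (hℓ : ℓ.Prime) (hℓq : ℓ ≠ q) (hℓM : ¬ ℓ ∣ M)
    (hα : M * q ∣ M * q) (ha : M * ℓ * q ∣ M * q * ℓ) (hb : M * q * ℓ ∣ M * q * ℓ) :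
    finrankAlong Kbar (degenE q ha) = finrankAlong Kbar (degenE q hα) ∧
      (degenE q ha).fieldRange ⊔ (degenE ℓ hb).fieldRange = ⊤ :=
  ⟨h39g_degB M q ℓ hq hℓ hℓq hα ha,
    eq_top_iff.mpr fun x _ => h39g_genB M q ℓ hq hℓ hℓq hℓM ha hb x⟩

/-! ## the theorem -/

/-- **The pushforwards commute with the Hecke operators**, at all levels: for every `M`, every
prime `q` and every prime `ℓ ∤ M q`. -/
theorem h39g_pushHeckeGen (M q : ℕ) [NeZero M] [NeZero q] (hq : q.Prime) (ℓ : Nat.Primes)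
    (hℓ : ¬ (ℓ : ℕ) ∣ M * q) (x : JZero (M * q)) :
    pushA M q (heckeOperatorBar (M * q) ℓ x) = heckeOperatorBar M ℓ (pushA M q x) ∧
      pushB M q (heckeOperatorBar (M * q) ℓ x) = heckeOperatorBar M ℓ (pushB M q x) := by
  haveI : NeZero (ℓ : ℕ) := ⟨ℓ.2.ne_zero⟩
  have hℓq : (ℓ : ℕ) ≠ q := fun h => hℓ (by rw [h]; exact dvd_mul_left _ _)
  have hℓM : ¬ (ℓ : ℕ) ∣ M := fun h => hℓ (h.trans (dvd_mul_right _ _))
  have hT : M * q * (ℓ : ℕ) = M * (ℓ : ℕ) * q := by ring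
  have h1 : M * 1 ∣ M * q := by rw [mul_one]; exact dvd_mul_right _ _
  have ha1 : M * (ℓ : ℕ) * 1 ∣ M * q * (ℓ : ℕ) := by rw [mul_one, hT]; exact dvd_mul_right _ _
  have haq : M * (ℓ : ℕ) * q ∣ M * q * (ℓ : ℕ) := dvd_of_eq hT.symm
  obtain ⟨D, rfl⟩ := Pic0.mk_surjective x
  constructor
  · rw [heckeOperatorBar_mk (M * q) ℓ D, h39k_pushA_mk, h39k_pushA_mk, heckeOperatorBar_mk M ℓ]
    congr 1
    apply Subtype.ext
    have key := h39k_push_heckeDiv M q (ℓ : ℕ) 1 h1 ha1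
      (fun hb => h39k_squareA M q ℓ (M * q * ℓ) hq ℓ.2 hℓq hT h1 ha1 hb)
      (isIntegral_degenE 1 h1) D.1
    rw [hkc_pushforwardAlong_congr (heckeAlphaBar_eq_degenE M q).symm (isIntegral_degenE 1 h1)
      (heckeAlphaBarIntegral M q)] at key
    exact key
  · rw [heckeOperatorBar_mk (M * q) ℓ D, h39k_pushB_mk, h39k_pushB_mk, heckeOperatorBar_mk M ℓ]
    congr 1
    apply Subtype.ext
    have key := h39k_push_heckeDiv M q (ℓ : ℕ) q (dvd_refl _) haq
      (fun hb => h39g_squareB M q ℓ hq ℓ.2 hℓq hℓM (dvd_refl _) haq hb)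
      (isIntegral_degenE q (dvd_refl _)) D.1
    rw [hkc_pushforwardAlong_congr (heckeBetaBar_eq_degenE M q).symm
      (isIntegral_degenE q (dvd_refl _)) (heckeBetaBarIntegral M q)] at key
    exact key

end Fermat.Agent.S35
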