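import Fermat.Agent.S35.HeckeSkeleton
import Fermat.Agent.S30.Inputs
import Fermat.Agent.S30.KeyOfInt
import Fermat.Agent.S30.Tate
import Fermat.Agent.S30.CycCharAdic
import Fermat.Agent.S31.TatePackage
import Fermat.Agent.S31.IntOfLattice
import Fermat.Agent.Cheb.WeakChebotarev
import Fermat.Agent.S54.Frobenius

/-!
# S35, block HECKE, leaf HK-F1 (second seat helper22): `SIndep`

Two normalised eigenforms `g`, `g'` of levels `N`, `N' ∣ N` whose eigenvalues agree at the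
primes outside a finite set `S` have the same eigenvalue at every prime `ℓ₀ ∤ N`.

Proof (Galois representations inside the Tate modules, no `S30`): fix a prime `p ≠ ℓ₀` and a
Frobenius element `σ₀` at `ℓ₀`.  On the `p`-adic Tate module of `J₀(N)` one has
`T_{ℓ₀} = ρ(σ₀) + ℓ₀ ρ(σ₀)⁻¹` (Eichler–Shimura).  By weak Chebotarev `σ₀` is, modulo `p ^ n`
and simultaneously on the Tate modules of `J₀(N)` and `J₀(N')`, a power `f ^ k` of a Frobenius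
element at a prime `ℓ ∉ S`, hence `T_{ℓ₀} - Q_n(T_ℓ)` is divisible by `p ^ n` on both Tate
modules (`Q_n` the `k`-th trace polynomial).  The Hecke key lemma (`HeckeKeyModP`) turns this
into `a_{ℓ₀}(g) - Q_n(a_ℓ(g)) ∈ p ^ n ℤ̄`, likewise for `g'`; as `a_ℓ(g) = a_ℓ(g')` the
difference `a_{ℓ₀}(g) - a_{ℓ₀}(g')` is divisible by every power of `p`, hence zero.

* `h22f1_eq_zero_of_forall_dvd` : a complex number divisible by all powers of `p` in `ℤ̄` is `0`;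
* `h22f1_level` : the one-level statement;
* `h22f1_sIndep : SIndep`.
-/

set_option autoImplicit false
set_option linter.style.haveILetI false

open Polynomial

noncomputable section

namespace Fermat.Agent.S35

open Fermat.Agent.S29 (GQ WeakChebotarev HeckeGaloisCommute EichlerShimuraTorsion
  TorsionFiniteLevel HeckeKeyModP)
open Fermat.Agent.S30 (heckeTAll TateStatement acTrace)
open Fermat.Agent.S31 (HeckeKeyLattice TI_Small TI_approx_M TI_acTrace_mem TI_map_acTrace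
  TI_mem_span_smul_iff)

/-! ## Algebraic integers divisible by all powers of `p` -/

/-- An integer divisible by all powers of a prime is zero. -/
theorem h22f1_int_eq_zero {p : ℕ} (hp : p.Prime) (c : ℤ) (h : ∀ n : ℕ, ((p : ℤ) ^ n) ∣ c) :
    c = 0 := by
  refine Int.eq_zero_of_abs_lt_dvd (h c.natAbs) ?_
  have h1 : c.natAbs < p ^ c.natAbs := Nat.lt_pow_self hp.one_lt
  have h2 : (|c| : ℤ) = (c.natAbs : ℤ) := (Int.natCast_natAbs c).symm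
  rw [h2]
  exact_mod_cast h1

/-- A complex number which is `p ^ n` times an algebraic integer for every `n` is zero. -/
theorem h22f1_eq_zero_of_forall_dvd {p : ℕ} (hp : p.Prime) (x : ℂ)
    (h : ∀ n : ℕ, ∃ b : ℂ, IsIntegral ℤ b ∧ x = (p : ℂ) ^ n * b) : x = 0 := by
  by_contra hx0
  have hx : IsIntegral ℤ x := by
    obtain ⟨b, hb, hxb⟩ := h 0
    rw [pow_zero, one_mul] at hxb
    rw [hxb]
    exact hb
  have hc0 : (minpoly ℤ x).coeff 0 ≠ 0 := by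
    intro h0
    have h1 : minpoly ℚ x = (minpoly ℤ x).map (algebraMap ℤ ℚ) :=
      minpoly.isIntegrallyClosed_eq_field_fractions' ℚ hx
    have h2 : (minpoly ℚ x).coeff 0 ≠ 0 := minpoly.coeff_zero_ne_zero hx.tower_top hx0
    apply h2
    rw [h1, Polynomial.coeff_map, h0, map_zero]
  apply hc0
  refine h22f1_int_eq_zero hp _ fun n => ?_
  obtain ⟨b, hb, hxb⟩ := h n
  -- `0 = x * s + c₀` with `s` integral
  set f : ℤ[X] := minpoly ℤ x with hf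
  set s : ℂ := Polynomial.aeval x f.divX with hs
  have hsint : IsIntegral ℤ s := by
    have h1 : s ∈ Algebra.adjoin ℤ ({x} : Set ℂ) := Polynomial.aeval_mem_adjoin_singleton ℤ x
    have h2 : Algebra.adjoin ℤ ({x} : Set ℂ) ≤ integralClosure ℤ ℂ := by
      rw [Algebra.adjoin_le_iff]
      intro y hy
      rw [Set.mem_singleton_iff] at hy
      rw [hy]
      exact hx
    exact h2 h1
  have hrel : s * x + ((f.coeff 0 : ℤ) : ℂ) = 0 := by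
    have h1 : Polynomial.aeval x f = 0 := minpoly.aeval ℤ x
    have h2 : f = f.divX * X + C (f.coeff 0) := (Polynomial.divX_mul_X_add f).symm
    rw [h2, map_add, map_mul, Polynomial.aeval_X, Polynomial.aeval_C] at h1
    have h3 : algebraMap ℤ ℂ (f.coeff 0) = ((f.coeff 0 : ℤ) : ℂ) := by simp
    rw [h3] at h1
    exact h1
  -- hence `c₀ = p ^ n * (-(s * b))`
  have hpn : ((p : ℂ) ^ n) ≠ 0 := pow_ne_zero _ (Nat.cast_ne_zero.mpr hp.ne_zero)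
  have hc : ((f.coeff 0 : ℤ) : ℂ) = (p : ℂ) ^ n * (-(s * b)) := by
    have h1 : ((f.coeff 0 : ℤ) : ℂ) = -(s * x) := eq_neg_of_add_eq_zero_right hrel
    rw [h1, hxb]
    ring
  have hint : IsIntegral ℤ (-(s * b)) := (hsint.mul hb).neg
  -- the rational number `c₀ / p ^ n` is integral, hence an integer
  have hq : IsIntegral ℤ (((f.coeff 0 : ℤ) : ℚ) / (p : ℚ) ^ n) := by
    have h1 : algebraMap ℚ ℂ (((f.coeff 0 : ℤ) : ℚ) / (p : ℚ) ^ n) = -(s * b) := by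
      rw [map_div₀, map_pow, map_intCast, map_natCast, hc, mul_div_cancel_left₀ _ hpn]
    rw [← isIntegral_algebraMap_iff (algebraMap ℚ ℂ).injective, h1]
    exact hint
  obtain ⟨z, hz⟩ := IsIntegrallyClosed.isIntegral_iff.mp hq
  refine ⟨z, ?_⟩
  have hpn' : ((p : ℚ) ^ n) ≠ 0 := pow_ne_zero _ (Nat.cast_ne_zero.mpr hp.ne_zero)
  have h2 : ((f.coeff 0 : ℤ) : ℚ) = (((p : ℤ) ^ n * z : ℤ) : ℚ) := by
    have h3 : ((z : ℤ) : ℚ) = ((f.coeff 0 : ℤ) : ℚ) / (p : ℚ) ^ n := by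
      rw [← hz]
      simp
    push_cast
    rw [h3, mul_div_cancel₀ _ hpn']
  exact_mod_cast h2

/-! ## The trace polynomials -/

/-- The `k`-th trace polynomial `Q_k(T_ℓ, ℓ)`. -/
def h22f1_Q (ℓ : Nat.Primes) (k : ℕ) : MvPolynomial Nat.Primes ℤ :=
  acTrace (MvPolynomial.X ℓ) (MvPolynomial.C ((ℓ : ℕ) : ℤ)) k

/-- `P = X_{ℓ₀} - Q_k(X_ℓ, ℓ)`. -/
def h22f1_P (ℓ₀ ℓ : Nat.Primes) (k : ℕ) : MvPolynomial Nat.Primes ℤ :=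
  MvPolynomial.X ℓ₀ - h22f1_Q ℓ k

theorem h22f1_P_mem (ℓ₀ ℓ : Nat.Primes) (k : ℕ) :
    h22f1_P ℓ₀ ℓ k ∈ MvPolynomial.supported ℤ ({ℓ₀, ℓ} : Set Nat.Primes) := by
  unfold h22f1_P h22f1_Q
  refine Subalgebra.sub_mem _ ?_ ?_
  · exact MvPolynomial.X_mem_supported.mpr (Set.mem_insert _ _)
  · refine TI_acTrace_mem _ ?_ (Subalgebra.algebraMap_mem _ _) k
    exact MvPolynomial.X_mem_supported.mpr (Set.mem_insert_of_mem _ (Set.mem_singleton _))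

theorem h22f1_aeval_Q (φ : Nat.Primes → ℂ) (ℓ : Nat.Primes) (k : ℕ) :
    MvPolynomial.aeval (R := ℤ) φ (h22f1_Q ℓ k) = acTrace (φ ℓ) ((ℓ : ℕ) : ℂ) k := by
  unfold h22f1_Q
  have h1 := TI_map_acTrace
    ((MvPolynomial.aeval (R := ℤ) φ : MvPolynomial Nat.Primes ℤ →ₐ[ℤ] ℂ) :
      MvPolynomial Nat.Primes ℤ →+* ℂ)
    (MvPolynomial.X ℓ) (MvPolynomial.C ((ℓ : ℕ) : ℤ)) k
  have h2 : ((MvPolynomial.aeval (R := ℤ) φ : MvPolynomial Nat.Primes ℤ →ₐ[ℤ] ℂ) :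
      MvPolynomial Nat.Primes ℤ →+* ℂ) (MvPolynomial.X ℓ) = φ ℓ :=
    MvPolynomial.aeval_X _ _
  have h3 : ((MvPolynomial.aeval (R := ℤ) φ : MvPolynomial Nat.Primes ℤ →ₐ[ℤ] ℂ) :
      MvPolynomial Nat.Primes ℤ →+* ℂ) (MvPolynomial.C ((ℓ : ℕ) : ℤ)) = ((ℓ : ℕ) : ℂ) := by
    have := MvPolynomial.aeval_C (R := ℤ) φ ((ℓ : ℕ) : ℤ)
    simp
  rw [h2, h3] at h1
  exact h1

theorem h22f1_aeval_P (φ : Nat.Primes → ℂ) (ℓ₀ ℓ : Nat.Primes) (k : ℕ) :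
    MvPolynomial.aeval (R := ℤ) φ (h22f1_P ℓ₀ ℓ k)
      = φ ℓ₀ - acTrace (φ ℓ) ((ℓ : ℕ) : ℂ) k := by
  unfold h22f1_P
  rw [map_sub, MvPolynomial.aeval_X, h22f1_aeval_Q]

theorem h22f1_vars (N p : ℕ) (ℓ₀ ℓ : Nat.Primes) (h₀ : ¬ (ℓ₀ : ℕ) ∣ N * p)
    (h : ¬ (ℓ : ℕ) ∣ N * p) (k m j : ℕ) :
    ∀ ℓ' ∈ (MvPolynomial.C ((p : ℤ) ^ m) * h22f1_P ℓ₀ ℓ k).vars,
      ¬ ((ℓ' : Nat.Primes) : ℕ) ∣ N * p ^ j := by
  classical
  intro ℓ' hℓ'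
  have h1 : ℓ' ∈ (h22f1_P ℓ₀ ℓ k).vars := by
    have := MvPolynomial.vars_mul _ _ hℓ'
    rw [MvPolynomial.vars_C, Finset.empty_union] at this
    exact this
  have h2 : ℓ' ∈ ({ℓ₀, ℓ} : Set Nat.Primes) :=
    (MvPolynomial.mem_supported.mp (h22f1_P_mem ℓ₀ ℓ k)) (Finset.mem_coe.mpr h1)
  have h3 : ¬ ((ℓ' : Nat.Primes) : ℕ) ∣ N * p := by
    rcases h2 with h' | h'
    · rw [h']
      exact h₀
    · have h'' : ℓ' = ℓ := Set.eq_of_mem_singleton h'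
      rw [h'']
      exact h
  intro hdvd
  apply h3
  rcases (Nat.Prime.dvd_mul ℓ'.2).mp hdvd with h' | h'
  · exact Dvd.dvd.mul_right h' p
  · exact Dvd.dvd.mul_left (ℓ'.2.dvd_of_dvd_pow h') N

theorem h22f1_aeval_CP (φ : Nat.Primes → ℂ) (ℓ₀ ℓ : Nat.Primes) (k : ℕ) (c : ℤ) :
    MvPolynomial.aeval (R := ℤ) φ (MvPolynomial.C c * h22f1_P ℓ₀ ℓ k)
      = algebraMap ℤ ℂ c * (φ ℓ₀ - acTrace (φ ℓ) ((ℓ : ℕ) : ℂ) k) := by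
  rw [map_mul, MvPolynomial.aeval_C, h22f1_aeval_P]

/-- cancellation of `p ^ m`. -/
theorem h22f1_cancel {p : ℕ} (hp : p.Prime) (n m : ℕ) (a b : ℂ)
    (h : algebraMap ℤ ℂ ((p : ℤ) ^ m) * a = ((p ^ (n + m) : ℕ) : ℂ) * b) :
    a = (p : ℂ) ^ n * b := by
  have hpm : ((p : ℂ) ^ m) ≠ 0 := pow_ne_zero _ (Nat.cast_ne_zero.mpr hp.ne_zero)
  have e2 : (algebraMap ℤ ℂ ((p : ℤ) ^ m)) = (p : ℂ) ^ m := by simp
  have e3 : (((p ^ (n + m) : ℕ) : ℂ)) = (p : ℂ) ^ m * (p : ℂ) ^ n := by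
    push_cast
    rw [pow_add, mul_comm]
  rw [e2, e3, mul_assoc] at h
  exact mul_left_cancel₀ hpm h

/-! ## The one-level statement -/

/-- **One level.**  For a Frobenius element `σ₀` at `ℓ₀ ∤ N p` and every `n` there is a number
field `L` such that: whenever `σ₀` acts on `L` as the `k`-th power of a Frobenius element at a
prime `ℓ ∤ N p`, every normalised eigenform `g` of level `N` satisfies
`a_{ℓ₀}(g) - Q_k(a_ℓ(g), ℓ) ∈ p ^ n ℤ̄`. -/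
theorem h22f1_level (N p : ℕ) [NeZero N] [Fact p.Prime] (ℓ₀ : ℕ) (hℓ₀ : ℓ₀.Prime)
    (hℓ₀N : ¬ ℓ₀ ∣ N * p)
    (A₀ : ValuationSubring (AlgebraicClosure ℚ)) (hA₀ : A₀.LiesOverPrime ℓ₀) (σ₀ : GQ)
    (hσ₀ : A₀.IsFrobeniusAt σ₀ ℓ₀) (n : ℕ) :
    ∃ L : IntermediateField ℚ (AlgebraicClosure ℚ), FiniteDimensional ℚ L ∧
      ∀ (ℓ : ℕ), ℓ.Prime → ¬ ℓ ∣ N * p →
      ∀ A : ValuationSubring (AlgebraicClosure ℚ), A.LiesOverPrime ℓ →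
      ∀ f : GQ, A.IsFrobeniusAt f ℓ → ∀ k : ℕ, (∀ x ∈ L, σ₀ x = (f ^ k) x) →
      ∀ g : CuspForm (CongruenceSubgroup.Gamma0 N) 2, g.IsNormalizedEigenform →
        ∃ b : ℂ, IsIntegral ℤ b ∧
          ModularFormClass.qCoeff g ℓ₀ - acTrace (ModularFormClass.qCoeff g ℓ) ((ℓ : ℕ) : ℂ) k
            = (p : ℂ) ^ n * b := by
  have hp : p.Prime := Fact.out
  have hGI := Fermat.Agent.S30.geometricInputsFull
  have hHGC : HeckeGaloisCommute N := hGI.1 N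
  have hES : EichlerShimuraTorsion N p := hGI.2.1 N p hp
  have hTFL : ∀ k : ℕ, TorsionFiniteLevel N (p ^ k) :=
    fun k => hGI.2.2.1 N (p ^ k) (pow_pos hp.pos k)
  have hKL : HeckeKeyLattice N := hGI.2.2.2 N
  obtain ⟨M, iM1, iM2, iM3, iM4, ρ, Θ, hcomm, hcont, hunr, hESrel, hlink⟩ :=
    Fermat.Agent.S31.tatePackage N p Fermat.Agent.S30.tate hHGC hES hTFL
  have hmaxZ : IsLocalRing.maximalIdeal ℤ_[p] = Ideal.span {(p : ℤ_[p])} :=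
    PadicInt.maximalIdeal_eq_span_p
  have hpZ : (p : ℤ_[p]) ∈ IsLocalRing.maximalIdeal ℤ_[p] := by
    rw [hmaxZ]
    exact Ideal.mem_span_singleton_self _
  obtain ⟨d, hdcont, hdin, hdfrob, -⟩ := Fermat.Agent.S30.cycCharAdic p hp ℤ_[p] hpZ
  obtain ⟨L₁, hL₁, h₁⟩ := hcont n
  obtain ⟨L₂, hL₂, h₂⟩ := hdcont n
  have hfd : FiniteDimensional ℚ ↥(L₁ ⊔ L₂) := IntermediateField.finiteDimensional_sup L₁ L₂
  refine ⟨L₁ ⊔ L₂, hfd, ?_⟩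
  intro ℓ hℓ hℓN A hA f hf k hk g hg
  have hℓ₀p : ℓ₀ ≠ p := fun h => hℓ₀N (h ▸ Dvd.intro_left N rfl)
  have hℓp : ℓ ≠ p := fun h => hℓN (h ▸ Dvd.intro_left N rfl)
  -- `σ = (f ^ k)⁻¹ * σ₀` fixes the compositum
  have hσ : ∀ x ∈ L₁ ⊔ L₂, ((f ^ k)⁻¹ * σ₀) x = x := fun x hx => by
    rw [AlgEquiv.mul_apply, hk x hx]
    exact (f ^ k).symm_apply_apply x
  have hσi : ∀ x ∈ L₁ ⊔ L₂, ((f ^ k)⁻¹ * σ₀)⁻¹ x = x := fun x hx => by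
    have h := hσ x hx
    have h2 : ((f ^ k)⁻¹ * σ₀)⁻¹ (((f ^ k)⁻¹ * σ₀) x) = x :=
      ((f ^ k)⁻¹ * σ₀).symm_apply_apply x
    rw [h] at h2
    exact h2
  have hg₀ : σ₀ = f ^ k * ((f ^ k)⁻¹ * σ₀) := by rw [mul_inv_cancel_left]
  have hle₁ : L₁ ≤ L₁ ⊔ L₂ := le_sup_left
  have hle₂ : L₂ ≤ L₁ ⊔ L₂ := le_sup_right
  have hs₁ : TI_Small (IsLocalRing.maximalIdeal ℤ_[p] ^ n) (ρ ((f ^ k)⁻¹ * σ₀) - 1) :=
    fun v => by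
      rw [LinearMap.sub_apply, Module.End.one_apply]
      exact h₁ _ (fun x hx => hσ x (hle₁ hx)) v
  have hs₁' : TI_Small (IsLocalRing.maximalIdeal ℤ_[p] ^ n) (ρ ((f ^ k)⁻¹ * σ₀)⁻¹ - 1) :=
    fun v => by
      rw [LinearMap.sub_apply, Module.End.one_apply]
      exact h₁ _ (fun x hx => hσi x (hle₁ hx)) v
  have hs₂ := h₂ ((f ^ k)⁻¹ * σ₀) fun x hx => hσ x (hle₂ hx)
  -- the approximation of `σ₀` by `f ^ k`
  have happ : TI_Small (IsLocalRing.maximalIdeal ℤ_[p] ^ n)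
      (ρ σ₀ + ((d σ₀ : ℤ_[p]ˣ) : ℤ_[p]) • ρ σ₀⁻¹
        - Θ (h22f1_Q (⟨ℓ, hℓ⟩ : Nat.Primes) k)) := by
    have hrel := hESrel ℓ hℓ hℓN A hA f hf
    have hdf := hdfrob ℓ hℓ hℓp A hA f hf
    have h := TI_approx_M (IsLocalRing.maximalIdeal ℤ_[p] ^ n) ρ d Θ (⟨ℓ, hℓ⟩ : Nat.Primes) f
      ((f ^ k)⁻¹ * σ₀) k (hcomm _ f) hrel hdf hs₁ hs₁' hs₂
    rw [← hg₀] at h
    exact h
  -- the exact formula at `σ₀`
  have hex : TI_Small (IsLocalRing.maximalIdeal ℤ_[p] ^ n)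
      (ρ σ₀ + ((d σ₀ : ℤ_[p]ˣ) : ℤ_[p]) • ρ σ₀⁻¹
        - Θ (MvPolynomial.X (⟨ℓ₀, hℓ₀⟩ : Nat.Primes))) := by
    have hrel := hESrel ℓ₀ hℓ₀ hℓ₀N A₀ hA₀ σ₀ hσ₀
    have hdf := hdfrob ℓ₀ hℓ₀ hℓ₀p A₀ hA₀ σ₀ hσ₀
    have hz : TI_Small (IsLocalRing.maximalIdeal ℤ_[p] ^ n) (ρ (1 : GQ) - 1) := by
      intro v
      rw [map_one, sub_self, LinearMap.zero_apply]
      exact Submodule.zero_mem _
    have hz' : TI_Small (IsLocalRing.maximalIdeal ℤ_[p] ^ n) (ρ (1 : GQ)⁻¹ - 1) := by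
      rw [inv_one]
      exact hz
    have hd1 : ((d (1 : GQ) : ℤ_[p]ˣ) : ℤ_[p]) - 1 ∈ IsLocalRing.maximalIdeal ℤ_[p] ^ n := by
      rw [map_one, Units.val_one, sub_self]
      exact Submodule.zero_mem _
    have h := TI_approx_M (IsLocalRing.maximalIdeal ℤ_[p] ^ n) ρ d Θ (⟨ℓ₀, hℓ₀⟩ : Nat.Primes) σ₀
      1 1 (hcomm _ σ₀) hrel hdf hz hz' hd1
    rw [pow_one, mul_one, Fermat.Agent.S30.acTrace_one] at h
    exact h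
  -- the polynomial `P = X_{ℓ₀} - Q`
  have hsmall : TI_Small (IsLocalRing.maximalIdeal ℤ_[p] ^ n)
      (Θ (h22f1_P (⟨ℓ₀, hℓ₀⟩ : Nat.Primes) (⟨ℓ, hℓ⟩ : Nat.Primes) k)) := by
    have e0 : Θ (h22f1_P (⟨ℓ₀, hℓ₀⟩ : Nat.Primes) (⟨ℓ, hℓ⟩ : Nat.Primes) k)
        = Θ (MvPolynomial.X (⟨ℓ₀, hℓ₀⟩ : Nat.Primes))
          - Θ (h22f1_Q (⟨ℓ, hℓ⟩ : Nat.Primes) k) := map_sub Θ _ _
    have e : Θ (h22f1_P (⟨ℓ₀, hℓ₀⟩ : Nat.Primes) (⟨ℓ, hℓ⟩ : Nat.Primes) k)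
        = (ρ σ₀ + ((d σ₀ : ℤ_[p]ˣ) : ℤ_[p]) • ρ σ₀⁻¹
            - Θ (h22f1_Q (⟨ℓ, hℓ⟩ : Nat.Primes) k)) -
        (ρ σ₀ + ((d σ₀ : ℤ_[p]ˣ) : ℤ_[p]) • ρ σ₀⁻¹
          - Θ (MvPolynomial.X (⟨ℓ₀, hℓ₀⟩ : Nat.Primes))) := by
      rw [e0]
      abel
    rw [e]
    exact happ.sub hex
  have hdiv : ∀ v : M, ∃ w : M,
      Θ (h22f1_P (⟨ℓ₀, hℓ₀⟩ : Nat.Primes) (⟨ℓ, hℓ⟩ : Nat.Primes) k) v
        = ((p : ℤ_[p]) ^ n) • w := by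
    intro v
    have h := hsmall v
    rw [hmaxZ, Ideal.span_singleton_pow] at h
    exact (TI_mem_span_smul_iff _ _).mp h
  obtain ⟨m, hm⟩ := hlink _ n hdiv
  -- the key lemma
  have hKey : HeckeKeyModP N (p ^ (n + m)) :=
    Fermat.Agent.S30.heckeKeyModP_of_int N (p ^ (n + m))
      (Fermat.Agent.S31.heckeKeyInt_of_lattice N hKL (p ^ (n + m)))
  obtain ⟨b, hb⟩ := hKey _
    (h22f1_vars N p (⟨ℓ₀, hℓ₀⟩ : Nat.Primes) (⟨ℓ, hℓ⟩ : Nat.Primes) hℓ₀N hℓN k m (n + m))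
    hm g hg
  refine ⟨(b : ℂ), b.2, ?_⟩
  have hb' : algebraMap ℤ ℂ ((p : ℤ) ^ m) *
      (ModularFormClass.qCoeff g ℓ₀ - acTrace (ModularFormClass.qCoeff g ℓ) ((ℓ : ℕ) : ℂ) k)
      = ((p ^ (n + m) : ℕ) : ℂ) * (b : ℂ) :=
    (h22f1_aeval_CP (fun ℓ : Nat.Primes => ModularFormClass.qCoeff g ℓ)
      (⟨ℓ₀, hℓ₀⟩ : Nat.Primes) (⟨ℓ, hℓ⟩ : Nat.Primes) k ((p : ℤ) ^ m)).symm.trans hb
  exact h22f1_cancel hp n m _ _ hb'

/-! ## The leaf -/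

/-- **HK-F1 (S-independence).** -/
theorem h22f1_sIndep : SIndep := by
  intro N N' _ _ hN'N g g' hg hg' S hagree ℓ₀ hℓ₀ hℓ₀N
  -- the auxiliary prime
  obtain ⟨p, hp, hpℓ₀⟩ : ∃ p : ℕ, p.Prime ∧ p ≠ ℓ₀ := by
    by_cases h : ℓ₀ = 2
    · exact ⟨3, Nat.prime_three, by omega⟩
    · exact ⟨2, Nat.prime_two, fun h' => h h'.symm⟩
  haveI : Fact p.Prime := ⟨hp⟩
  have hN0 : N ≠ 0 := NeZero.ne N
  have hℓ₀N' : ¬ ℓ₀ ∣ N' := fun h => hℓ₀N (h.trans hN'N)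
  have hℓ₀p : ¬ ℓ₀ ∣ p := fun h => hpℓ₀ ((Nat.prime_dvd_prime_iff_eq hℓ₀ hp).mp h).symm
  have h1 : ¬ ℓ₀ ∣ N * p := fun h => (hℓ₀.dvd_mul.mp h).elim hℓ₀N hℓ₀p
  have h2 : ¬ ℓ₀ ∣ N' * p := fun h => (hℓ₀.dvd_mul.mp h).elim hℓ₀N' hℓ₀p
  obtain ⟨A₀, σ₀, hA₀, hσ₀⟩ := Fermat.Agent.S54.exists_isFrobeniusAt ℓ₀ hℓ₀
  rw [← sub_eq_zero]
  refine h22f1_eq_zero_of_forall_dvd hp _ fun n => ?_
  obtain ⟨L₁, hL₁, hlev₁⟩ := h22f1_level N p ℓ₀ hℓ₀ h1 A₀ hA₀ σ₀ hσ₀ n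
  obtain ⟨L₂, hL₂, hlev₂⟩ := h22f1_level N' p ℓ₀ hℓ₀ h2 A₀ hA₀ σ₀ hσ₀ n
  have hfd : FiniteDimensional ℚ ↥(L₁ ⊔ L₂) := IntermediateField.finiteDimensional_sup L₁ L₂
  obtain ⟨ℓ, hℓ, hℓS, A, hA, f, hf, k, hk⟩ :=
    Fermat.Agent.Cheb.weakChebotarev (L₁ ⊔ L₂) hfd σ₀ (S ∪ N.primeFactors ∪ {p})
  have hℓS' : ℓ ∉ S := fun h => hℓS (Finset.mem_union_left _ (Finset.mem_union_left _ h))
  have hℓN : ¬ ℓ ∣ N := fun h =>
    hℓS (Finset.mem_union_left _ (Finset.mem_union_right _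
      (Nat.mem_primeFactors.mpr ⟨hℓ, h, hN0⟩)))
  have hℓp : ℓ ≠ p := fun h =>
    hℓS (Finset.mem_union_right _ (Finset.mem_singleton.mpr h))
  have hℓN' : ¬ ℓ ∣ N' := fun h => hℓN (h.trans hN'N)
  have hℓp' : ¬ ℓ ∣ p := fun h => hℓp ((Nat.prime_dvd_prime_iff_eq hℓ hp).mp h)
  have h3 : ¬ ℓ ∣ N * p := fun h => (hℓ.dvd_mul.mp h).elim hℓN hℓp'
  have h4 : ¬ ℓ ∣ N' * p := fun h => (hℓ.dvd_mul.mp h).elim hℓN' hℓp'
  obtain ⟨b₁, hb₁, e₁⟩ := hlev₁ ℓ hℓ h3 A hA f hf k (fun x hx => hk x (le_sup_left (a := L₁) hx))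
    g hg
  obtain ⟨b₂, hb₂, e₂⟩ := hlev₂ ℓ hℓ h4 A hA f hf k (fun x hx => hk x (le_sup_right (b := L₂) hx))
    g' hg'
  refine ⟨b₂ - b₁, hb₂.sub hb₁, ?_⟩
  have e := hagree ℓ hℓ hℓS'
  rw [e] at e₂
  rw [mul_sub, ← e₁, ← e₂]
  ring

end Fermat.Agent.S35
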