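import Mathlib
import Fermat.Agent.S35.HeckeSkeleton
import Fermat.Agent.S29
import Fermat.Agent.Cheb.Final
import Fermat.Agent.Cheb.CharpolyPow
import Fermat.Agent.S54.Frobenius

/-!
# S35, block HECKE, leaf HK-F1 (second seat, helper42): `SIndep`

Two normalised eigenforms `g`, `g'` of levels `N' ∣ N` whose eigenvalues agree at the primes
outside a finite set `S` have the same eigenvalue at every prime `ℓ₀ ∤ N`.

Short route through the landed residual representations (`Fermat.Agent.S29.result`):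
if `d = a_{ℓ₀}(g') - a_{ℓ₀}(g) ≠ 0`, then `d` divides a nonzero integer `c`; choose a prime
`p ∤ c`, `p ≠ ℓ₀`, and a residue map `φ : ℤ̄ → k` of characteristic `p`; then `φ d ≠ 0`.  The
residual representations `ρ`, `ρ'` of `g`, `g'` attached to `φ` factor through a finite level
`L`; by weak Chebotarev (`Fermat.Agent.Cheb.weakForm`) a Frobenius `σ₀` at `ℓ₀` acts on `L` as
a power `f ^ n` of a Frobenius `f` at a prime `ℓ ∉ S`, `ℓ ∤ N p`.  The characteristic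
polynomials of `ρ f` and `ρ' f` agree, hence so do those of the `n`-th powers
(`charpoly_pow_eq_of_charpoly_eq_fin_two`), i.e. of `ρ σ₀` and `ρ' σ₀`: `φ a_{ℓ₀}(g) =
φ a_{ℓ₀}(g')`, a contradiction.
-/

set_option autoImplicit false
set_option linter.style.haveILetI false

open Polynomial

namespace Fermat.Agent.S35

/-- a nonzero algebraic integer divides a nonzero rational integer. -/
theorem h42f1_dvd_int (d : integralClosure ℤ ℂ) (hd : d ≠ 0) :
    ∃ (c : ℤ) (e : integralClosure ℤ ℂ), c ≠ 0 ∧ (c : integralClosure ℤ ℂ) = d * e := by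
  have hint : IsIntegral ℤ (d : ℂ) := d.2
  have hd' : (d : ℂ) ≠ 0 := fun h => hd (Subtype.ext h)
  have hQ : minpoly ℚ (d : ℂ) = (minpoly ℤ (d : ℂ)).map (algebraMap ℤ ℚ) :=
    minpoly.isIntegrallyClosed_eq_field_fractions' ℚ hint
  have hc0 : (minpoly ℤ (d : ℂ)).coeff 0 ≠ 0 := by
    intro h0
    have h1 : (minpoly ℚ (d : ℂ)).coeff 0 = 0 := by
      rw [hQ, Polynomial.coeff_map, h0, map_zero]
    exact minpoly.coeff_zero_ne_zero hint.tower_top hd' h1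
  refine ⟨(minpoly ℤ (d : ℂ)).coeff 0, -(aeval d (minpoly ℤ (d : ℂ)).divX), hc0, ?_⟩
  have h1 : aeval d (minpoly ℤ (d : ℂ)) = 0 := by
    apply Subtype.ext
    rw [← Subalgebra.aeval_coe]
    exact minpoly.aeval ℤ (d : ℂ)
  have h2 : (minpoly ℤ (d : ℂ)).divX * X + C ((minpoly ℤ (d : ℂ)).coeff 0) =
      minpoly ℤ (d : ℂ) := Polynomial.divX_mul_X_add _
  rw [← h2, map_add, map_mul, aeval_X, aeval_C] at h1
  have h3 : algebraMap ℤ (integralClosure ℤ ℂ) ((minpoly ℤ (d : ℂ)).coeff 0) =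
      (((minpoly ℤ (d : ℂ)).coeff 0 : ℤ) : integralClosure ℤ ℂ) := by
    simp
  rw [h3] at h1
  linear_combination h1

/-- a rational prime is not a unit in the ring of algebraic integers. -/
theorem h42f1_span_ne_top (p : ℕ) (hp : p.Prime) :
    Ideal.span {(p : integralClosure ℤ ℂ)} ≠ ⊤ := by
  intro h
  rw [Ideal.span_singleton_eq_top] at h
  obtain ⟨u, hu⟩ := h.exists_right_inv
  -- `u = 1/p` is integral over `ℤ`
  have hu' : ((p : ℂ)) * (u : ℂ) = 1 := by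
    have := congrArg (fun x : integralClosure ℤ ℂ => (x : ℂ)) hu
    simpa using this
  have hp0 : (p : ℂ) ≠ 0 := Nat.cast_ne_zero.mpr hp.ne_zero
  have hu2 : (u : ℂ) = algebraMap ℚ ℂ ((p : ℚ)⁻¹) := by
    rw [map_inv₀, map_natCast]
    field_simp
    rw [mul_comm]
    exact hu'
  have hint : IsIntegral ℤ (algebraMap ℚ ℂ ((p : ℚ)⁻¹)) := by
    rw [← hu2]
    exact u.2
  have hint2 : IsIntegral ℤ ((p : ℚ)⁻¹) :=
    (isIntegral_algebraMap_iff (algebraMap ℚ ℂ).injective).mp hint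
  obtain ⟨y, hy⟩ := IsIntegrallyClosed.isIntegral_iff.mp hint2
  have h1 : (y : ℚ) * p = 1 := by
    have : (algebraMap ℤ ℚ y) = (y : ℚ) := rfl
    rw [← this, hy]
    exact inv_mul_cancel₀ (Nat.cast_ne_zero.mpr hp.ne_zero)
  have h2 : y * (p : ℤ) = 1 := by exact_mod_cast h1
  have h3 : (p : ℤ) ∣ 1 := Dvd.intro_left y h2
  have h4 : p ∣ 1 := by exact_mod_cast h3
  exact hp.one_lt.ne' (Nat.dvd_one.mp h4)

/-- **residue maps separate algebraic integers**: for `d ≠ 0` there is a residue map `φ` of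
characteristic `p ≠ ℓ₀` with `φ d ≠ 0`. -/
theorem h42f1_exists_residue (d : integralClosure ℤ ℂ) (hd : d ≠ 0) (ℓ₀ : ℕ) :
    ∃ (p : ℕ) (_ : p.Prime) (k : Type) (_ : Field k) (_ : CharP k p)
      (φ : integralClosure ℤ ℂ →+* k), p ≠ ℓ₀ ∧ φ d ≠ 0 := by
  obtain ⟨c, e, hc, hce⟩ := h42f1_dvd_int d hd
  obtain ⟨p, hpge, hp⟩ := Nat.exists_infinite_primes (max c.natAbs ℓ₀ + 1)
  have hpc : c.natAbs < p := by
    have := le_max_left c.natAbs ℓ₀
    omega
  have hpℓ : p ≠ ℓ₀ := by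
    have := le_max_right c.natAbs ℓ₀
    omega
  obtain ⟨m, hm, hle⟩ := Ideal.exists_le_maximal _ (h42f1_span_ne_top p hp)
  letI : Field (integralClosure ℤ ℂ ⧸ m) := Ideal.Quotient.field m
  have hp0 : ((p : ℕ) : integralClosure ℤ ℂ ⧸ m) = 0 := by
    have hmem : (p : integralClosure ℤ ℂ) ∈ m := hle (Ideal.subset_span rfl)
    have := Ideal.Quotient.eq_zero_iff_mem.mpr hmem
    simpa using this
  have hchar : CharP (integralClosure ℤ ℂ ⧸ m) p := by
    exact (CharP.charP_iff_prime_eq_zero hp).mpr hp0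
  refine ⟨p, hp, integralClosure ℤ ℂ ⧸ m, inferInstance, hchar, Ideal.Quotient.mk m, hpℓ, ?_⟩
  intro h0
  have h1 : Ideal.Quotient.mk m (c : integralClosure ℤ ℂ) = 0 := by
    rw [hce, map_mul, h0, zero_mul]
  have h2 : ((c : ℤ) : integralClosure ℤ ℂ ⧸ m) = 0 := by
    simpa using h1
  have h3 : (p : ℤ) ∣ c := (CharP.intCast_eq_zero_iff (integralClosure ℤ ℂ ⧸ m) p c).mp h2
  have h4 : p ∣ c.natAbs := Int.natCast_dvd.mp h3
  have h5 : c.natAbs ≠ 0 := Int.natAbs_ne_zero.mpr hc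
  have := Nat.le_of_dvd (Nat.pos_of_ne_zero h5) h4
  omega


/-- the characteristic polynomial of the `n`-th power of an endomorphism of a `2`-dimensional
space depends only on the characteristic polynomial. -/
theorem h42f1_charpoly_pow {k : Type} [Field k] {V V' : Type} [AddCommGroup V] [Module k V]
    [AddCommGroup V'] [Module k V'] [Module.Finite k V] [Module.Finite k V']
    (hV : Module.finrank k V = 2) (hV' : Module.finrank k V' = 2)
    (u : Module.End k V) (u' : Module.End k V') (h : u.charpoly = u'.charpoly) (n : ℕ) :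
    (u ^ n).charpoly = (u' ^ n).charpoly := by
  classical
  let b : Module.Basis (Fin 2) k V := Module.finBasisOfFinrankEq k V hV
  let b' : Module.Basis (Fin 2) k V' := Module.finBasisOfFinrankEq k V' hV'
  have h1 : (LinearMap.toMatrix b b u).charpoly = (LinearMap.toMatrix b' b' u').charpoly := by
    rw [LinearMap.charpoly_toMatrix, LinearMap.charpoly_toMatrix, h]
  have h2 := Fermat.Agent.Cheb.charpoly_pow_eq_of_charpoly_eq_fin_two h1 n
  rw [LinearMap.toMatrix_pow, LinearMap.toMatrix_pow, LinearMap.charpoly_toMatrix,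
    LinearMap.charpoly_toMatrix] at h2
  exact h2

/-- the linear coefficient of `X ^ 2 - C u * X + C v`. -/
theorem h42f1_coeff_one {k : Type} [Field k] (u v : k) :
    (X ^ 2 - C u * X + C v : k[X]).coeff 1 = -u := by
  simp [Polynomial.coeff_C, Polynomial.coeff_X_pow]

/-- **the residual comparison**: the images of `a_{ℓ₀}(g)` and `a_{ℓ₀}(g')` under a residue map
of characteristic `p ≠ ℓ₀` coincide. -/
theorem h42f1_residual {N N' : ℕ} (g : CuspForm (CongruenceSubgroup.Gamma0 N) 2)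
    (g' : CuspForm (CongruenceSubgroup.Gamma0 N') 2)
    (hg : g.IsNormalizedEigenform) (hg' : g'.IsNormalizedEigenform) (hNN : N' ∣ N)
    (S : Finset ℕ)
    (hS : ∀ ℓ : ℕ, ℓ.Prime → ℓ ∉ S → ModularFormClass.qCoeff g' ℓ = ModularFormClass.qCoeff g ℓ)
    (p : ℕ) (hp : p.Prime) (k : Type) [Field k] [CharP k p] (φ : integralClosure ℤ ℂ →+* k)
    (ℓ₀ : ℕ) (hℓ₀ : ℓ₀.Prime) (hℓ₀N : ¬ ℓ₀ ∣ N) (hℓ₀p : p ≠ ℓ₀)
    (a a' : integralClosure ℤ ℂ) (ha : (a : ℂ) = ModularFormClass.qCoeff g ℓ₀)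
    (ha' : (a' : ℂ) = ModularFormClass.qCoeff g' ℓ₀) : φ a = φ a' := by
  classical
  obtain ⟨ρ, hρ, -⟩ := Fermat.Agent.S29.result hg hp φ
  obtain ⟨ρ', hρ', -⟩ := Fermat.Agent.S29.result hg' hp φ
  obtain ⟨L1, hL1, h1⟩ := ρ.factorsThroughFiniteLevel
  obtain ⟨L2, hL2, h2⟩ := ρ'.factorsThroughFiniteLevel
  haveI : FiniteDimensional ℚ (↥(L1 ⊔ L2)) := IntermediateField.finiteDimensional_sup L1 L2
  obtain ⟨A0, σ0, hA0, hσ0⟩ := Fermat.Agent.S54.exists_isFrobeniusAt ℓ₀ hℓ₀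
  have hN0 : N ≠ 0 := by
    rintro rfl
    exact hℓ₀N (dvd_zero _)
  have hℓ₀N' : ¬ ℓ₀ ∣ N' := fun h => hℓ₀N (h.trans hNN)
  obtain ⟨ℓ, hℓ, hℓT, A, hA, f, hf, n, hn⟩ :=
    Fermat.Agent.Cheb.weakForm (L1 ⊔ L2) inferInstance σ0 (S ∪ {p} ∪ N.primeFactors)
  have hℓS : ℓ ∉ S := fun h => hℓT (Finset.mem_union_left _ (Finset.mem_union_left _ h))
  have hℓp : p ≠ ℓ := by
    intro h
    exact hℓT (Finset.mem_union_left _ (Finset.mem_union_right _ (by simp [h])))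
  have hℓN : ¬ ℓ ∣ N := by
    intro h
    exact hℓT (Finset.mem_union_right _ (Nat.mem_primeFactors.mpr ⟨hℓ, h, hN0⟩))
  have hℓN' : ¬ ℓ ∣ N' := fun h => hℓN (h.trans hNN)
  have hℓk : ((ℓ : ℕ) : k) ≠ 0 := CharP.cast_ne_zero_of_ne_of_prime (R := k) hℓ hℓp
  have hℓ₀k : ((ℓ₀ : ℕ) : k) ≠ 0 := CharP.cast_ne_zero_of_ne_of_prime (R := k) hℓ₀ hℓ₀p
  -- the characteristic polynomials at `f`
  obtain ⟨b, hb, hcb⟩ := hρ ℓ hℓ hℓN hℓk A hA f hf
  obtain ⟨b', hb', hcb'⟩ := hρ' ℓ hℓ hℓN' hℓk A hA f hf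
  have hbb : b = b' := by
    apply Subtype.ext
    rw [hb, hb', hS ℓ hℓ hℓS]
  have hcf : (ρ.ρ f).charpoly = (ρ'.ρ f).charpoly := by
    rw [hcb, hcb', hbb]
  -- `σ₀` acts as `f ^ n`
  have hfix : ∀ x ∈ L1 ⊔ L2, ((f ^ n)⁻¹ * σ0) x = x := by
    intro x hx
    rw [AlgEquiv.mul_apply, hn x hx]
    exact (f ^ n).symm_apply_apply x
  have hkey : ∀ (r : ResidualGaloisRep k) (M : IntermediateField ℚ (AlgebraicClosure ℚ)),
      M ≤ L1 ⊔ L2 →
      (∀ σ : AlgebraicClosure ℚ ≃ₐ[ℚ] AlgebraicClosure ℚ, (∀ x ∈ M, σ x = x) → r.ρ σ = 1) →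
      r.ρ σ0 = r.ρ f ^ n := by
    intro r M hM hr
    have h3 : r.ρ ((f ^ n)⁻¹ * σ0) = 1 := hr _ fun x hx => hfix x (hM hx)
    have h4 : r.ρ (f ^ n) * r.ρ ((f ^ n)⁻¹ * σ0) = r.ρ σ0 := by
      rw [← map_mul, mul_inv_cancel_left]
    rw [h3, mul_one, map_pow] at h4
    exact h4.symm
  have hσ : (ρ.ρ σ0).charpoly = (ρ'.ρ σ0).charpoly := by
    rw [hkey ρ L1 le_sup_left h1, hkey ρ' L2 le_sup_right h2]
    exact h42f1_charpoly_pow ρ.finrank_eq ρ'.finrank_eq _ _ hcf n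
  -- the characteristic polynomials at `σ₀`
  obtain ⟨a1, ha1, hca⟩ := hρ ℓ₀ hℓ₀ hℓ₀N hℓ₀k A0 hA0 σ0 hσ0
  obtain ⟨a1', ha1', hca'⟩ := hρ' ℓ₀ hℓ₀ hℓ₀N' hℓ₀k A0 hA0 σ0 hσ0
  have haa : a1 = a := Subtype.ext (ha1.trans ha.symm)
  have haa' : a1' = a' := Subtype.ext (ha1'.trans ha'.symm)
  rw [hca, hca', haa, haa'] at hσ
  have h5 := congrArg (fun P : k[X] => P.coeff 1) hσ
  simp only [h42f1_coeff_one] at h5
  exact neg_injective h5

/-- **HK-F1 (S-independence).** -/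
theorem h42f1_sIndep : SIndep := by
  intro N N' _ _ hNN g g' hg hg' S hS ℓ₀ hℓ₀ hℓ₀N
  by_contra hne
  have hi : IsIntegral ℤ (ModularFormClass.qCoeff g ℓ₀) :=
    Fermat.Agent.S29.eigenvaluesIntegral N g hg ℓ₀ hℓ₀
  have hi' : IsIntegral ℤ (ModularFormClass.qCoeff g' ℓ₀) :=
    Fermat.Agent.S29.eigenvaluesIntegral N' g' hg' ℓ₀ hℓ₀
  set a : integralClosure ℤ ℂ := ⟨ModularFormClass.qCoeff g ℓ₀, hi⟩ with ha
  set a' : integralClosure ℤ ℂ := ⟨ModularFormClass.qCoeff g' ℓ₀, hi'⟩ with ha'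
  have hd : a' - a ≠ 0 := by
    intro h
    apply hne
    have h1 : a' = a := sub_eq_zero.mp h
    exact congrArg Subtype.val h1
  obtain ⟨p, hp, k, hk, hchar, φ, hpℓ, hφ⟩ := h42f1_exists_residue (a' - a) hd ℓ₀
  have h := h42f1_residual g g' hg hg' hNN S hS p hp k φ ℓ₀ hℓ₀ hℓ₀N hpℓ a a' rfl rfl
  apply hφ
  rw [map_sub, h, sub_self]

end Fermat.Agent.S35
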