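import Fermat.Agent.S35.HK.OldKill
import Fermat.Agent.S35.H45Eig
import Fermat.Agent.S35.H73SIndep

/-!
# S35, HECKE-B: `OldKillStatement`, unconditional

`oldKill : OldKillStatement` from the landed leaves `h45e_eigenOfChar` (HK-EIG, helper45) and
`h73s_sIndep` (HK-F1, helper73) through `oldKill_of` (helper30).
-/

set_option autoImplicit false

namespace Fermat.Agent.S35

/-- **HECKE-B**, unconditional. -/
theorem oldKill : OldKillStatement :=
  oldKill_of (fun N _ => h45e_eigenOfChar N) h73s_sIndep

/-- the projector onto the new part, unconditional given `ConvKill`. -/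
theorem newProjector_of_convKill (h : ∀ (N : ℕ) [NeZero N], ConvKill N) : NewProjector :=
  newProjector_of h (fun N _ => h45e_eigenOfChar N) h73s_sIndep

end Fermat.Agent.S35
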