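import Fermat.Agent.S35.HK.ConvAsm
import Fermat.Agent.S35.H36KPar

/-!
# S35, HECKE-C: `ConvKey`, unconditional

`convKey M : ConvKey M` from the landed leaf KPAR (`h36x_kpar`, helper36) through
`convKey_of_kpar` (helper30; uses `h1c_lift` of helper1 and `h17s_lat` of helper17).
-/

set_option autoImplicit false

namespace Fermat.Agent.S35

/-- **KPAR**, unconditional. -/
theorem kPar : KPar :=
  fun N _ n hn f hf χ hχ γ hγ => h36x_kpar N n hn f hf χ hχ γ hγ

/-- **HECKE-C**, unconditional. -/
theorem convKey (M : ℕ) [NeZero M] : ConvKey M :=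
  convKey_of_kpar kPar M

end Fermat.Agent.S35
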